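import Fermat.Agent.H11J.SS
import Fermat.Agent.Frob.FrobTorsion

/-!
# Mod `ℓ` representations from parabolic eigenclasses on `Γ₁(Mℓ)`
-/

set_option autoImplicit false
set_option linter.style.haveILetI false
set_option linter.unusedSectionVars false
set_option maxSynthPendingDepth 3

noncomputable section

namespace Fermat.Agent.H11J

open CongruenceSubgroup Polynomial
open scoped MatrixGroups

open Fermat.Agent.H22 (GamH dChar KillsPE KillsPar heckeHL diamondL tr2)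

local notation "Qb" => AlgebraicClosure ℚ
local notation "Γℚ" => (AlgebraicClosure ℚ ≃ₐ[ℚ] AlgebraicClosure ℚ)
local notation "kk" => IsLocalRing.ResidueField

/-- On `Γ₁(N)`, `N ≥ 5`, there are no elliptic elements. -/
theorem kpe_of_killsPar {N : ℕ} (hN : 5 ≤ N) {A : Type*} [CommGroup A] {ψ : GamH N ⊥ →* A}
    (h : KillsPar ψ) : KillsPE ψ := by
  intro γ hγ
  apply h γ
  have h1 : (γ : SL(2, ℤ)) ∈ Gamma1 N := H22.GamH_bot.le γ.2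
  rw [Gamma1_mem] at h1
  have h2 : (N : ℤ) ∣ tr2 (γ : SL(2, ℤ)) - 2 := by
    rw [← ZMod.intCast_zmod_eq_zero_iff_dvd, H22.tr2_def]
    push_cast
    rw [h1.1, h1.2.1]
    ring
  have h3 : -2 ≤ tr2 (γ : SL(2, ℤ)) ∧ tr2 (γ : SL(2, ℤ)) ≤ 2 := by
    constructor <;> nlinarith
  obtain ⟨c, hc⟩ := h2
  have h4 : c = 0 := by
    have hN' : (5 : ℤ) ≤ N := by exact_mod_cast hN
    by_contra hc0
    rcases lt_or_gt_of_ne hc0 with h | h
    · nlinarith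
    · nlinarith
  rw [h4, mul_zero] at hc
  have h5 : tr2 (γ : SL(2, ℤ)) = 2 := by omega
  rw [h5]
  norm_num

variable [Algebra (AlgebraicClosure ℚ) ℂ]

/-- **The mod `ℓ` representation at a place `B` over `ℓ` attached to an eigenclass on
`Γ₁(Mℓ)`.** -/
theorem isModRep_of_eigen {M ℓ : ℕ} (hℓ : ℓ.Prime) [NeZero (M * ℓ)]
    {B : ValuationSubring Qb} (hB : B.LiesOverPrime ℓ) (a e : ℕ → DS.OO)
    (hK : ∀ q : ℕ, q.Prime → ¬ q ∣ M → q ≠ ℓ → ∀ A : ValuationSubring Qb, A.LiesOverPrime q →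
      KeyFK (⊥ : Subgroup (ZMod (M * ℓ))ˣ) A ℓ ∧ PrimFK (⊥ : Subgroup (ZMod (M * ℓ))ˣ) A ℓ)
    (φ : Additive (GamH (M * ℓ) ⊥) →+ kk B) (hφ : KPE φ) (hne : φ ≠ 0)
    (hb : ∀ (q : ℕ) (hq : q.Prime), ¬ q ∣ M * ℓ → haveI : NeZero q := ⟨hq.ne_zero⟩
      heckeHL (kk B) (M * ℓ) ⊥ (kk B) q φ = (DS.resO B (a q) * (q / DS.resO B (e q))) • φ)
    (E : (ZMod (M * ℓ))ˣ → kk B)
    (hE : ∀ g : Gamma0 (M * ℓ), diamondL (kk B) (M * ℓ) ⊥ (kk B) g φ = E (dChar (M * ℓ) g) • φ)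
    (hEq : ∀ (q : ℕ) (_ : q.Prime) (h : Nat.Coprime q (M * ℓ)),
      E (ZMod.unitOfCoprime q h) = DS.resO B (e q) / q)
    (he0 : ∀ q : ℕ, q.Prime → ¬ q ∣ M → DS.resO B (e q) ≠ 0) :
    ∃ ρ : DS.GQ →* GL (Fin 2) (kk B), DS.IsModRep M a e ℓ B ρ := by
  haveI : Fact ℓ.Prime := ⟨hℓ⟩
  haveI : IsAlgClosed (kk B) := Frob.isAlgClosed_resField B
  haveI : CharP (kk B) ℓ := H05.charP_residueField hℓ hB
  have hmem : ∀ q : ℕ, q.Prime → (q ∉ (M * ℓ).primeFactors ↔ ¬ q ∣ M ∧ q ≠ ℓ) := by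
    intro q hq
    rw [Nat.mem_primeFactors_of_ne_zero (NeZero.ne (M * ℓ))]
    constructor
    · intro h
      refine ⟨fun h1 => h ⟨hq, h1.mul_right _⟩, ?_⟩
      rintro rfl
      exact h ⟨hq, dvd_mul_left _ _⟩
    · rintro ⟨h1, h2⟩ ⟨-, h3⟩
      rcases (Nat.Prime.dvd_mul hq).1 h3 with h3 | h3
      · exact h1 h3
      · exact h2 ((Nat.prime_dvd_prime_iff_eq hq hℓ).1 h3)
  have hndvd : ∀ q : ℕ, q.Prime → ¬ q ∣ M → q ≠ ℓ → ¬ q ∣ M * ℓ := by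
    intro q hq h1 h2 h3
    rcases (Nat.Prime.dvd_mul hq).1 h3 with h3 | h3
    · exact h1 h3
    · exact h2 ((Nat.prime_dvd_prime_iff_eq hq hℓ).1 h3)
  obtain ⟨ρ, h1, h2, h3⟩ := exists_rep_of_eigen (ℓ := ℓ) (H := (⊥ : Subgroup (ZMod (M * ℓ))ˣ))
    (k := kk B) hφ hne (fun q => DS.resO B (a q) * (q / DS.resO B (e q))) E
    (M * ℓ).primeFactors
    ((Nat.mem_primeFactors_of_ne_zero (NeZero.ne (M * ℓ))).2 ⟨hℓ, dvd_mul_left _ _⟩)
    (fun q hq h => (Nat.mem_primeFactors_of_ne_zero (NeZero.ne (M * ℓ))).2 ⟨hq, h⟩)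
    (fun q hq hqB => hb q hq (hndvd q hq ((hmem q hq).1 hqB).1 ((hmem q hq).1 hqB).2))
    hE (fun q hq hqB A hA => hK q hq ((hmem q hq).1 hqB).1 ((hmem q hq).1 hqB).2 A hA)
  obtain ⟨ρ', g1, g2, g3⟩ := exists_ss ρ
  refine ⟨ρ', ?_, g1, fun q hq hqM hqℓ A hA σ hσ => ?_, fun q hq hqM hqℓ A hA σ hσ => ?_⟩
  · obtain ⟨L, hL, hL'⟩ := h1
    refine ⟨L, hL, fun σ hσ => ?_⟩
    rw [MonoidHom.mem_ker]
    exact g3 σ (hL' σ ((IntermediateField.mem_fixingSubgroup_iff L σ).1 hσ))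
  · exact g3 σ (h3 q hq ((hmem q hq).2 ⟨hqM, hqℓ⟩) A hA σ hσ)
  · have h4 := h2 q hq ((hmem q hq).2 ⟨hqM, hqℓ⟩) A hA σ hσ
    have hq0 : (q : kk B) ≠ 0 := by
      intro h0
      rw [CharP.cast_eq_zero_iff (kk B) ℓ] at h0
      exact hqℓ ((Nat.prime_dvd_prime_iff_eq hℓ hq).1 h0).symm
    have he := he0 q hq hqM
    rw [hEq q hq] at h4
    have h5 : DS.resO B (a q) * (q / DS.resO B (e q)) * (DS.resO B (e q) / q) =
        DS.resO B (a q) := by field_simp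
    have h6 : (q : kk B) * (DS.resO B (e q) / q) = DS.resO B (e q) := by field_simp
    rw [h5, h6] at h4
    have h7 : (ρ σ).charpoly = X ^ 2 - C (ρ σ).trace * X + C (ρ σ).det :=
      Matrix.charpoly_fin_two _
    rw [h7] at h4
    have h8 := congrArg (fun p => coeff p 1) h4
    have h9 := congrArg (fun p => coeff p 0) h4
    simp [coeff_X] at h8 h9
    exact ⟨((g2 σ).1).trans h8, ((g2 σ).2).trans h9⟩

end Fermat.Agent.H11J
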