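import Fermat.Agent.H23.W1.Depl
import Fermat.Agent.H25.Density
import Fermat.Agent.DefRing.Burnside
import Fermat.Prelude.Def_Deformations_MatrixRepresentation

/-!
# Weight one forms: reduction to levels divisible by two or three
-/

set_option autoImplicit false
set_option linter.style.haveILetI false
set_option linter.unusedSectionVars false

noncomputable section

namespace Fermat.Agent.H11J

open CongruenceSubgroup
open scoped MatrixGroups

local notation "Qb" => AlgebraicClosure ℚ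
local notation "Γℚ" => (AlgebraicClosure ℚ ≃ₐ[ℚ] AlgebraicClosure ℚ)

/-! ### Traces -/

section Trace

theorem trace_pow_eq {R : Type*} [CommRing R] (M : Matrix (Fin 2) (Fin 2) R) (n : ℕ) :
    (M ^ n).trace = H05.lucas M.trace M.det n := by
  have hCH : M * M = M.trace • M - M.det • (1 : Matrix (Fin 2) (Fin 2) R) := by
    ext i j
    rw [Matrix.trace_fin_two, Matrix.det_fin_two]
    fin_cases i <;> fin_cases j <;> simp [Matrix.mul_apply, Fin.sum_univ_two] <;> ring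
  induction n using Nat.twoStepInduction with
  | zero => simp [H05.lucas, Matrix.trace_one]
  | one => simp [H05.lucas]
  | more n ih1 ih2 =>
    rw [H05.lucas, ← ih1, ← ih2, pow_succ, pow_succ, mul_assoc, hCH, mul_sub, Matrix.trace_sub,
      mul_smul_comm, mul_smul_comm, Matrix.trace_smul, Matrix.trace_smul, mul_one, ← pow_succ]
    simp only [smul_eq_mul]

/-- Two representations with finite image with the same characteristic polynomials at almost all
Frobenius elements have the same traces. -/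
theorem trace_eq_of_frob {k : Type} [Field k] {ρ ρ' : Γℚ →* GL (Fin 2) k}
    (h : GaloisFactorsThroughFiniteLevel ρ) (h' : GaloisFactorsThroughFiniteLevel ρ') (T : Finset ℕ)
    (hF : ∀ p : ℕ, p.Prime → p ∉ T → ∀ A : ValuationSubring Qb, A.LiesOverPrime p →
      ∀ σ : Γℚ, A.IsFrobeniusAt σ p →
        (ρ σ : Matrix (Fin 2) (Fin 2) k).trace = (ρ' σ : Matrix (Fin 2) (Fin 2) k).trace ∧
        (ρ σ : Matrix (Fin 2) (Fin 2) k).det = (ρ' σ : Matrix (Fin 2) (Fin 2) k).det) (σ : Γℚ) :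
    (ρ σ : Matrix (Fin 2) (Fin 2) k).trace = (ρ' σ : Matrix (Fin 2) (Fin 2) k).trace := by
  obtain ⟨L, hL, hL1⟩ := h
  obtain ⟨L', hL', hL1'⟩ := h'
  haveI := hL
  haveI := hL'
  obtain ⟨p, hp, hpT, A, hA, φ, hφ, -, n, -, h2⟩ := H25.exists_frobenius (L ⊔ L') T σ
  obtain ⟨h3, h4⟩ := hF p hp hpT A hA φ hφ
  have key : ∀ {ρ₀ : Γℚ →* GL (Fin 2) k} (_ : ∀ σ : Γℚ, (∀ x ∈ L ⊔ L', σ x = x) → ρ₀ σ = 1),
      (ρ₀ σ : Matrix (Fin 2) (Fin 2) k) = (ρ₀ φ : Matrix (Fin 2) (Fin 2) k) ^ n := by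
    intro ρ₀ h0
    have h5 : ρ₀ ((φ ^ n)⁻¹ * σ) = 1 := h0 _ fun x hx => by
      change (φ ^ n)⁻¹ (σ x) = x
      rw [h2 x hx]
      exact (φ ^ n).symm_apply_apply x
    rw [map_mul, map_inv, inv_mul_eq_one] at h5
    rw [← h5, map_pow, Units.val_pow_eq_pow_val]
  rw [key (ρ₀ := ρ) fun τ hτ => hL1 τ fun x hx => hτ x (le_sup_left (a := L) hx),
    key (ρ₀ := ρ') fun τ hτ => hL1' τ fun x hx => hτ x (le_sup_right (a := L) hx),
    trace_pow_eq, trace_pow_eq, h3, h4]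

theorem det_eq_of_trace {G k : Type*} [Group G] [Field k] [NeZero (2 : k)]
    {ρ ρ' : G →* GL (Fin 2) k}
    (h : ∀ σ, (ρ σ : Matrix (Fin 2) (Fin 2) k).trace = (ρ' σ : Matrix (Fin 2) (Fin 2) k).trace)
    (σ : G) : (ρ σ : Matrix (Fin 2) (Fin 2) k).det = (ρ' σ : Matrix (Fin 2) (Fin 2) k).det := by
  have h1 := h (σ ^ 2)
  rw [map_pow, map_pow, Units.val_pow_eq_pow_val, Units.val_pow_eq_pow_val, trace_pow_eq,
    trace_pow_eq, h σ] at h1
  simp only [H05.lucas] at h1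
  have h2 : (2 : k) ≠ 0 := NeZero.ne 2
  apply mul_right_cancel₀ h2
  linear_combination -h1

theorem span_top_of_irr {G k : Type} [Group G] [Field k] [IsAlgClosed k] {ρ : G →* GL (Fin 2) k}
    (hirr : (Deformation.matrixRepresentation ρ).IsIrreducible) :
    Submodule.span k (Set.range fun g => (ρ g : Matrix (Fin 2) (Fin 2) k)) = ⊤ := by
  have h1 := H04.span_range_eq_top_of_irreducible (Deformation.matrixRepresentation ρ)
    fun W hW => by
      rcases hirr.eq_bot_or_eq_top ⟨W, hW⟩ with h | h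
      · left
        exact congrArg Subrepresentation.toSubmodule h
      · right
        exact congrArg Subrepresentation.toSubmodule h
  have h2 : Submodule.map ((Matrix.toLin' (R := k) (m := Fin 2) (n := Fin 2)).toLinearMap)
      (Submodule.span k (Set.range fun g => (ρ g : Matrix (Fin 2) (Fin 2) k))) = ⊤ := by
    rw [Submodule.map_span, ← h1]
    congr 1
    rw [← Set.range_comp]
    rfl
  rw [eq_top_iff]
  intro x _
  have h3 : (Matrix.toLin' (R := k) (m := Fin 2) (n := Fin 2)).toLinearMap x ∈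
      Submodule.map ((Matrix.toLin' (R := k) (m := Fin 2) (n := Fin 2)).toLinearMap)
      (Submodule.span k (Set.range fun g => (ρ g : Matrix (Fin 2) (Fin 2) k))) := by
    rw [h2]; trivial
  obtain ⟨y, hy, hyx⟩ := Submodule.mem_map.mp h3
  rwa [← (Matrix.toLin' (R := k) (m := Fin 2) (n := Fin 2)).injective hyx]

/-- An irreducible representation with the traces of `ρ'` is trivial where `ρ'` is. -/
theorem eq_one_of_trace {G k : Type} [Group G] [Field k] [IsAlgClosed k]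
    {ρ ρ' : G →* GL (Fin 2) k} (hirr : (Deformation.matrixRepresentation ρ).IsIrreducible)
    (h : ∀ σ, (ρ σ : Matrix (Fin 2) (Fin 2) k).trace = (ρ' σ : Matrix (Fin 2) (Fin 2) k).trace)
    {σ : G} (hσ : ρ' σ = 1) : ρ σ = 1 := by
  have h1 : ∀ X : Matrix (Fin 2) (Fin 2) k,
      (((ρ σ : Matrix (Fin 2) (Fin 2) k) - 1) * X).trace = 0 := by
    intro X
    have hX : X ∈ Submodule.span k (Set.range fun g => (ρ g : Matrix (Fin 2) (Fin 2) k)) := by
      rw [span_top_of_irr hirr]; trivial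
    induction hX using Submodule.span_induction with
    | mem x hx =>
      obtain ⟨g, rfl⟩ := hx
      have h2 : ((ρ σ : Matrix (Fin 2) (Fin 2) k) - 1) * (ρ g : Matrix (Fin 2) (Fin 2) k) =
          (ρ (σ * g) : Matrix (Fin 2) (Fin 2) k) - (ρ g : Matrix (Fin 2) (Fin 2) k) := by
        rw [sub_mul, one_mul, map_mul, Units.val_mul]
      simp only [h2, Matrix.trace_sub, h]
      rw [map_mul, hσ, one_mul, sub_self]
    | zero => simp
    | add x y _ _ hx hy => rw [mul_add, Matrix.trace_add, hx, hy, add_zero]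
    | smul c x _ hx => rw [mul_smul_comm, Matrix.trace_smul, hx, smul_zero]
  apply Units.ext
  rw [Units.val_one, ← sub_eq_zero]
  ext i j
  have h2 := h1 (Matrix.single j i 1)
  rw [Matrix.trace_mul_single] at h2
  simpa using h2

end Trace

/-! ### Levels -/

section Level

open ModularFormClass (qCoeff)

open Fermat.Agent.H23.W1 (cfm coe_mem_SG)

/-- The Deligne–Serre statement at level `N`. -/
def S48At (N : ℕ) [NeZero N] : Prop :=
  ∀ (ε : DirichletCharacter ℂ N) (f : CuspForm (Gamma1 N) 1), qCoeff f 1 = 1 →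
    (∀ p : ℕ, p.Prime → ¬ p ∣ N → ∀ n : ℕ, qCoeff f (p * n) +
      ε (p : ZMod N) * (if p ∣ n then qCoeff f (n / p) else 0) = qCoeff f p * qCoeff f n) →
    ∃ ρ : Γℚ →* GL (Fin 2) ℂ, GaloisFactorsThroughFiniteLevel ρ ∧
      (Deformation.matrixRepresentation ρ).IsIrreducible ∧
      ∀ p : ℕ, p.Prime → ¬ p ∣ N → ∀ A : ValuationSubring Qb, A.LiesOverPrime p →
        (∀ σ ∈ A.inertiaSubgroupIn ℚ, ρ σ = 1) ∧
        ∀ σ : Γℚ, A.IsFrobeniusAt σ p →
          ((ρ σ : GL (Fin 2) ℂ) : Matrix (Fin 2) (Fin 2) ℂ).trace = qCoeff f p ∧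
          ((ρ σ : GL (Fin 2) ℂ) : Matrix (Fin 2) (Fin 2) ℂ).det = ε (p : ZMod N)

/-- a form of level `N` as a form of level `M` -/
def upCF {N M : ℕ} [NeZero N] [NeZero M] (h : N ∣ M) (f : CuspForm (Gamma1 N) 1) : CuspForm (Gamma1 M) 1 :=
  cfm (k := 1) (f := f) ⟨⟨fun γ hγ => (coe_mem_SG f).1.slash γ (by
    rw [Gamma1_mem] at hγ ⊢
    have e : ∀ (a b : ℤ), (a : ZMod M) = (b : ZMod M) → (a : ZMod N) = (b : ZMod N) := by
      intro a b hab
      rw [ZMod.intCast_eq_intCast_iff_dvd_sub] at hab ⊢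
      exact (Int.natCast_dvd_natCast.2 h).trans hab
    have h1 := e _ 1 (by simpa using hγ.1)
    have h2 := e _ 1 (by simpa using hγ.2.1)
    have h3 := e _ 0 (by simpa using hγ.2.2)
    exact ⟨by simpa using h1, by simpa using h2, by simpa using h3⟩),
    (coe_mem_SG f).1.holo, (coe_mem_SG f).1.bdd⟩, (coe_mem_SG f).2⟩

theorem coe_upCF {N M : ℕ} [NeZero N] [NeZero M] (h : N ∣ M) (f : CuspForm (Gamma1 N) 1) :
    (upCF h f : UpperHalfPlane → ℂ) = f := rfl

/-- the representation attached to a form of level `N` at an auxiliary level `M` -/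
theorem exists_aux {N M : ℕ} [NeZero N] [NeZero M] (h : N ∣ M) (H : S48At M)
    (ε : DirichletCharacter ℂ N) (f : CuspForm (Gamma1 N) 1) (hf : qCoeff f 1 = 1)
    (hT : ∀ p : ℕ, p.Prime → ¬ p ∣ N → ∀ n : ℕ, qCoeff f (p * n) +
      ε (p : ZMod N) * (if p ∣ n then qCoeff f (n / p) else 0) = qCoeff f p * qCoeff f n) :
    ∃ ρ : Γℚ →* GL (Fin 2) ℂ, GaloisFactorsThroughFiniteLevel ρ ∧
      (Deformation.matrixRepresentation ρ).IsIrreducible ∧
      ∀ p : ℕ, p.Prime → ¬ p ∣ M → ∀ A : ValuationSubring Qb, A.LiesOverPrime p →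
        (∀ σ ∈ A.inertiaSubgroupIn ℚ, ρ σ = 1) ∧
        ∀ σ : Γℚ, A.IsFrobeniusAt σ p →
          ((ρ σ : GL (Fin 2) ℂ) : Matrix (Fin 2) (Fin 2) ℂ).trace = qCoeff f p ∧
          ((ρ σ : GL (Fin 2) ℂ) : Matrix (Fin 2) (Fin 2) ℂ).det = ε (p : ZMod N) := by
  have hε : ∀ p : ℕ, p.Prime → ¬ p ∣ M →
      (DirichletCharacter.changeLevel h ε) (p : ZMod M) = ε (p : ZMod N) := by
    intro p hp hpM
    have hu : IsUnit ((p : ℕ) : ZMod M) := (ZMod.isUnit_iff_coprime p M).2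
      ((Nat.Prime.coprime_iff_not_dvd hp).2 hpM)
    obtain ⟨u, hu⟩ := hu
    rw [← hu, DirichletCharacter.changeLevel_eq_cast_of_dvd ε h, hu, ZMod.cast_natCast h]
  obtain ⟨ρ, h1, h2, h3⟩ := H (DirichletCharacter.changeLevel h ε) (upCF h f) hf
    (fun p hp hpM n => by
      rw [hε p hp hpM]
      exact hT p hp (fun hpN => hpM (hpN.trans h)) n)
  refine ⟨ρ, h1, h2, fun p hp hpM A hA => ?_⟩
  obtain ⟨h4, h5⟩ := h3 p hp hpM A hA
  refine ⟨h4, fun σ hσ => ?_⟩
  rw [← hε p hp hpM]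
  exact h5 σ hσ

/-- **Reduction to levels divisible by two or three.** -/
theorem s48At_of (H : ∀ (N : ℕ) [NeZero N], (2 ∣ N ∨ 3 ∣ N) → S48At N) (N : ℕ) [NeZero N] :
    S48At N := by
  by_cases h2 : 2 ∣ N
  · exact H N (Or.inl h2)
  intro ε f hf hT
  haveI : NeZero (N * 2) := ⟨mul_ne_zero (NeZero.ne N) two_ne_zero⟩
  haveI : NeZero (N * 3) := ⟨mul_ne_zero (NeZero.ne N) three_ne_zero⟩
  obtain ⟨ρ, a1, a2, a3⟩ := exists_aux (dvd_mul_right N 2) (H (N * 2) (Or.inl (dvd_mul_left 2 N)))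
    ε f hf hT
  obtain ⟨ρ', b1, b2, b3⟩ := exists_aux (dvd_mul_right N 3) (H (N * 3) (Or.inr (dvd_mul_left 3 N)))
    ε f hf hT
  have hnd : ∀ p r : ℕ, p.Prime → r.Prime → p ≠ r → ¬ p ∣ N → ¬ p ∣ N * r := by
    intro p r hp hr hpr hpN h
    rcases (Nat.Prime.dvd_mul hp).1 h with h | h
    · exact hpN h
    · exact hpr ((Nat.prime_dvd_prime_iff_eq hp hr).1 h)
  have htr : ∀ σ : Γℚ, (ρ σ : Matrix (Fin 2) (Fin 2) ℂ).trace =
      (ρ' σ : Matrix (Fin 2) (Fin 2) ℂ).trace := by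
    refine trace_eq_of_frob a1 b1 (N * 6).primeFactors fun p hp hpT A hA σ hσ => ?_
    rw [Nat.mem_primeFactors_of_ne_zero (mul_ne_zero (NeZero.ne N) (by norm_num))] at hpT
    have hpN : ¬ p ∣ N := fun h => hpT ⟨hp, h.mul_right 6⟩
    have hp2 : p ≠ 2 := by
      rintro rfl
      exact hpT ⟨hp, (by norm_num : 2 ∣ 6).mul_left N⟩
    have hp3 : p ≠ 3 := by
      rintro rfl
      exact hpT ⟨hp, (by norm_num : 3 ∣ 6).mul_left N⟩
    obtain ⟨c1, c2⟩ := (a3 p hp (hnd p 2 hp Nat.prime_two hp2 hpN) A hA).2 σ hσ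
    obtain ⟨d1, d2⟩ := (b3 p hp (hnd p 3 hp Nat.prime_three hp3 hpN) A hA).2 σ hσ
    exact ⟨c1.trans d1.symm, c2.trans d2.symm⟩
  refine ⟨ρ, a1, a2, fun p hp hpN A hA => ?_⟩
  by_cases hp2 : p = 2
  · subst hp2
    obtain ⟨e1, e2⟩ := b3 2 hp (hnd 2 3 hp Nat.prime_three (by norm_num) hpN) A hA
    refine ⟨fun σ hσ => eq_one_of_trace a2 htr (e1 σ hσ), fun σ hσ => ?_⟩
    obtain ⟨e3, e4⟩ := e2 σ hσ
    exact ⟨(htr σ).trans e3, (det_eq_of_trace htr σ).trans e4⟩
  · exact a3 p hp (hnd p 2 hp Nat.prime_two hp2 hpN) A hA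

end Level

end Fermat.Agent.H11J
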