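import Fermat.Agent.H11J.KC
import Fermat.Agent.Q.Gauss

/-!
# Interface: the kernel of reduction for the function fields of `Γ_H(N)`
-/

set_option autoImplicit false
set_option linter.unusedSectionVars false
set_option maxSynthPendingDepth 3

noncomputable section

namespace Fermat.Agent.H11J

open AlgebraicCurve ModularCurve CongruenceSubgroup
open Fermat.Agent.H22 (GamH)
open Fermat.Agent.H18J (FK dia)

local notation "Qb" => AlgebraicClosure ℚ

variable [Algebra (AlgebraicClosure ℚ) ℂ] {N : ℕ} [NeZero N] (H : Subgroup (ZMod N)ˣ)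

/-- the expansion of `f` has coefficients in `A` and non zero reduction -/
def Prim (A : ValuationSubring Qb) (f : LaurentSeries Qb) : Prop :=
  ∃ h : f ∈ Q.intL A, Q.redL A ⟨f, h⟩ ≠ 0

/-- KEY: two primitive functions with the same reduction whose quotient has divisor divisible by
`m` differ by an `m`-th power. -/
def KeyFK (A : ValuationSubring Qb) (m : ℕ) : Prop :=
  ∀ (a b : FK Qb (GamH N H)) (ha : (a : LaurentSeries Qb) ∈ Q.intL A)
    (hb : (b : LaurentSeries Qb) ∈ Q.intL A), Q.redL A ⟨a, ha⟩ = Q.redL A ⟨b, hb⟩ →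
    Q.redL A ⟨b, hb⟩ ≠ 0 → (∀ v : Place Qb (FK Qb (GamH N H)), (m : ℤ) ∣ v.ord (a / b)) →
    ∃ w : FK Qb (GamH N H), a = b * w ^ m

/-- Every function is, up to `m`-th powers, primitive at all the diamond translates. -/
def PrimFK (A : ValuationSubring Qb) (m : ℕ) : Prop :=
  ∀ f : FK Qb (GamH N H), f ≠ 0 → ∃ h : FK Qb (GamH N H), h ≠ 0 ∧
    ∀ g : Gamma0 N, Prim A (dia Qb H g (f * h ^ m) : LaurentSeries Qb)

end Fermat.Agent.H11J
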