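import Fermat.Agent.H23.QuadAssembly

/-!
# From a Hecke–Galois module with nebentypus to a two-dimensional representation
-/

set_option autoImplicit false
set_option linter.style.haveILetI false

namespace Fermat.Agent.H11J

open Module Polynomial TensorProduct

/-- **Assembly**, with operator valued multiplier: from a module over a finite `ℤ`-algebra `T`
with a commuting group action satisfying `g + c(g) g⁻¹ = s(g)`, `c(g), s(g) ∈ T`, and a character
of `T` whose kernel contains the annihilator, to a two-dimensional representation. -/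
theorem exists_matrixRep {G : Type*} [Group G] {T : Type} [CommRing T] [Module.Finite ℤ T]
    {W : Type} [AddCommGroup W] (act : T →+* Module.End ℤ W) (r : G →* Module.End ℤ W)
    (hcomm : ∀ t g w, act t (r g w) = r g (act t w))
    (hfin : (Set.range r).Finite)
    {n : ℕ} (hn : n ≠ 0) (hW : ∀ w : W, n • w = 0)
    {F : Type} [Field F] [IsAlgClosed F] (χ : T →+* F) (hmax : (RingHom.ker χ).IsMaximal)
    (hker : ∀ t, act t = 0 → χ t = 0)
    (d : G →* F) (s : G → T) (c : G → T) (hd : ∀ g, d g = χ (c g))
    (hquad : ∀ g w, act (s g) w = r g w + act (c g) (r g⁻¹ w)) :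
    ∃ r' : G →* Matrix (Fin 2) (Fin 2) F,
      (∀ g, (r' g).charpoly = X ^ 2 - C (χ (s g)) * X + C (d g)) ∧
      ∀ g, r g = 1 → d g = 1 → r' g = 1 := by
  classical
  letI : Module T W := Module.compHom W act
  have hsmul : ∀ (t : T) (w : W), t • w = act t w := fun _ _ => rfl
  letI : Algebra T F := χ.toAlgebra
  have halg : ∀ t : T, algebraMap T F t = χ t := fun _ => rfl
  -- a functional
  haveI := hmax
  obtain ⟨f, w0, hf⟩ := H23.exists_functional (RingHom.ker χ) (W := W)
    (H23.smul_top_ne_top hn (RingHom.ker χ) hW (fun t ht => by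
      rw [RingHom.mem_ker]
      apply hker
      ext w
      exact ht w))
  -- the action on `F ⊗ W`
  let rT : G → (W →ₗ[T] W) := fun g =>
    { toFun := r g
      map_add' := map_add (r g)
      map_smul' := fun t w => by
        rw [RingHom.id_apply, hsmul, hsmul, hcomm] }
  have hrT : ∀ g w, rT g w = r g w := fun _ _ => rfl
  let R : G →* Module.End F (F ⊗[T] W) :=
    { toFun := fun g => (rT g).baseChange F
      map_one' := by
        have : rT 1 = LinearMap.id := by
          ext w
          rw [hrT, map_one]
          rfl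
        rw [this, LinearMap.baseChange_id]
        rfl
      map_mul' := fun g h => by
        have : rT (g * h) = rT g ∘ₗ rT h := by
          ext w
          rw [hrT, map_mul]
          rfl
        rw [this, LinearMap.baseChange_comp]
        rfl }
  have hR : ∀ g a w, R g (a ⊗ₜ w) = a ⊗ₜ (r g w) := fun g a w => rfl
  have hrinv : ∀ g w, r g⁻¹ (r g w) = w := fun g w => by
    have : r g⁻¹ * r g = 1 := by rw [← map_mul, inv_mul_cancel, map_one]
    exact LinearMap.congr_fun this w
  have hquadR : ∀ g : G, ∀ v : F ⊗[T] W, R g (R g v) - χ (s g) • R g v + d g • v = 0 := by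
    intro g v
    induction v using TensorProduct.induction_on with
    | zero => simp
    | tmul a w =>
      rw [hR, hR, TensorProduct.smul_tmul', TensorProduct.smul_tmul', ← halg, smul_eq_mul,
        ← Algebra.smul_def, TensorProduct.smul_tmul, hsmul, hquad, hrinv, hd, smul_eq_mul,
        TensorProduct.tmul_add]
      have : (χ (c g) * a) ⊗ₜ[T] w = a ⊗ₜ[T] (act (c g) w) := by
        rw [← halg, ← Algebra.smul_def, TensorProduct.smul_tmul, hsmul]
      rw [this]
      abel
    | add x y hx hy =>
      have : R g (R g (x + y)) - χ (s g) • R g (x + y) + d g • (x + y) =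
          (R g (R g x) - χ (s g) • R g x + d g • x) +
          (R g (R g y) - χ (s g) • R g y + d g • y) := by
        simp only [map_add, smul_add]
        abel
      rw [this, hx, hy, add_zero]
  -- the vector `1 ⊗ w0` is nonzero
  set v0 : F ⊗[T] W := 1 ⊗ₜ w0 with hv0
  have hv0ne : v0 ≠ 0 := by
    let j : (T ⧸ RingHom.ker χ) →ₗ[T] F :=
      { toFun := RingHom.kerLift χ
        map_add' := map_add _
        map_smul' := fun t x => by
          obtain ⟨y, rfl⟩ := Ideal.Quotient.mk_surjective x
          change RingHom.kerLift χ (Ideal.Quotient.mk _ (t * y)) = _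
          rw [map_mul, map_mul]
          rfl }
    let F1 : F ⊗[T] W →ₗ[T] F := TensorProduct.lift
      ((LinearMap.mul T F).compl₂ (j ∘ₗ f))
    intro h0
    have h1 : F1 v0 = 1 := by
      change (1 : F) * j (f w0) = 1
      rw [hf, one_mul]
      change RingHom.kerLift χ 1 = 1
      rw [map_one]
    rw [h0, map_zero] at h1
    exact zero_ne_one h1
  -- the finite-dimensional invariant subspace
  let U : Submodule F (F ⊗[T] W) := Submodule.span F (Set.range fun g => R g v0)
  have hU : ∀ g : G, ∀ u ∈ U, R g u ∈ U := by
    intro g u hu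
    induction hu using Submodule.span_induction with
    | mem u hu =>
      obtain ⟨x, rfl⟩ := hu
      apply Submodule.subset_span
      exact ⟨g * x, by simp [map_mul]⟩
    | zero => rw [map_zero]; exact Submodule.zero_mem _
    | add a b _ _ ha hb => rw [map_add]; exact Submodule.add_mem _ ha hb
    | smul c a _ ha => rw [map_smul]; exact Submodule.smul_mem _ _ ha
  have hUfin : FiniteDimensional F U := by
    apply FiniteDimensional.span_of_finite
    have : (Set.range fun g => R g v0) =
        (fun φ : Module.End ℤ W => (1 : F) ⊗ₜ[T] (φ w0)) '' Set.range r := by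
      ext x
      constructor
      · rintro ⟨g, rfl⟩
        exact ⟨r g, ⟨g, rfl⟩, rfl⟩
      · rintro ⟨_, ⟨g, rfl⟩, rfl⟩
        exact ⟨g, rfl⟩
    rw [this]
    exact hfin.image _
  have hUnt : Nontrivial U := by
    refine ⟨⟨v0, Submodule.subset_span ⟨1, by simp⟩⟩, 0, ?_⟩
    intro h
    exact hv0ne (congrArg Subtype.val h)
  have hq : ∀ (g : G) (v : U), (H01.restrictRep R U hU g) ((H01.restrictRep R U hU g) v) -
      χ (s g) • (H01.restrictRep R U hU g) v + d g • v = 0 := by
    intro g v
    apply Subtype.ext
    rw [Submodule.coe_add, Submodule.coe_sub, Submodule.coe_smul, Submodule.coe_smul,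
      H01.coe_restrictRep_apply, H01.coe_restrictRep_apply, Submodule.coe_zero]
    exact hquadR g v
  haveI := hUfin
  haveI := hUnt
  obtain ⟨r', hr', hr1⟩ := H01.exists_matrixRep_of_quadRel (G := G) (k := F) (W := U)
    (H01.restrictRep R U hU) (fun g => χ (s g)) d hq
  refine ⟨r', hr', fun g hg hdg => hr1 g ?_ hdg⟩
  have hRg : R g = 1 := by
    ext w
    change (1 : F) ⊗ₜ[T] (r g w) = (1 : F) ⊗ₜ[T] w
    rw [hg]
    rfl
  ext u
  rw [H01.coe_restrictRep_apply, hRg]
  rfl

end Fermat.Agent.H11J
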