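import Fermat.Agent.H11J.Hk3
import Fermat.Agent.H22.GamHLin

/-!
# Parabolic characters of exponent `m` and the Galois action on them
-/

set_option autoImplicit false
set_option linter.style.haveILetI false
set_option linter.unusedSectionVars false
set_option maxSynthPendingDepth 3

noncomputable section

namespace Fermat.Agent.H11J

open UpperHalfPlane hiding I
open ModularForm EisensteinSeries Filter Complex Topology Function CongruenceSubgroup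
open AlgebraicCurve ModularCurve
open scoped MatrixGroups Manifold Real Nat

open Fermat.Agent.H22 (GamH GamHl dChar diamond conjG conj_mem_GamH heckeH tr2 tr2_def KillsPE)
open Fermat.Agent.H18J (FK dia)
open Fermat.Agent.H02G (HasRootChar IsPar)

local notation "Qb" => AlgebraicClosure ℚ
local notation "Γℚ" => (AlgebraicClosure ℚ ≃ₐ[ℚ] AlgebraicClosure ℚ)

/-- An elliptic element has a fixed point. -/
theorem exists_fixed {γ : SL(2, ℤ)} (h : (γ 0 0 + γ 1 1) ^ 2 < 4) : ∃ τ : ℍ, γ • τ = τ := by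
  have hdet := H22.det_eq γ
  have hc : γ 1 0 ≠ 0 := by
    intro hc
    rw [hc, mul_zero, sub_zero] at hdet
    rcases Int.eq_one_or_neg_one_of_mul_eq_one' hdet with ⟨h1, h2⟩ | ⟨h1, h2⟩ <;>
      rw [h1, h2] at h <;> norm_num at h
  set t : ℤ := γ 0 0 + γ 1 1 with ht
  have hD : (0 : ℝ) < 4 - (t : ℝ) ^ 2 := by
    have : ((t : ℤ) : ℝ) ^ 2 < 4 := by exact_mod_cast h
    linarith
  set s : ℝ := √(4 - (t : ℝ) ^ 2) with hs
  have hs0 : 0 < s := Real.sqrt_pos.2 hD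
  have hs2 : s ^ 2 = 4 - (t : ℝ) ^ 2 := Real.sq_sqrt hD.le
  have hcR : ((γ 1 0 : ℤ) : ℝ) ≠ 0 := by exact_mod_cast hc
  have hcA : 0 < |((γ 1 0 : ℤ) : ℝ)| := abs_pos.2 hcR
  have hcC : ((γ 1 0 : ℤ) : ℂ) ≠ 0 := by exact_mod_cast hc
  set r : ℝ := ((γ 0 0 : ℤ) - (γ 1 1 : ℤ)) / (2 * (γ 1 0 : ℤ)) with hr
  set u : ℝ := s / (2 * |((γ 1 0 : ℤ) : ℝ)|) with hu
  have hr2 : 2 * ((γ 1 0 : ℤ) : ℝ) * r = ((γ 0 0 : ℤ) : ℝ) - (γ 1 1 : ℤ) := by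
    rw [hr]
    field_simp
  have hu2 : (2 * ((γ 1 0 : ℤ) : ℝ) * u) ^ 2 = 4 - (t : ℝ) ^ 2 := by
    rw [← hs2, hu]
    have h3 : (2 * ((γ 1 0 : ℤ) : ℝ) * (s / (2 * |((γ 1 0 : ℤ) : ℝ)|))) ^ 2 =
        ((γ 1 0 : ℤ) : ℝ) ^ 2 * s ^ 2 / |((γ 1 0 : ℤ) : ℝ)| ^ 2 := by
      field_simp
    rw [h3, sq_abs]
    field_simp
  let w : ℂ := (r : ℂ) + u * Complex.I
  have hwim : w.im = u := by simp [w]
  have hw : 0 < w.im := by
    rw [hwim, hu]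
    positivity
  have hsq : (2 * (γ 1 0 : ℂ) * w - ((γ 0 0 : ℂ) - γ 1 1)) ^ 2 = (t : ℂ) ^ 2 - 4 := by
    have h1 : 2 * ((γ 1 0 : ℤ) : ℂ) * (r : ℂ) = ((γ 0 0 : ℤ) : ℂ) - (γ 1 1 : ℤ) := by
      exact_mod_cast congrArg (fun x : ℝ => (x : ℂ)) hr2
    have h2 : (2 * ((γ 1 0 : ℤ) : ℂ) * (u : ℂ)) ^ 2 = 4 - (t : ℂ) ^ 2 := by
      exact_mod_cast congrArg (fun x : ℝ => (x : ℂ)) hu2
    have h3 : 2 * (γ 1 0 : ℂ) * w - ((γ 0 0 : ℂ) - γ 1 1) =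
        2 * ((γ 1 0 : ℤ) : ℂ) * (u : ℂ) * Complex.I := by
      simp only [w]
      linear_combination h1
    rw [h3, mul_pow, h2, Complex.I_sq]
    ring
  have hquad : (γ 1 0 : ℂ) * w ^ 2 + ((γ 1 1 : ℂ) - γ 0 0) * w - γ 0 1 = 0 := by
    have hdet' : ((γ 0 0 : ℤ) : ℂ) * γ 1 1 - γ 0 1 * γ 1 0 = 1 := by exact_mod_cast hdet
    have ht' : (t : ℂ) = (γ 0 0 : ℂ) + γ 1 1 := by rw [ht]; push_cast; ring
    rw [ht'] at hsq
    have h4 : (4 * (γ 1 0 : ℂ)) * ((γ 1 0 : ℂ) * w ^ 2 + ((γ 1 1 : ℂ) - γ 0 0) * w - γ 0 1) = 0 := by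
      linear_combination hsq + 4 * hdet'
    exact (mul_eq_zero.1 h4).resolve_left (mul_ne_zero (by norm_num) hcC)
  refine ⟨⟨w, hw⟩, ?_⟩
  have n1 : (γ 1 0 : ℂ) * w + γ 1 1 ≠ 0 := by
    have := denom_ne_zero γ (⟨w, hw⟩ : ℍ)
    rwa [ModularGroup.denom_apply] at this
  apply UpperHalfPlane.ext
  rw [coe_specialLinearGroup_apply]
  simp only [algebraMap_int_eq, eq_intCast, Complex.ofReal_intCast]
  change ((γ 0 0 : ℂ) * w + γ 0 1) / ((γ 1 0 : ℂ) * w + γ 1 1) = w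
  rw [div_eq_iff n1]
  linear_combination -hquad

theorem tr_sq_le_of_fixed {γ : SL(2, ℤ)} {τ : ℍ} (h : γ • τ = τ) :
    (γ 0 0 + γ 1 1) ^ 2 ≤ 4 := by
  have hdet := H22.det_eq γ
  have n1 : (γ 1 0 : ℂ) * τ + γ 1 1 ≠ 0 := by
    have := denom_ne_zero γ τ
    rwa [ModularGroup.denom_apply] at this
  have h1 : ((γ • τ : ℍ) : ℂ) = (τ : ℂ) := congrArg (fun z : ℍ => (z : ℂ)) h
  rw [coe_specialLinearGroup_apply] at h1
  simp only [algebraMap_int_eq, eq_intCast, Complex.ofReal_intCast] at h1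
  rw [div_eq_iff n1] at h1
  have hre := congrArg Complex.re h1
  have him := congrArg Complex.im h1
  simp at hre him
  have hy : 0 < τ.im := τ.im_pos
  -- imaginary part: `a = 2 c x + d`
  have e1 : ((γ 0 0 : ℤ) : ℝ) = 2 * (γ 1 0 : ℤ) * τ.re + (γ 1 1 : ℤ) := by
    have : ((γ 0 0 : ℤ) : ℝ) * τ.im = (2 * (γ 1 0 : ℤ) * τ.re + (γ 1 1 : ℤ)) * τ.im := by
      linarith
    exact mul_right_cancel₀ hy.ne' this
  have hdet' : ((γ 0 0 : ℤ) : ℝ) * γ 1 1 - γ 0 1 * γ 1 0 = 1 := by exact_mod_cast hdet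
  have e2 : (((γ 0 0 + γ 1 1 : ℤ)) : ℝ) ^ 2 ≤ 4 := by
    have e3 : ((γ 0 0 : ℤ) : ℝ) * τ.re + (γ 0 1 : ℤ) =
        τ.re * ((γ 1 0 : ℤ) * τ.re + (γ 1 1 : ℤ)) - τ.im * ((γ 1 0 : ℤ) * τ.im) := by
      linarith
    have e4 : ((γ 0 1 : ℤ) : ℝ) = -((γ 1 0 : ℤ) : ℝ) * (τ.re ^ 2 + τ.im ^ 2) := by
      rw [e1] at e3
      linear_combination e3
    have e5 : 4 - (((γ 0 0 + γ 1 1 : ℤ)) : ℝ) ^ 2 = 4 * ((γ 1 0 : ℤ) : ℝ) ^ 2 * τ.im ^ 2 := by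
      rw [e4, e1] at hdet'
      push_cast
      rw [e1]
      linear_combination (-4) * hdet'
    nlinarith [sq_nonneg (((γ 1 0 : ℤ) : ℝ) * τ.im)]
  exact_mod_cast e2

variable {N : ℕ} [NeZero N] {H : Subgroup (ZMod N)ˣ}

theorem isPar_iff {ψ : GamH N H →* ℂˣ} : IsPar ψ ↔ KillsPE ψ := by
  constructor
  · intro h γ hγ
    rw [tr2_def] at hγ
    rcases hγ.lt_or_eq with h1 | h1
    · obtain ⟨τ, hτ⟩ := exists_fixed h1
      exact h.ell γ τ hτ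
    · exact h.par γ h1
  · intro h
    refine ⟨fun γ τ hτ => h γ ?_, fun γ hγ => h γ ?_⟩
    · rw [tr2_def]
      exact tr_sq_le_of_fixed hτ
    · rw [tr2_def]
      exact hγ.le

theorem IsPar.hecke {ψ : GamH N H →* ℂˣ} (h : IsPar ψ) (ℓ : ℕ) [NeZero ℓ] :
    IsPar (heckeH N H ℓ ψ) := isPar_iff.2 ((isPar_iff.1 h).heckeH ℓ)

theorem KillsPE.diamond {A : Type*} [CommGroup A] {ψ : GamH N H →* A} (h : KillsPE ψ)
    (g : Gamma0 N) : KillsPE (diamond N H g ψ) := fun γ hγ => h _ (by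
  rw [H22.coe_conjG]
  have := H22.tr2_conj (γ : SL(2, ℤ)) (g : SL(2, ℤ))⁻¹
  rw [inv_inv] at this
  rwa [this])

theorem IsPar.diamond {ψ : GamH N H →* ℂˣ} (h : IsPar ψ) (g : Gamma0 N) :
    IsPar (diamond N H g ψ) := isPar_iff.2 (KillsPE.diamond (isPar_iff.1 h) g)

end Fermat.Agent.H11J
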