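import Fermat.Agent.H11J.Chr

/-!
# The Galois action on parabolic characters of exponent `m`
-/

set_option autoImplicit false
set_option linter.style.haveILetI false
set_option linter.unusedSectionVars false
set_option maxSynthPendingDepth 3

noncomputable section

namespace Fermat.Agent.H11J

open CongruenceSubgroup AlgebraicCurve ModularCurve
open scoped MatrixGroups

open Fermat.Agent.H22 (GamH GamHl dChar diamond conjG heckeH)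
open Fermat.Agent.H18J (FK dia)
open Fermat.Agent.H02G (HasRootChar IsPar)

local notation "Qb" => AlgebraicClosure ℚ
local notation "Γℚ" => (AlgebraicClosure ℚ ≃ₐ[ℚ] AlgebraicClosure ℚ)

theorem IsPar.mul {Γ : Subgroup SL(2, ℤ)} {ψ ψ' : Γ →* ℂˣ} (h : IsPar ψ) (h' : IsPar ψ') :
    IsPar (ψ * ψ') :=
  ⟨fun γ τ hγ => by rw [MonoidHom.mul_apply, h.ell γ τ hγ, h'.ell γ τ hγ, one_mul],
    fun γ hγ => by rw [MonoidHom.mul_apply, h.par γ hγ, h'.par γ hγ, one_mul]⟩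

theorem IsPar.one {Γ : Subgroup SL(2, ℤ)} : IsPar (1 : Γ →* ℂˣ) :=
  ⟨fun _ _ _ => rfl, fun _ _ => rfl⟩

theorem IsPar.inv {Γ : Subgroup SL(2, ℤ)} {ψ : Γ →* ℂˣ} (h : IsPar ψ) : IsPar ψ⁻¹ :=
  ⟨fun γ τ hγ => by rw [MonoidHom.inv_apply, h.ell γ τ hγ, inv_one],
    fun γ hγ => by rw [MonoidHom.inv_apply, h.par γ hγ, inv_one]⟩

/-- Parabolic characters of exponent `m`. -/
def ParM (Γ : Subgroup SL(2, ℤ)) (m : ℕ) : Subgroup (Γ →* ℂˣ) where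
  carrier := {ψ | IsPar ψ ∧ ∀ γ, ψ γ ^ m = 1}
  mul_mem' := fun {ψ ψ'} h h' => ⟨IsPar.mul h.1 h'.1, fun γ => by
    rw [MonoidHom.mul_apply, mul_pow, h.2, h'.2, one_mul]⟩
  one_mem' := ⟨IsPar.one, fun γ => by rw [MonoidHom.one_apply, one_pow]⟩
  inv_mem' := fun {ψ} h => ⟨IsPar.inv h.1, fun γ => by
    rw [MonoidHom.inv_apply, inv_pow, h.2, inv_one]⟩

theorem mem_ParM {Γ : Subgroup SL(2, ℤ)} {m : ℕ} {ψ : Γ →* ℂˣ} :
    ψ ∈ ParM Γ m ↔ IsPar ψ ∧ ∀ γ, ψ γ ^ m = 1 := Iff.rfl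

variable [Algebra (AlgebraicClosure ℚ) ℂ] {N : ℕ} [NeZero N] {H : Subgroup (ZMod N)ˣ} {m : ℕ}
  {f f' : FK Qb (GamH N H)} {ψ ψ' : GamH N H →* ℂˣ}

theorem Dv.mem_ParM (hm : m ≠ 0) (h : Dv m f) (h' : KC m f ψ) : ψ ∈ ParM (GamH N H) m :=
  ⟨h.isPar hm h', fun γ => h'.pow_eq_one hm γ⟩

/-- Galois conjugates of functions with the same character have the same character. -/
theorem KC.gal_unique (hm : m ≠ 0) (h : KC m f ψ) (h' : KC m f' ψ) {σ : Γℚ}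
    {χ χ' : GamH N H →* ℂˣ} (hχ : KC m (galF H σ f) χ) (hχ' : KC m (galF H σ f') χ') :
    χ = χ' := by
  obtain ⟨w, hw, rfl⟩ := h.exists_eq_mul_pow hm h'
  rw [map_mul, map_pow] at hχ
  have h1 := hχ'.mul (KC.pow_one hm (g := galF H σ w) (fun h0 => hw (by
    rwa [map_eq_zero_iff _ (galF H σ).injective] at h0)))
  rw [mul_one] at h1
  exact hχ.unique hm h1

variable (H) in
theorem exists_rG (hm : m ≠ 0) (σ : Γℚ) (ψ : ParM (GamH N H) m) : ∃ χ : ParM (GamH N H) m,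
    ∀ f : FK Qb (GamH N H), KC m f (ψ : GamH N H →* ℂˣ) → KC m (galF H σ f) (χ : GamH N H →* ℂˣ) := by
  obtain ⟨f, hf, hfψ⟩ := exists_of_isPar hm ψ.2.1 ψ.2.2
  obtain ⟨χ, hχ, hχ'⟩ := (hf.gal σ).exists_KC hm
  refine ⟨⟨χ, (hf.gal σ).mem_ParM hm hχ'⟩, fun f' hf' => ?_⟩
  obtain ⟨χ₁, -, hχ₁⟩ := ((hf'.dv hm ψ.2.1).gal σ).exists_KC hm
  rw [show (⟨χ, _⟩ : ParM (GamH N H) m).1 = χ from rfl, hfψ.gal_unique hm hf' hχ' hχ₁]
  exact hχ₁

variable (H) in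
/-- The Galois action on the parabolic characters. -/
def rG (hm : m ≠ 0) (σ : Γℚ) : ParM (GamH N H) m →* ParM (GamH N H) m where
  toFun ψ := (exists_rG H hm σ ψ).choose
  map_one' := by
    have h1 := (exists_rG H hm σ 1).choose_spec 1 (KC.one hm)
    rw [map_one] at h1
    exact Subtype.ext (h1.unique hm (KC.one hm))
  map_mul' ψ ψ' := by
    obtain ⟨f, -, hf⟩ := exists_of_isPar hm ψ.2.1 ψ.2.2
    obtain ⟨f', -, hf'⟩ := exists_of_isPar hm ψ'.2.1 ψ'.2.2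
    have h1 := (exists_rG H hm σ (ψ * ψ')).choose_spec (f * f') (hf.mul hf')
    rw [map_mul] at h1
    exact Subtype.ext (h1.unique hm (((exists_rG H hm σ ψ).choose_spec f hf).mul
      ((exists_rG H hm σ ψ').choose_spec f' hf')))

theorem KC.rG (hm : m ≠ 0) (σ : Γℚ) {ψ : ParM (GamH N H) m} (h : KC m f (ψ : GamH N H →* ℂˣ)) :
    KC m (galF H σ f) (rG H hm σ ψ : GamH N H →* ℂˣ) :=
  (exists_rG H hm σ ψ).choose_spec f h

theorem rG_eq (hm : m ≠ 0) {σ : Γℚ} {ψ χ : ParM (GamH N H) m} (h : KC m f (ψ : GamH N H →* ℂˣ))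
    (h' : KC m (galF H σ f) (χ : GamH N H →* ℂˣ)) : rG H hm σ ψ = χ :=
  Subtype.ext ((h.rG hm σ).unique hm h')

theorem rG_mul (hm : m ≠ 0) (σ τ : Γℚ) (ψ : ParM (GamH N H) m) :
    rG H hm (σ * τ) ψ = rG H hm σ (rG H hm τ ψ) := by
  obtain ⟨f, -, hf⟩ := exists_of_isPar hm ψ.2.1 ψ.2.2
  refine rG_eq hm hf ?_
  rw [galF_mul]
  exact (hf.rG hm τ).rG hm σ

theorem rG_one (hm : m ≠ 0) (ψ : ParM (GamH N H) m) : rG H hm 1 ψ = ψ := by
  obtain ⟨f, -, hf⟩ := exists_of_isPar hm ψ.2.1 ψ.2.2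
  refine rG_eq hm hf ?_
  rw [galF_one]
  exact hf

/-- The diamond operators on `ParM`. -/
def diaP (g : Gamma0 N) : ParM (GamH N H) m →* ParM (GamH N H) m where
  toFun ψ := ⟨diamond N H g ψ, IsPar.diamond ψ.2.1 g, fun _ => ψ.2.2 _⟩
  map_one' := rfl
  map_mul' _ _ := rfl

/-- The Hecke operators on `ParM`. -/
def heckeP (ℓ : ℕ) [NeZero ℓ] : ParM (GamH N H) m →* ParM (GamH N H) m where
  toFun ψ := ⟨heckeH N H ℓ ψ, IsPar.hecke ψ.2.1 ℓ, fun γ => by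
    have h1 : (powMonoidHom m).comp (ψ : GamH N H →* ℂˣ) = (1 : ℂˣ →* ℂˣ).comp ψ :=
      MonoidHom.ext fun γ => ψ.2.2 γ
    have h2 := H22.heckeH_comp N H ℓ (powMonoidHom m) (ψ : GamH N H →* ℂˣ)
    rw [h1, H22.heckeH_comp] at h2
    exact (DFunLike.congr_fun h2 γ).symm⟩
  map_one' := by
    apply Subtype.ext
    change heckeH N H ℓ (1 : GamH N H →* ℂˣ) = 1
    have := H22.heckeH_mul N H ℓ (1 : GamH N H →* ℂˣ) 1
    rw [one_mul] at this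
    exact (mul_eq_left.mp this.symm)
  map_mul' ψ ψ' := Subtype.ext (H22.heckeH_mul N H ℓ _ _)

theorem rG_diaP (hm : m ≠ 0) (σ : Γℚ) (g : Gamma0 N) (ψ : ParM (GamH N H) m) :
    rG H hm σ (diaP g ψ) = diaP g (rG H hm σ ψ) := by
  obtain ⟨f, -, hf⟩ := exists_of_isPar hm ψ.2.1 ψ.2.2
  refine rG_eq hm (f := dia Qb H g f) (hf.dia hm g) ?_
  rw [galF_dia]
  exact (hf.rG hm σ).dia hm g

theorem exists_invP {p : ℕ} (hcop : Nat.Coprime N p) : ∃ g : Gamma0 N, InvP p g := by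
  obtain ⟨g, hg, -, h⟩ := H22.exists_dChar_eq N 1 (ZMod.unitOfCoprime p hcop.symm)⁻¹
  refine ⟨⟨g, hg⟩, ?_⟩
  rw [InvP, h]
  have : ((ZMod.unitOfCoprime p hcop.symm : (ZMod N)ˣ) : ZMod N) = p :=
    ZMod.coe_unitOfCoprime p hcop.symm
  rw [← this, Units.inv_mul]

theorem rG_heckeP (hm : m ≠ 0) (σ : Γℚ) {p : ℕ} [Fact p.Prime] (hcop : Nat.Coprime N p)
    (ψ : ParM (GamH N H) m) : rG H hm σ (heckeP p ψ) = heckeP p (rG H hm σ ψ) := by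
  obtain ⟨g, hg⟩ := exists_invP hcop
  obtain ⟨f, -, hf⟩ := exists_of_isPar hm ψ.2.1 ψ.2.2
  refine rG_eq hm (f := tpF H hcop hg f) (hf.tp hcop hg hm) ?_
  rw [galF_tpF]
  exact (hf.rG hm σ).tp hcop hg hm

end Fermat.Agent.H11J
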