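import Fermat.Agent.H11J.Chr2
import Fermat.Agent.H11J.Iface
import Fermat.Agent.Q.Package

/-!
# Inertia and the Eichler–Shimura relation on parabolic characters
-/

set_option autoImplicit false
set_option linter.style.haveILetI false
set_option linter.unusedSectionVars false
set_option maxSynthPendingDepth 3

noncomputable section

namespace Fermat.Agent.H11J

open CongruenceSubgroup AlgebraicCurve ModularCurve
open scoped MatrixGroups

open Fermat.Agent.H22 (GamH GamHl dChar diamond conjG heckeH)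
open Fermat.Agent.H18J (FK dia)
open Fermat.Agent.H02G (HasRootChar IsPar)

local notation "Qb" => AlgebraicClosure ℚ
local notation "Γℚ" => (AlgebraicClosure ℚ ≃ₐ[ℚ] AlgebraicClosure ℚ)
local notation "kk" => IsLocalRing.ResidueField

section Red

variable {K : Type*} [Field K] {A : ValuationSubring K}

theorem qExpand_mem_intL_iff {p : ℕ} [NeZero p] {y : LaurentSeries K} :
    qExpand K p y ∈ Q.intL A ↔ y ∈ Q.intL A := by
  rw [Q.mem_intL, Q.mem_intL]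
  constructor
  · intro h n
    have := h (p * n)
    rwa [qExpand_coeff_mul] at this
  · intro h n
    by_cases hn : (p : ℤ) ∣ n
    · obtain ⟨k, rfl⟩ := hn
      rw [qExpand_coeff_mul]
      exact h k
    · rw [qExpand_coeff_of_not_dvd _ _ hn]
      exact zero_mem A

theorem redL_qExpand {p : ℕ} [NeZero p] {y : LaurentSeries K} (hy : y ∈ Q.intL A)
    (h : qExpand K p y ∈ Q.intL A) :
    Q.redL A ⟨qExpand K p y, h⟩ = qExpand (kk A) p (Q.redL A ⟨y, hy⟩) := by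
  ext n
  rw [Q.redL_coeff]
  by_cases hn : (p : ℤ) ∣ n
  · obtain ⟨k, rfl⟩ := hn
    rw [show (qExpand (kk A) p (Q.redL A ⟨y, hy⟩)).coeff (p * k) = (Q.redL A ⟨y, hy⟩).coeff k from
      qExpand_coeff_mul _ _ _, Q.redL_coeff]
    congr 1
    exact Subtype.ext (qExpand_coeff_mul _ _ _)
  · rw [show (qExpand (kk A) p (Q.redL A ⟨y, hy⟩)).coeff n = 0 from
      qExpand_coeff_of_not_dvd _ _ hn]
    have : (⟨(qExpand K p y).coeff n, Q.mem_intL.mp h n⟩ : A) = 0 :=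
      Subtype.ext (qExpand_coeff_of_not_dvd _ _ hn)
    rw [this, map_zero]

variable {p : ℕ} [hp : Fact p.Prime] [CharP (kk A) p]

/-- Reduction of the Hecke operator. -/
theorem TpRel.red {ζ : K} (hζ : IsPrimitiveRoot ζ p) {x x' y : LaurentSeries K}
    (h : TpRel K p x x' y) (hx : x ∈ Q.intL A) (hx' : x' ∈ Q.intL A) :
    ∃ hy : y ∈ Q.intL A, Q.redL A ⟨y, hy⟩ = qExpand (kk A) p (Q.redL A ⟨x, hx⟩) *
      coeffMap (frobenius (kk A) p) (Q.redL A ⟨x', hx'⟩) := by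
  have h1 : qExpand K p (qExpand K p x) ∈ Q.intL A :=
    qExpand_mem_intL_iff.2 (qExpand_mem_intL_iff.2 hx)
  have h2 : twProd K p x' ∈ Q.intL A := twProd_mem_intL p hx'
  have h3 : qExpand K p y ∈ Q.intL A := by
    rw [show qExpand K p y = _ from h]
    exact mul_mem h1 h2
  have hy : y ∈ Q.intL A := qExpand_mem_intL_iff.1 h3
  refine ⟨hy, qExpand_injective p ?_⟩
  rw [← redL_qExpand hy h3, map_mul, ← Q.pow_char p]
  have h4 : (⟨qExpand K p y, h3⟩ : Q.intL A) = ⟨_, h1⟩ * ⟨_, h2⟩ := Subtype.ext h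
  rw [h4, map_mul, redL_twProd hζ hx', redL_qExpand (qExpand_mem_intL_iff.2 hx),
    redL_qExpand hx]

end Red

section Gal

variable {A : ValuationSubring Qb} {σ : Γℚ}

theorem redL_frob {p : ℕ} [hp : Fact p.Prime] [CharP (kk A) p] (hσ : A.IsFrobeniusAt σ p)
    {x : LaurentSeries Qb} (hx : x ∈ Q.intL A) :
    ∃ h : coeffMap (σ : Qb →+* Qb) x ∈ Q.intL A,
      Q.redL A ⟨_, h⟩ = coeffMap (frobenius (kk A) p) (Q.redL A ⟨x, hx⟩) := by
  have h : coeffMap (σ : Qb →+* Qb) x ∈ Q.intL A := by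
    rw [Q.mem_intL]
    intro n
    rw [coeffMap_coeff]
    exact (Q.frobenius_residue hσ ⟨_, Q.mem_intL.mp hx n⟩).choose
  refine ⟨h, ?_⟩
  ext n
  rw [Q.redL_coeff, show (coeffMap (frobenius (kk A) p) (Q.redL A ⟨x, hx⟩)).coeff n =
    frobenius (kk A) p ((Q.redL A ⟨x, hx⟩).coeff n) from coeffMap_coeff _ _ _, Q.redL_coeff,
    frobenius_def]
  obtain ⟨h1, h2⟩ := Q.frobenius_residue hσ ⟨_, Q.mem_intL.mp hx n⟩
  rw [← h2]
  congr 1

theorem redL_inertia (hσ : σ ∈ A.inertiaSubgroupIn ℚ)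
    {x : LaurentSeries Qb} (hx : x ∈ Q.intL A) :
    ∃ h : coeffMap (σ : Qb →+* Qb) x ∈ Q.intL A,
      Q.redL A ⟨_, h⟩ = Q.redL A ⟨x, hx⟩ := by
  have h : coeffMap (σ : Qb →+* Qb) x ∈ Q.intL A := by
    rw [Q.mem_intL]
    intro n
    rw [coeffMap_coeff]
    exact (Q.inertia_residue hσ ⟨_, Q.mem_intL.mp hx n⟩).choose
  refine ⟨h, ?_⟩
  ext n
  rw [Q.redL_coeff, Q.redL_coeff]
  obtain ⟨h1, h2⟩ := Q.inertia_residue hσ ⟨_, Q.mem_intL.mp hx n⟩
  rw [← h2]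
  congr 1

end Gal

variable [Algebra (AlgebraicClosure ℚ) ℂ] {N : ℕ} [NeZero N] {H : Subgroup (ZMod N)ˣ} {m : ℕ}
  {f f' : FK Qb (GamH N H)} {A : ValuationSubring Qb}

theorem KeyFK.char_eq (hm : m ≠ 0) (hK : KeyFK H A m) {a b : FK Qb (GamH N H)}
    (ha : (a : LaurentSeries Qb) ∈ Q.intL A) (hb : (b : LaurentSeries Qb) ∈ Q.intL A)
    (hab : Q.redL A ⟨a, ha⟩ = Q.redL A ⟨b, hb⟩) (hne : Q.redL A ⟨b, hb⟩ ≠ 0)
    (hda : Dv m a) (hdb : Dv m b) {ψ ψ' : GamH N H →* ℂˣ} (hψ : KC m a ψ) (hψ' : KC m b ψ') :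
    ψ = ψ' := by
  obtain ⟨w, rfl⟩ := hK a b ha hb hab hne fun v => by
    rw [div_eq_mul_inv]
    exact (hda.mul hdb.inv).2 v
  have hw : w ≠ 0 := by
    rintro rfl
    exact hda.1 (by rw [zero_pow hm, mul_zero])
  have h1 := hψ'.mul (KC.pow_one hm hw)
  rw [mul_one] at h1
  exact hψ.unique hm h1

theorem PrimFK.exists (hm : m ≠ 0) (hP : PrimFK H A m) (ψ : ParM (GamH N H) m) :
    ∃ f : FK Qb (GamH N H), Dv m f ∧ KC m f (ψ : GamH N H →* ℂˣ) ∧
      ∀ g : Gamma0 N, Prim A (dia Qb H g f : LaurentSeries Qb) := by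
  obtain ⟨f, hf, hf'⟩ := exists_of_isPar hm ψ.2.1 ψ.2.2
  obtain ⟨h, hh, hg⟩ := hP f hf.1
  refine ⟨f * h ^ m, hf.mul (Dv.pow_self hh), ?_, hg⟩
  have h1 := hf'.mul (KC.pow_one hm hh)
  rwa [mul_one] at h1

/-- **Inertia acts trivially.** -/
theorem rG_inertia (hm : m ≠ 0) (hK : KeyFK H A m) (hP : PrimFK H A m) {τ : Γℚ}
    (hτ : τ ∈ A.inertiaSubgroupIn ℚ) (ψ : ParM (GamH N H) m) : rG H hm τ ψ = ψ := by
  obtain ⟨f, hf, hf', hg⟩ := hP.exists hm ψ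
  obtain ⟨h1, h2⟩ := hg 1
  have e : dia Qb H 1 f = f := H18J.dia_one Qb f
  simp only [e] at h1 h2
  obtain ⟨h3, h4⟩ := redL_inertia hτ h1
  exact Subtype.ext (hK.char_eq hm (a := galF H τ f) (b := f) h3 h1 h4 h2 (hf.gal τ) hf
    (hf'.rG hm τ) hf')

/-- **The Eichler–Shimura relation.** -/
theorem rG_frob {p : ℕ} [hp : Fact p.Prime] [CharP (kk A) p] (hcop : Nat.Coprime N p)
    {g : Gamma0 N} (hg : InvP p g) (hm : m ≠ 0) (hK : KeyFK H A m) (hP : PrimFK H A m) {φ : Γℚ}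
    (hφ : A.IsFrobeniusAt φ p) (ψ : ParM (GamH N H) m) :
    heckeP p (rG H hm φ ψ) = ψ ^ p * rG H hm φ (rG H hm φ (diaP g ψ)) := by
  obtain ⟨ζ, hζ⟩ := exists_zeta p
  obtain ⟨f, hf, hf', hpr⟩ := hP.exists hm ψ
  obtain ⟨h1, h2⟩ := hpr 1
  have e : dia Qb H 1 f = f := H18J.dia_one Qb f
  simp only [e] at h1 h2
  obtain ⟨h3, h4⟩ := hpr g
  -- the reductions of the conjugates
  obtain ⟨i1, j1⟩ := redL_frob hφ h1
  obtain ⟨i2, j2⟩ := redL_frob hφ h3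
  obtain ⟨i3, j3⟩ := redL_frob hφ i2
  have hrel := tpF_rel hcop hg (galF H φ f)
  rw [← galF_dia] at hrel
  obtain ⟨ha, ra⟩ := hrel.red hζ (A := A) i1 i2
  set b : FK Qb (GamH N H) := f ^ p * galF H φ (galF H φ (dia Qb H g f)) with hb
  have hbm : (b : LaurentSeries Qb) ∈ Q.intL A := mul_mem (pow_mem h1 p) i3
  have rb : Q.redL A ⟨b, hbm⟩ = Q.redL A ⟨f, h1⟩ ^ p *
      coeffMap (frobenius (kk A) p) (coeffMap (frobenius (kk A) p) (Q.redL A ⟨_, h3⟩)) := by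
    have : (⟨(b : LaurentSeries Qb), hbm⟩ : Q.intL A) = ⟨f, h1⟩ ^ p * ⟨_, i3⟩ := Subtype.ext rfl
    rw [this, map_mul, map_pow, j3, j2]
  have hab : Q.redL A ⟨(tpF H hcop hg (galF H φ f) : LaurentSeries Qb), ha⟩ =
      Q.redL A ⟨b, hbm⟩ := by
    refine (ra.trans ?_).trans rb.symm
    refine congrArg₂ (· * ·) ?_ (congrArg (coeffMap (frobenius (kk A) p)) j2)
    rw [Q.pow_char p]
    exact congrArg (qExpand (kk A) p) j1
  have hinj : Function.Injective (coeffMap (frobenius (kk A) p)) :=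
    (coeffMap (frobenius (kk A) p)).injective
  have hne : Q.redL A ⟨b, hbm⟩ ≠ 0 := by
    rw [rb]
    exact mul_ne_zero (pow_ne_zero _ h2) ((map_ne_zero_iff _ hinj).2 ((map_ne_zero_iff _ hinj).2 h4))
  have ka := (hf'.rG hm φ).tp hcop hg hm
  have kd : KC m (dia Qb H g f) (diaP g ψ : GamH N H →* ℂˣ) := hf'.dia hm g
  have kb := (hf'.pow hm p).mul ((kd.rG hm φ).rG hm φ)
  have hda : Dv m (tpF H hcop hg (galF H φ f)) := ka.dv hm (heckeP p (rG H hm φ ψ)).2.1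
  have hdb : Dv m b := (hf.pow p).mul (((hf.dia g).gal φ).gal φ)
  exact Subtype.ext (hK.char_eq hm ha hbm hab hne hda hdb ka kb)

end Fermat.Agent.H11J
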