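import Fermat.Agent.H11J.Alg
import Fermat.Agent.H23.Residual
import Fermat.Agent.H25.Density


/-!
# The mod `p` representation attached to a Hecke–Galois module with nebentypus
-/

set_option autoImplicit false
set_option linter.style.haveILetI false

noncomputable section

namespace Fermat.Agent.H11J

open Module Polynomial
open Fermat.Agent.H05 (lucas map_lucas)

local notation "Qb" => AlgebraicClosure ℚ
local notation "Γℚ" => AlgebraicClosure ℚ ≃ₐ[ℚ] AlgebraicClosure ℚ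

theorem lucas_eq {R : Type*} [Ring R] {P Q B : R} (h1 : P * Q = 1) (h2 : Q * P = 1)
    (hP : Commute B P) (hQ : Commute B Q) (n : ℕ) :
    lucas (P + B * Q) B n = P ^ n + B ^ n * Q ^ n := by
  induction n using Nat.twoStepInduction with
  | zero => simp only [lucas, pow_zero, mul_one]; norm_num
  | one => simp [lucas]
  | more n ih1 ih2 =>
    rw [lucas, ih1, ih2]
    have e1 : P * (B ^ (n + 1) * Q ^ (n + 1)) = B ^ (n + 1) * Q ^ n := by
      rw [← mul_assoc, ← (hP.pow_left (n + 1)).eq, mul_assoc, pow_succ' Q, ← mul_assoc P, h1,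
        one_mul]
    have e2 : B * Q * P ^ (n + 1) = B * P ^ n := by
      rw [pow_succ' P, mul_assoc, ← mul_assoc Q, h2, one_mul]
    have e3 : B * Q * (B ^ (n + 1) * Q ^ (n + 1)) = B ^ (n + 2) * Q ^ (n + 2) := by
      rw [mul_assoc, ← mul_assoc Q, ← (hQ.pow_left (n + 1)).eq, mul_assoc (B ^ (n + 1)),
        ← pow_succ' Q, ← mul_assoc, ← pow_succ' B]
    have e4 : B * (B ^ n * Q ^ n) = B ^ (n + 1) * Q ^ n := by
      rw [← mul_assoc, ← pow_succ']
    rw [add_mul, mul_add, mul_add, mul_add, e1, e2, e3, e4, ← pow_succ' P]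
    abel

section Main

variable {p N : ℕ} [NeZero N]
  {T : Type} [CommRing T] {W : Type} [AddCommGroup W]
  (act : T →+* Module.End ℤ W) (r : Γℚ →* Module.End ℤ W)

theorem act_lucas (hcomm : ∀ t g w, act t (r g w) = r g (act t w)) {a b : T} {φ : Γℚ}
    (h : ∀ w, r φ (r φ w) - act a (r φ w) + act b w = 0) (n : ℕ) (w : W) :
    act (lucas a b n) w = r (φ ^ n) w + act (b ^ n) (r (φ ^ n)⁻¹ w) := by
  have hc : ∀ t g, Commute (act t) (r g) := fun t g => by
    ext w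
    exact hcomm t g w
  have h1 : r φ * r φ⁻¹ = 1 := by rw [← map_mul, mul_inv_cancel, map_one]
  have h2 : r φ⁻¹ * r φ = 1 := by rw [← map_mul, inv_mul_cancel, map_one]
  have ha : act a = r φ + act b * r φ⁻¹ := by
    ext w
    have h3 := h (r φ⁻¹ w)
    have h4 : r φ (r φ⁻¹ w) = w := LinearMap.congr_fun h1 w
    rw [h4] at h3
    change act a w = r φ w + act b (r φ⁻¹ w)
    rw [← sub_eq_zero, ← neg_eq_zero, ← h3]
    abel
  rw [map_lucas, ha, lucas_eq h1 h2 (hc b φ) (hc b φ⁻¹), map_pow, ← inv_pow, map_pow, map_pow]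
  rfl

/-- the value of the cyclotomic character on a Frobenius element -/
theorem autToPow_frob {n : ℕ} [NeZero n] {ζ : Qb} (hζ : IsPrimitiveRoot ζ n) {q : ℕ}
    (hq : q.Prime) (hqn : ¬ q ∣ n) {A : ValuationSubring Qb} (hA : A.LiesOverPrime q) {σ : Γℚ}
    (hσ : A.IsFrobeniusAt σ q) :
    hζ.autToPow ℚ σ = ZMod.unitOfCoprime q ((Nat.Prime.coprime_iff_not_dvd hq).2 hqn) := by
  have hσζ : σ ζ = ζ ^ q := H05.IsFrobeniusAt.apply_rootOfUnity hq hA hqn hσ hζ.pow_eq_one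
  apply Units.ext
  have h2 := hζ.autToPow_spec ℚ σ
  rw [hσζ] at h2
  have h3 := H23.dvd_sub_of_pow_eq (NeZero.ne n) hζ h2.symm
  have h4 := (ZMod.intCast_eq_intCast_iff_dvd_sub _ _ n).mpr h3
  rw [Int.cast_natCast, Int.cast_natCast, ZMod.natCast_val, ZMod.cast_id', id] at h4
  rw [ZMod.coe_unitOfCoprime]
  exact h4

theorem autToPow_inertia {n : ℕ} [NeZero n] {ζ : Qb} (hζ : IsPrimitiveRoot ζ n) {q : ℕ}
    (hq : q.Prime) (hqn : ¬ q ∣ n) {A : ValuationSubring Qb} (hA : A.LiesOverPrime q) {σ : Γℚ}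
    (hσ : σ ∈ A.inertiaSubgroupIn ℚ) : hζ.autToPow ℚ σ = 1 := by
  have hσζ : σ ζ = ζ := H05.inertia_apply_rootOfUnity hq hA hqn hσ hζ.pow_eq_one
  apply Units.ext
  have h2 := hζ.autToPow_spec ℚ σ
  rw [hσζ] at h2
  have h3 := H23.dvd_sub_of_pow_eq (a := ((hζ.autToPow ℚ σ : (ZMod n)ˣ) : ZMod n).val) (b := 1)
    (NeZero.ne n) hζ (by rw [h2, pow_one])
  have h4 := (ZMod.intCast_eq_intCast_iff_dvd_sub _ _ n).mpr h3
  rw [Int.cast_natCast, Int.cast_natCast, ZMod.natCast_val, ZMod.cast_id', id] at h4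
  rw [← h4, Nat.cast_one, Units.val_one]

/-- **The mod `p` representation attached to a Hecke–Galois module with nebentypus.** -/
theorem exists_rep_of_module (hp : p.Prime) [Module.Finite ℤ T] (Tq : ℕ → T) (dd : (ZMod N)ˣ →* T)
    (hW : ∀ w : W, p • w = 0) (hcomm : ∀ t g w, act t (r g w) = r g (act t w))
    (hr : GaloisFactorsThroughFiniteLevel r) (B : Finset ℕ) (hpB : p ∈ B)
    (hNB : ∀ q : ℕ, q.Prime → q ∣ N → q ∈ B)
    (hunr : ∀ q : ℕ, q.Prime → q ∉ B → ∀ A : ValuationSubring Qb, A.LiesOverPrime q →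
      ∀ τ ∈ A.inertiaSubgroupIn ℚ, r τ = 1)
    (hES : ∀ (q : ℕ) (hq : q.Prime) (hqB : q ∉ B),
      ∀ A : ValuationSubring Qb, A.LiesOverPrime q → ∀ φ : Γℚ, A.IsFrobeniusAt φ q → ∀ w : W,
        r φ (r φ w) - act (Tq q) (r φ w) + act ((q : T) * dd (ZMod.unitOfCoprime q
          ((Nat.Prime.coprime_iff_not_dvd hq).2 fun h => hqB (hNB q hq h)))) w = 0)
    {F : Type} [Field F] [IsAlgClosed F] [CharP F p] (χ : T →+* F)
    (hker : ∀ t, act t = 0 → χ t = 0) :
    ∃ ρ : Γℚ →* Matrix (Fin 2) (Fin 2) F, GaloisFactorsThroughFiniteLevel ρ ∧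
      (∀ (q : ℕ) (hq : q.Prime) (hqB : q ∉ B), ∀ A : ValuationSubring Qb, A.LiesOverPrime q →
        ∀ σ : Γℚ, A.IsFrobeniusAt σ q →
          (ρ σ).charpoly = X ^ 2 - C (χ (Tq q)) * X + C ((q : F) * χ (dd (ZMod.unitOfCoprime q
            ((Nat.Prime.coprime_iff_not_dvd hq).2 fun h => hqB (hNB q hq h)))))) ∧
      ∀ q : ℕ, q.Prime → q ∉ B → ∀ A : ValuationSubring Qb, A.LiesOverPrime q →
        ∀ τ ∈ A.inertiaSubgroupIn ℚ, ρ τ = 1 := by
  classical
  haveI : Fact p.Prime := ⟨hp⟩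
  haveI : NeZero p := ⟨hp.ne_zero⟩
  obtain ⟨ζ, hζ⟩ : ∃ ζ : Qb, IsPrimitiveRoot ζ p := by
    haveI : NeZero (p : Qb) := ⟨by exact_mod_cast hp.ne_zero⟩
    exact HasEnoughRootsOfUnity.exists_primitiveRoot Qb p
  obtain ⟨ξ, hξ⟩ : ∃ ξ : Qb, IsPrimitiveRoot ξ N := by
    haveI : NeZero (N : Qb) := ⟨by exact_mod_cast NeZero.ne N⟩
    exact HasEnoughRootsOfUnity.exists_primitiveRoot Qb N
  obtain ⟨L, hL, hL1⟩ := hr
  haveI := hL
  -- the field containing everything
  let L₃ : IntermediateField ℚ Qb := IntermediateField.adjoin ℚ {ζ, ξ}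
  haveI hL₃ : FiniteDimensional ℚ L₃ := by
    apply IntermediateField.finiteDimensional_adjoin
    rintro x (rfl | rfl)
    · apply IsIntegral.of_pow hp.pos
      rw [hζ.pow_eq_one]
      exact isIntegral_one
    · apply IsIntegral.of_pow (NeZero.pos N)
      rw [hξ.pow_eq_one]
      exact isIntegral_one
  have hζL : ζ ∈ L₃ := IntermediateField.subset_adjoin _ _ (by simp)
  have hξL : ξ ∈ L₃ := IntermediateField.subset_adjoin _ _ (by simp)
  haveI : FiniteDimensional ℚ (L ⊔ L₃ : IntermediateField ℚ Qb) :=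
    IntermediateField.finiteDimensional_sup L L₃
  -- determinant
  let cp : Γℚ →* F := ((ZMod.castHom dvd_rfl F : ZMod p →+* F) : ZMod p →* F).comp
    ((Units.coeHom (ZMod p)).comp (hζ.autToPow ℚ))
  let cN : Γℚ →* F := (χ : T →* F).comp (dd.comp (hξ.autToPow ℚ))
  have hfix : ∀ {n : ℕ} [NeZero n] {z : Qb} (hz : IsPrimitiveRoot z n) (g : Γℚ), g z = z →
      hz.autToPow ℚ g = 1 := by
    intro n _ z hz g h
    apply Units.ext
    have h2 := hz.autToPow_spec ℚ g
    rw [h] at h2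
    have h3 := H23.dvd_sub_of_pow_eq (a := ((hz.autToPow ℚ g : (ZMod n)ˣ) : ZMod n).val) (b := 1)
      (NeZero.ne n) hz (by rw [h2, pow_one])
    have h4 := (ZMod.intCast_eq_intCast_iff_dvd_sub _ _ n).mpr h3
    rw [Int.cast_natCast, Int.cast_natCast, ZMod.natCast_val, ZMod.cast_id', id] at h4
    rw [← h4, Nat.cast_one, Units.val_one]
  -- the operators attached to a Galois element
  let c : Γℚ → T := fun g =>
    ((((hζ.autToPow ℚ g : (ZMod p)ˣ) : ZMod p).val : ℕ) : T) * dd (hξ.autToPow ℚ g)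
  have hpact : ∀ (t t' : T), (∃ s, t - t' = p * s) → ∀ w, act t w = act t' w := by
    rintro t t' ⟨s, hs⟩ w
    have h1 : act (t - t') w = 0 := by
      rw [hs, map_mul, map_natCast]
      change ((p : Module.End ℤ W)) (act s w) = 0
      rw [Module.End.natCast_apply, hW]
    rw [map_sub] at h1
    exact sub_eq_zero.1 h1
  have hcast : ∀ (a b : ℕ), (a : ZMod p) = (b : ZMod p) → ∃ s : T, (a : T) - (b : T) = p * s := by
    intro a b h
    have h1 := (ZMod.intCast_eq_intCast_iff_dvd_sub (b : ℤ) (a : ℤ) p).mp (by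
      rw [Int.cast_natCast, Int.cast_natCast, h])
    obtain ⟨e, he⟩ := h1
    refine ⟨(e : T), ?_⟩
    have h2 := congrArg (Int.cast : ℤ → T) he
    push_cast at h2
    exact h2
  have hex : ∀ g : Γℚ, ∃ s : T, ∀ w, act s w = r g w + act (c g) (r g⁻¹ w) := by
    intro g
    obtain ⟨q, hq, hqB, A, hA, φ, hφ, n, hn⟩ := H25.weakChebotarev (L ⊔ L₃) inferInstance B g
    have hqN : ¬ q ∣ N := fun h => hqB (hNB q hq h)
    have hqp : ¬ q ∣ p := fun h => hqB (((Nat.prime_dvd_prime_iff_eq hq hp).1 h) ▸ hpB)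
    set a : T := Tq q with ha
    set b : T := (q : T) * dd (ZMod.unitOfCoprime q ((Nat.Prime.coprime_iff_not_dvd hq).2 hqN))
      with hb
    refine ⟨lucas a b n, fun w => ?_⟩
    rw [act_lucas act r hcomm (hES q hq hqB A hA φ hφ) n w]
    let u : Γℚ := (φ ^ n)⁻¹ * g
    have hu : ∀ x ∈ (L ⊔ L₃ : IntermediateField ℚ Qb), u x = x := by
      intro x hx
      change (φ ^ n)⁻¹ (g x) = x
      rw [hn x hx]
      change ((φ ^ n)⁻¹ * (φ ^ n)) x = x
      rw [inv_mul_cancel]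
      rfl
    have hg : g = φ ^ n * u := by
      change g = φ ^ n * ((φ ^ n)⁻¹ * g)
      rw [mul_inv_cancel_left]
    have hru : r u = 1 := hL1 u fun x hx => hu x (le_sup_left (a := L) hx)
    have h5 : r g = r (φ ^ n) := by
      have : r g = r (φ ^ n) * r u := by rw [← map_mul, ← hg]
      rw [this, hru, mul_one]
    have hru' : r u⁻¹ = 1 := by
      have : r u * r u⁻¹ = 1 := by rw [← map_mul, mul_inv_cancel, map_one]
      rwa [hru, one_mul] at this
    have h6 : r g⁻¹ = r (φ ^ n)⁻¹ := by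
      have : r g⁻¹ = r u⁻¹ * r ((φ ^ n)⁻¹) := by rw [← map_mul, ← mul_inv_rev, ← hg]
      rw [this, hru', one_mul]
    rw [h5, h6]
    congr 1
    -- the multipliers agree modulo `p`
    have hup : hζ.autToPow ℚ g = (hζ.autToPow ℚ φ) ^ n := by
      rw [hg, map_mul, map_pow, hfix hζ u (hu ζ (le_sup_right (a := L) hζL)), mul_one]
    have huN : hξ.autToPow ℚ g = (hξ.autToPow ℚ φ) ^ n := by
      rw [hg, map_mul, map_pow, hfix hξ u (hu ξ (le_sup_right (a := L) hξL)), mul_one]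
    apply hpact
    have e1 := autToPow_frob hζ hq hqp hA hφ
    have e2 := autToPow_frob hξ hq hqN hA hφ
    have e3 : ((q ^ n : ℕ) : ZMod p) =
        ((((hζ.autToPow ℚ g : (ZMod p)ˣ) : ZMod p).val : ℕ) : ZMod p) := by
      rw [ZMod.natCast_val, ZMod.cast_id', id, hup, e1, Units.val_pow_eq_pow_val,
        ZMod.coe_unitOfCoprime, Nat.cast_pow]
    obtain ⟨s, hs⟩ := hcast _ _ e3
    refine ⟨s * dd (hξ.autToPow ℚ g), ?_⟩
    rw [← mul_assoc, ← hs, sub_mul, mul_pow, Nat.cast_pow]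
    change _ = _ - c g
    congr 2
    rw [huN, map_pow, e2]
  choose s hs using hex
  have hd : ∀ g, (cp * cN) g = χ (c g) := by
    intro g
    rw [MonoidHom.mul_apply]
    change (ZMod.castHom dvd_rfl F ((hζ.autToPow ℚ g : (ZMod p)ˣ) : ZMod p)) *
      χ (dd (hξ.autToPow ℚ g)) = χ _
    rw [map_mul, map_natCast]
    congr 1
    rw [ZMod.castHom_apply, ZMod.natCast_val]
  haveI hmax : (RingHom.ker χ).IsMaximal := by
    have h1 : Ideal.comap (algebraMap ℤ T) (RingHom.ker χ) = Ideal.span {(p : ℤ)} := by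
      ext z
      rw [Ideal.mem_comap, RingHom.mem_ker, eq_intCast (algebraMap ℤ T) z, map_intCast,
        Ideal.mem_span_singleton, CharP.intCast_eq_zero_iff F p]
    have h2 : (Ideal.span {(p : ℤ)}).IsMaximal :=
      PrincipalIdealRing.isMaximal_of_irreducible (Nat.prime_iff_prime_int.mp hp).irreducible
    haveI : (RingHom.ker χ).IsPrime := RingHom.ker_isPrime χ
    apply Ideal.isMaximal_of_isIntegral_of_isMaximal_comap (R := ℤ) (RingHom.ker χ)
    rw [h1]
    exact h2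
  obtain ⟨ρ, hρ, hρ1⟩ := exists_matrixRep act r hcomm
    (H23.finite_range_of_finiteLevel r ⟨L, hL, hL1⟩) hp.ne_zero hW χ hmax hker (cp * cN) s c hd hs
  -- values at Frobenius elements
  have hfrob : ∀ (q : ℕ) (hq : q.Prime) (hqB : q ∉ B), ∀ A : ValuationSubring Qb,
      A.LiesOverPrime q → ∀ σ : Γℚ, A.IsFrobeniusAt σ q →
        χ (s σ) = χ (Tq q) ∧ (cp * cN) σ = (q : F) * χ (dd (ZMod.unitOfCoprime q
            ((Nat.Prime.coprime_iff_not_dvd hq).2 fun h => hqB (hNB q hq h)))) := by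
    intro q hq hqB A hA σ hσ
    have hqN : ¬ q ∣ N := fun h => hqB (hNB q hq h)
    have hqp : ¬ q ∣ p := fun h => hqB (((Nat.prime_dvd_prime_iff_eq hq hp).1 h) ▸ hpB)
    have e1 := autToPow_frob hζ hq hqp hA hσ
    have e2 := autToPow_frob hξ hq hqN hA hσ
    constructor
    · have h1 : act (s σ - Tq q) = 0 := by
        ext w
        rw [map_sub, LinearMap.sub_apply, hs, LinearMap.zero_apply]
        have h2 := act_lucas act r hcomm (hES q hq hqB A hA σ hσ) 1 w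
        rw [pow_one, pow_one] at h2
        have h3 : act (lucas (Tq q) ((q : T) * dd (ZMod.unitOfCoprime q
          ((Nat.Prime.coprime_iff_not_dvd hq).2 hqN))) 1) w = act (Tq q) w := rfl
        rw [h3] at h2
        rw [h2, add_sub_add_left_eq_sub, sub_eq_zero]
        apply hpact
        obtain ⟨t, ht⟩ := hcast (((hζ.autToPow ℚ σ : (ZMod p)ˣ) : ZMod p).val : ℕ) q (by
          rw [ZMod.natCast_val, ZMod.cast_id', id, e1, ZMod.coe_unitOfCoprime])
        refine ⟨t * dd (hξ.autToPow ℚ σ), ?_⟩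
        rw [← mul_assoc, ← ht, sub_mul, e2, ← e2]
      have h5 := hker _ h1
      rw [map_sub, sub_eq_zero] at h5
      exact h5
    · rw [MonoidHom.mul_apply]
      change (ZMod.castHom dvd_rfl F ((hζ.autToPow ℚ σ : (ZMod p)ˣ) : ZMod p)) *
        χ (dd (hξ.autToPow ℚ σ)) = _
      rw [e1, e2, ZMod.coe_unitOfCoprime, map_natCast]
  refine ⟨ρ, ⟨L ⊔ L₃, inferInstance, fun σ hσ => ?_⟩, ?_, ?_⟩
  · refine hρ1 σ (hL1 σ fun x hx => hσ x (le_sup_left (a := L) hx)) ?_
    rw [MonoidHom.mul_apply]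
    change (ZMod.castHom dvd_rfl F ((hζ.autToPow ℚ σ : (ZMod p)ˣ) : ZMod p)) *
        χ (dd (hξ.autToPow ℚ σ)) = _
    rw [hfix hζ σ (hσ ζ (le_sup_right (a := L) hζL)), hfix hξ σ (hσ ξ (le_sup_right (a := L) hξL)),
      Units.val_one, map_one, map_one, map_one, one_mul]
  · intro q hq hqB A hA σ hσ
    obtain ⟨h1, h2⟩ := hfrob q hq hqB A hA σ hσ
    rw [hρ, h1, h2]
  · intro q hq hqB A hA τ hτ
    have hqN : ¬ q ∣ N := fun h => hqB (hNB q hq h)
    have hqp : ¬ q ∣ p := fun h => hqB (((Nat.prime_dvd_prime_iff_eq hq hp).1 h) ▸ hpB)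
    refine hρ1 τ (hunr q hq hqB A hA τ hτ) ?_
    rw [MonoidHom.mul_apply]
    change (ZMod.castHom dvd_rfl F ((hζ.autToPow ℚ τ : (ZMod p)ˣ) : ZMod p)) *
        χ (dd (hξ.autToPow ℚ τ)) = _
    rw [autToPow_inertia hζ hq hqp hA hτ, autToPow_inertia hξ hq hqN hA hτ, Units.val_one, map_one,
      map_one, map_one, one_mul]

end Main

end Fermat.Agent.H11J
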