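import Fermat.Agent.H11J.FinLev
import Fermat.Agent.H11J.Es
import Fermat.Agent.H11J.Rep
import Fermat.Agent.H22.GamHLin

/-!
# The eigencharacter attached to an eigenvector in `Hom(Γ, k)`
-/

set_option autoImplicit false
set_option linter.style.haveILetI false
set_option linter.unusedSectionVars false
set_option maxSynthPendingDepth 3

noncomputable section

namespace Fermat.Agent.H11J

open CongruenceSubgroup AlgebraicCurve ModularCurve Module
open scoped MatrixGroups

open Fermat.Agent.H22 (GamH GamHl dChar diamond conjG heckeH KillsPE heckeHL diamondL)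
open Fermat.Agent.H18J (FK dia)
open Fermat.Agent.H02G (HasRootChar IsPar)

local notation "Qb" => AlgebraicClosure ℚ
local notation "Γℚ" => (AlgebraicClosure ℚ ≃ₐ[ℚ] AlgebraicClosure ℚ)

/-! ### Characters of the additive group of a field of characteristic `ℓ` -/

section Sep

variable {k : Type} [Field k] {ℓ : ℕ} [hℓ : Fact ℓ.Prime] [CharP k ℓ]

/-- a faithful character of `ℤ/ℓ`. -/
theorem exists_zmodChar : ∃ e : Multiplicative (ZMod ℓ) →* ℂˣ, Function.Injective e := by
  have hζ := Complex.isPrimitiveRoot_exp ℓ hℓ.out.ne_zero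
  set ζ := Complex.exp (2 * Real.pi * Complex.I / ℓ)
  obtain ⟨u, hu⟩ := hζ.isUnit hℓ.out.ne_zero
  have hu' : IsPrimitiveRoot u ℓ := by
    rw [← hu] at hζ
    exact IsPrimitiveRoot.coe_units_iff.1 hζ
  let e₀ : ZMod ℓ →+ Additive ℂˣ := ZMod.lift ℓ ⟨zmultiplesHom _ (Additive.ofMul u), by
    rw [zmultiplesHom_apply, natCast_zsmul]
    exact congrArg Additive.ofMul hu'.pow_eq_one⟩
  refine ⟨AddMonoidHom.toMultiplicativeLeft e₀, ?_⟩
  rw [injective_iff_map_eq_one]
  intro a ha
  obtain ⟨n, hn⟩ := ZMod.intCast_surjective (Multiplicative.toAdd a)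
  have h1 : e₀ (Multiplicative.toAdd a) = 0 := ha
  rw [← hn, ZMod.lift_coe] at h1
  have h2 : u ^ n = 1 := h1
  have h3 := (hu'.zpow_eq_one_iff_dvd n).1 h2
  have h4 : Multiplicative.toAdd a = 0 := by
    rw [← hn, ZMod.intCast_zmod_eq_zero_iff_dvd]
    exact h3
  exact h4

variable (ℓ) in
include hℓ in
theorem exists_char_ne_one {x : k} (hx : x ≠ 0) :
    ∃ c : Multiplicative k →* ℂˣ, c (Multiplicative.ofAdd x) ≠ 1 := by
  letI : Algebra (ZMod ℓ) k := ZMod.algebra k ℓ
  obtain ⟨e, he⟩ := exists_zmodChar (ℓ := ℓ)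
  obtain ⟨f, hf⟩ : ∃ f : Module.Dual (ZMod ℓ) k, f x ≠ 0 := by
    by_contra hcon
    push Not at hcon
    exact hx ((Module.forall_dual_apply_eq_zero_iff (ZMod ℓ) x).1 hcon)
  refine ⟨e.comp (AddMonoidHom.toMultiplicative (f : k →+ ZMod ℓ)), fun h => hf ?_⟩
  have h1 : e (Multiplicative.ofAdd (f x)) = e 1 := by
    rw [map_one]
    exact h
  exact he h1

end Sep

/-! ### The abstract eigencharacter -/

section Abs

variable {k : Type} [Field k] {E : Type} [Ring E]

theorem exists_ringHom_of_rel (S : Set E) (Rel : E → k → Prop)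
    (hint : ∀ n : ℤ, Rel (algebraMap ℤ E n) n)
    (hadd : ∀ x y a b, Rel x a → Rel y b → Rel (x + y) (a + b))
    (hmul : ∀ x y a b, Rel x a → Rel y b → Rel (x * y) (a * b))
    (huniq : ∀ x a b, Rel x a → Rel x b → a = b) (hS : ∀ s ∈ S, ∃ a, Rel s a) :
    ∃ χ : Algebra.adjoin ℤ S →+* k, ∀ (t : Algebra.adjoin ℤ S) (a : k), Rel t a → χ t = a := by
  have hex : ∀ t : Algebra.adjoin ℤ S, ∃ a, Rel t a := by
    rintro ⟨t, ht⟩
    induction ht using Algebra.adjoin_induction with
    | mem x hx => exact hS x hx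
    | algebraMap r => exact ⟨r, hint r⟩
    | add x y hx hy ihx ihy =>
      obtain ⟨a, ha⟩ := ihx
      obtain ⟨b, hb⟩ := ihy
      exact ⟨a + b, hadd _ _ _ _ ha hb⟩
    | mul x y hx hy ihx ihy =>
      obtain ⟨a, ha⟩ := ihx
      obtain ⟨b, hb⟩ := ihy
      exact ⟨a * b, hmul _ _ _ _ ha hb⟩
  choose c hc using hex
  have h0 : Rel 0 0 := by
    have := hint 0
    rwa [map_zero, Int.cast_zero] at this
  have h1 : Rel 1 1 := by
    have := hint 1
    rwa [map_one, Int.cast_one] at this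
  refine ⟨{ toFun := c, map_one' := huniq _ _ _ (hc 1) h1, map_zero' := huniq _ _ _ (hc 0) h0,
            map_add' := fun x y => huniq _ _ _ (hc (x + y)) (hadd _ _ _ _ (hc x) (hc y)),
            map_mul' := fun x y => huniq _ _ _ (hc (x * y)) (hmul _ _ _ _ (hc x) (hc y)) },
    fun t a h => huniq _ _ _ (hc t) h⟩

end Abs

/-! ### The eigencharacter of an eigenvector -/

section Eig

variable {N : ℕ} [NeZero N] {H : Subgroup (ZMod N)ˣ} {ℓ : ℕ}
  {k : Type} [Field k] [CharP k ℓ]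

/-- The complex character attached to an additive character and a character of `k`. -/
def cc (φ : Additive (GamH N H) →+ k) (c : Multiplicative k →* ℂˣ) : GamH N H →* ℂˣ :=
  c.comp φ.toMultiplicativeRight

/-- `KillsPE` for additive characters -/
def KPE (φ : Additive (GamH N H) →+ k) : Prop := KillsPE φ.toMultiplicativeRight

theorem cc_apply (φ : Additive (GamH N H) →+ k) (c : Multiplicative k →* ℂˣ) (γ : GamH N H) :
    cc φ c γ = c (Multiplicative.ofAdd (φ (Additive.ofMul γ))) := rfl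

theorem cc_mem {φ : Additive (GamH N H) →+ k} (hφ : KPE φ) (c : Multiplicative k →* ℂˣ) :
    cc φ c ∈ ParM (GamH N H) ℓ := by
  refine ⟨isPar_iff.2 fun γ hγ => ?_, fun γ => ?_⟩
  · change c (φ.toMultiplicativeRight γ) = 1
    rw [hφ γ hγ, map_one]
  · rw [cc_apply, ← map_pow, ← ofAdd_nsmul, nsmul_eq_mul, CharP.cast_eq_zero, zero_mul, ofAdd_zero,
      map_one]

variable (ℓ) in
/-- The corresponding elements of the module. -/
def PP {φ : Additive (GamH N H) →+ k} (hφ : KPE φ) (c : Multiplicative k →* ℂˣ) :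
    Additive (ParM (GamH N H) ℓ) := Additive.ofMul ⟨cc φ c, cc_mem hφ c⟩

/-- multiplication by `a` on characters -/
def mulc (a : k) (c : Multiplicative k →* ℂˣ) : Multiplicative k →* ℂˣ :=
  c.comp (AddMonoidHom.mulLeft a).toMultiplicative

theorem mulc_apply (a : k) (c : Multiplicative k →* ℂˣ) (x : k) :
    mulc a c (Multiplicative.ofAdd x) = c (Multiplicative.ofAdd (a * x)) := rfl

variable (ℓ) in
/-- `t` acts through `a` on the characters attached to `φ` -/
def RelE {φ : Additive (GamH N H) →+ k} (hφ : KPE φ)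
    (t : Module.End ℤ (Additive (ParM (GamH N H) ℓ))) (a : k) : Prop :=
  ∀ c, t (PP ℓ hφ c) = PP ℓ hφ (mulc a c)

variable {φ : Additive (GamH N H) →+ k} (hφ : KPE φ)

theorem PP_ext {w : Additive (ParM (GamH N H) ℓ)} {c : Multiplicative k →* ℂˣ}
    (h : ∀ γ : GamH N H, (w.toMul : GamH N H →* ℂˣ) γ =
      c (Multiplicative.ofAdd (φ (Additive.ofMul γ)))) : w = PP ℓ hφ c := by
  apply Additive.toMul.injective
  apply Subtype.ext
  exact MonoidHom.ext h

theorem toMul_PP (c : Multiplicative k →* ℂˣ) (γ : GamH N H) :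
    (((PP ℓ hφ c).toMul : ParM (GamH N H) ℓ) : GamH N H →* ℂˣ) γ =
      c (Multiplicative.ofAdd (φ (Additive.ofMul γ))) := rfl

theorem RelE.int (n : ℤ) : RelE ℓ hφ (algebraMap ℤ _ n) n := fun c => by
  apply PP_ext hφ
  intro γ
  have h1 : (algebraMap ℤ (Module.End ℤ (Additive (ParM (GamH N H) ℓ))) n) (PP ℓ hφ c) =
    n • PP ℓ hφ c := by rw [Module.algebraMap_end_apply]
  rw [h1, mulc_apply, ← zsmul_eq_mul, ofAdd_zsmul, map_zpow, ← toMul_PP (ℓ := ℓ) hφ]
  rw [toMul_zsmul, Subgroup.coe_zpow, MonoidHom.zpow_apply]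

theorem RelE.add {t t' : Module.End ℤ (Additive (ParM (GamH N H) ℓ))} {a a' : k}
    (h : RelE ℓ hφ t a) (h' : RelE ℓ hφ t' a') : RelE ℓ hφ (t + t') (a + a') := fun c => by
  apply PP_ext hφ
  intro γ
  rw [LinearMap.add_apply, h c, h' c, mulc_apply, add_mul, ofAdd_add, map_mul]
  rfl

theorem RelE.mul {t t' : Module.End ℤ (Additive (ParM (GamH N H) ℓ))} {a a' : k}
    (h : RelE ℓ hφ t a) (h' : RelE ℓ hφ t' a') : RelE ℓ hφ (t * t') (a * a') := fun c => by
  rw [Module.End.mul_apply, h' c, h (mulc a' c)]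
  apply PP_ext hφ
  intro γ
  rw [toMul_PP, mulc_apply, mulc_apply, mulc_apply, ← mul_assoc, mul_comm a' a]

include hφ in
theorem RelE.uniq [hℓ : Fact ℓ.Prime] (hne : φ ≠ 0)
    {t : Module.End ℤ (Additive (ParM (GamH N H) ℓ))} {a a' : k}
    (h : RelE ℓ hφ t a) (h' : RelE ℓ hφ t a') : a = a' := by
  by_contra hcon
  obtain ⟨γ, hγ⟩ : ∃ γ : GamH N H, φ (Additive.ofMul γ) ≠ 0 := by
    by_contra h0
    push Not at h0
    exact hne (AddMonoidHom.ext fun x => h0 x.toMul)
  obtain ⟨c, hc⟩ := exists_char_ne_one ℓ (mul_ne_zero (sub_ne_zero.2 hcon) hγ)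
  apply hc
  have h1 := (h c).symm.trans (h' c)
  have h2 := congrArg (fun w : Additive (ParM (GamH N H) ℓ) => (w.toMul : GamH N H →* ℂˣ) γ) h1
  simp only [toMul_PP, mulc_apply] at h2
  rw [sub_mul, ofAdd_sub, map_div, h2, div_self']

end Eig

end Fermat.Agent.H11J
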