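import Fermat.Agent.H11J.Eig

/-!
# The mod `ℓ` representation attached to an eigenvector in `Hom(Γ_H(N), k)`
-/

set_option autoImplicit false
set_option linter.style.haveILetI false
set_option linter.unusedSectionVars false
set_option maxSynthPendingDepth 3

noncomputable section

namespace Fermat.Agent.H11J

open CongruenceSubgroup AlgebraicCurve ModularCurve Module Polynomial
open scoped MatrixGroups

open Fermat.Agent.H22 (GamH GamHl dChar diamond conjG heckeH KillsPE heckeHL diamondL)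
open Fermat.Agent.H18J (FK dia)
open Fermat.Agent.H02G (HasRootChar IsPar)

local notation "Qb" => AlgebraicClosure ℚ
local notation "Γℚ" => (AlgebraicClosure ℚ ≃ₐ[ℚ] AlgebraicClosure ℚ)

section Op

variable {N : ℕ} [NeZero N] {H : Subgroup (ZMod N)ˣ} {m : ℕ}

/-- Endomorphisms of `ParM` as linear maps. -/
def opE (f : ParM (GamH N H) m →* ParM (GamH N H) m) :
    Module.End ℤ (Additive (ParM (GamH N H) m)) :=
  (MonoidHom.toAdditive f).toIntLinearMap

theorem opE_apply (f : ParM (GamH N H) m →* ParM (GamH N H) m) (w : ParM (GamH N H) m) :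
    opE f (Additive.ofMul w) = Additive.ofMul (f w) := rfl

theorem opE_ext {x y : Module.End ℤ (Additive (ParM (GamH N H) m))}
    (h : ∀ w : ParM (GamH N H) m, x (Additive.ofMul w) = y (Additive.ofMul w)) : x = y :=
  LinearMap.ext h

theorem diaP_mul (g g' : Gamma0 N) :
    opE (diaP (H := H) (m := m) (g * g')) = opE (diaP g) * opE (diaP g') := by
  refine opE_ext fun w => ?_
  rw [Module.End.mul_apply, opE_apply, opE_apply, opE_apply]
  refine congrArg Additive.ofMul (Subtype.ext ?_)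
  exact (H22.diamond_mul_apply N H g g' _).trans (H22.diamond_comm N H g' g _)

theorem diaP_congr {g g' : Gamma0 N} (h : dChar N g = dChar N g') :
    opE (diaP (H := H) (m := m) g) = opE (diaP g') := by
  refine opE_ext fun w => ?_
  rw [opE_apply, opE_apply]
  refine congrArg Additive.ofMul (Subtype.ext ?_)
  exact H22.diamond_congr N H (by rw [h, inv_mul_cancel]; exact one_mem _) _

theorem diaP_of_one {g : Gamma0 N} (h : dChar N g = 1) :
    opE (diaP (H := H) (m := m) g) = 1 := by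
  refine opE_ext fun w => ?_
  rw [opE_apply]
  refine congrArg Additive.ofMul (Subtype.ext ?_)
  exact H22.diamond_of_mem N H g (by rw [h]; exact one_mem _) _

theorem heckeP_comm {p q : ℕ} [NeZero p] [NeZero q] (hp : p.Prime) (hq : q.Prime) :
    opE (heckeP (H := H) (m := m) p) * opE (heckeP q) = opE (heckeP q) * opE (heckeP p) := by
  refine opE_ext fun w => ?_
  rw [Module.End.mul_apply, Module.End.mul_apply, opE_apply, opE_apply, opE_apply, opE_apply]
  refine congrArg Additive.ofMul (Subtype.ext ?_)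
  exact H22.heckeH_comm_prime N H hq hp _

theorem heckeP_diaP {p : ℕ} [NeZero p] (g : Gamma0 N) :
    opE (heckeP (H := H) (m := m) p) * opE (diaP g) = opE (diaP g) * opE (heckeP p) := by
  refine opE_ext fun w => ?_
  rw [Module.End.mul_apply, Module.End.mul_apply, opE_apply, opE_apply, opE_apply, opE_apply]
  refine congrArg Additive.ofMul (Subtype.ext ?_)
  exact H22.heckeH_diamond N H p g _

theorem diaP_comm (g g' : Gamma0 N) :
    opE (diaP (H := H) (m := m) g) * opE (diaP g') = opE (diaP g') * opE (diaP g) := by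
  rw [← diaP_mul, ← diaP_mul]
  exact diaP_congr (by rw [map_mul, map_mul, mul_comm])

/-- the generators of the Hecke algebra -/
def genS (N : ℕ) [NeZero N] (H : Subgroup (ZMod N)ˣ) (m : ℕ) (B : Finset ℕ) :
    Set (Module.End ℤ (Additive (ParM (GamH N H) m))) :=
  {x | (∃ g : Gamma0 N, x = opE (diaP g)) ∨
    ∃ (q : ℕ) (hq : q.Prime), q ∉ B ∧ x = haveI : NeZero q := ⟨hq.ne_zero⟩; opE (heckeP q)}

theorem genS_comm (B : Finset ℕ) : ∀ x ∈ genS N H m B, ∀ y ∈ genS N H m B, x * y = y * x := by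
  rintro x (⟨g, rfl⟩ | ⟨q, hq, -, rfl⟩) y (⟨g', rfl⟩ | ⟨q', hq', -, rfl⟩)
  · exact diaP_comm g g'
  · exact (@heckeP_diaP _ _ _ _ q' ⟨hq'.ne_zero⟩ g).symm
  · exact @heckeP_diaP _ _ _ _ q ⟨hq.ne_zero⟩ g'
  · exact @heckeP_comm _ _ _ _ q q' ⟨hq.ne_zero⟩ ⟨hq'.ne_zero⟩ hq hq'

end Op

section Rel

variable {N : ℕ} [NeZero N] {H : Subgroup (ZMod N)ˣ} {ℓ : ℕ}
  {k : Type} [Field k] [CharP k ℓ] {φ : Additive (GamH N H) →+ k} (hφ : KPE φ)

theorem RelE.hecke {q : ℕ} [NeZero q] {b : k} (h : heckeHL k N H k q φ = b • φ) :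
    RelE ℓ hφ (opE (heckeP q)) b := fun c => by
  apply PP_ext hφ
  intro γ
  change heckeH N H q (c.comp φ.toMultiplicativeRight) γ = _
  rw [H22.heckeH_comp]
  have h1 : heckeH N H q φ.toMultiplicativeRight = (b • φ).toMultiplicativeRight :=
    congrArg AddMonoidHom.toMultiplicativeRight h
  rw [h1]
  rfl

theorem RelE.dia {g : Gamma0 N} {b : k} (h : diamondL k N H k g φ = b • φ) :
    RelE ℓ hφ (opE (diaP g)) b := fun c => by
  apply PP_ext hφ
  intro γ
  change diamond N H g (c.comp φ.toMultiplicativeRight) γ = _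
  rw [H22.diamond_comp]
  have h1 : diamond N H g φ.toMultiplicativeRight = (b • φ).toMultiplicativeRight :=
    congrArg AddMonoidHom.toMultiplicativeRight h
  rw [h1]
  rfl

end Rel

section Main

variable [Algebra (AlgebraicClosure ℚ) ℂ] {N : ℕ} [NeZero N] {H : Subgroup (ZMod N)ˣ} {ℓ : ℕ}

variable (H ℓ) in
/-- the Galois representation on `ParM` -/
def rR (hℓ : ℓ ≠ 0) : Γℚ →* Module.End ℤ (Additive (ParM (GamH N H) ℓ)) where
  toFun σ := opE (rG H hℓ σ)
  map_one' := opE_ext fun w => congrArg Additive.ofMul (rG_one hℓ w)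
  map_mul' σ τ := opE_ext fun w => congrArg Additive.ofMul (rG_mul hℓ σ τ w)

/-- an element with given diamond character -/
def gU (u : (ZMod N)ˣ) : Gamma0 N :=
  ⟨(H22.exists_dChar_eq N 1 u).choose, (H22.exists_dChar_eq N 1 u).choose_spec.choose⟩

theorem dChar_gU (u : (ZMod N)ˣ) : dChar N (gU u) = u :=
  (H22.exists_dChar_eq N 1 u).choose_spec.choose_spec.2

variable [Fact ℓ.Prime] {k : Type} [Field k] [IsAlgClosed k] [CharP k ℓ]
  {φ : Additive (GamH N H) →+ k}

/-- **The mod `ℓ` representation attached to a parabolic eigenvector.** -/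
theorem exists_rep_of_eigen (hφ : KPE φ) (hne : φ ≠ 0) (b : ℕ → k) (e : (ZMod N)ˣ → k)
    (B : Finset ℕ) (hℓB : ℓ ∈ B) (hNB : ∀ q : ℕ, q.Prime → q ∣ N → q ∈ B)
    (hb : ∀ (q : ℕ) (hq : q.Prime), q ∉ B → haveI : NeZero q := ⟨hq.ne_zero⟩
      heckeHL k N H k q φ = b q • φ)
    (he : ∀ g : Gamma0 N, diamondL k N H k g φ = e (dChar N g) • φ)
    (hK : ∀ q : ℕ, q.Prime → q ∉ B → ∀ A : ValuationSubring Qb, A.LiesOverPrime q →
      KeyFK H A ℓ ∧ PrimFK H A ℓ) :
    ∃ ρ : Γℚ →* Matrix (Fin 2) (Fin 2) k, GaloisFactorsThroughFiniteLevel ρ ∧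
      (∀ (q : ℕ) (hq : q.Prime) (hqB : q ∉ B), ∀ A : ValuationSubring Qb, A.LiesOverPrime q →
        ∀ σ : Γℚ, A.IsFrobeniusAt σ q →
          (ρ σ).charpoly = X ^ 2 - C (b q * e (ZMod.unitOfCoprime q
              ((Nat.Prime.coprime_iff_not_dvd hq).2 fun h => hqB (hNB q hq h)))) * X +
            C ((q : k) * e (ZMod.unitOfCoprime q
              ((Nat.Prime.coprime_iff_not_dvd hq).2 fun h => hqB (hNB q hq h))))) ∧
      ∀ q : ℕ, q.Prime → q ∉ B → ∀ A : ValuationSubring Qb, A.LiesOverPrime q →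
        ∀ τ ∈ A.inertiaSubgroupIn ℚ, ρ τ = 1 := by
  classical
  have hℓ : ℓ.Prime := Fact.out
  have hm : ℓ ≠ 0 := hℓ.ne_zero
  haveI : Finite (ParM (GamH N H) ℓ) := by
    haveI : NeZero ℓ := ⟨hm⟩
    exact finite_ParM
  haveI : Finite (Additive (ParM (GamH N H) ℓ)) := ‹Finite (ParM (GamH N H) ℓ)›
  -- the Hecke algebra
  set S := genS N H ℓ B with hS
  letI iT : CommRing (Algebra.adjoin ℤ S) := Algebra.adjoinCommRingOfComm ℤ (genS_comm B)
  haveI : Finite (Module.End ℤ (Additive (ParM (GamH N H) ℓ))) :=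
    Finite.of_injective (fun x : Module.End ℤ (Additive (ParM (GamH N H) ℓ)) =>
      (x : Additive (ParM (GamH N H) ℓ) → Additive (ParM (GamH N H) ℓ))) DFunLike.coe_injective
  haveI : Finite (Algebra.adjoin ℤ S) :=
    Finite.of_injective (fun t : Algebra.adjoin ℤ S => (t : Module.End ℤ (Additive (ParM (GamH N H) ℓ))))
      Subtype.val_injective
  haveI : Module.Finite ℤ (Algebra.adjoin ℤ S) := Module.Finite.of_finite
  obtain ⟨χ, hχ⟩ := exists_ringHom_of_rel (k := k) S (RelE ℓ hφ) (RelE.int hφ)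
    (fun x y a b => RelE.add hφ) (fun x y a b => RelE.mul hφ)
    (fun x a b => RelE.uniq hφ hne) (by
      rintro s (⟨g, rfl⟩ | ⟨q, hq, hqB, rfl⟩)
      · exact ⟨_, RelE.dia hφ (he g)⟩
      · exact ⟨_, @RelE.hecke _ _ _ _ _ _ _ _ hφ q ⟨hq.ne_zero⟩ _ (hb q hq hqB)⟩)
  let act : Algebra.adjoin ℤ S →+* Module.End ℤ (Additive (ParM (GamH N H) ℓ)) :=
    (Algebra.adjoin ℤ S).val.toRingHom
  let dd : (ZMod N)ˣ →* Algebra.adjoin ℤ S :=
    { toFun := fun u => ⟨opE (diaP (gU u)), Algebra.subset_adjoin (Or.inl ⟨_, rfl⟩)⟩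
      map_one' := Subtype.ext (diaP_of_one (dChar_gU 1))
      map_mul' := fun u v => Subtype.ext ((diaP_congr (by
        rw [dChar_gU, map_mul, dChar_gU, dChar_gU])).trans (diaP_mul (gU u) (gU v))) }
  let tt : ℕ → Algebra.adjoin ℤ S := fun q => if h : q.Prime ∧ q ∉ B then
    ⟨haveI : NeZero q := ⟨h.1.ne_zero⟩; opE (heckeP q),
      Algebra.subset_adjoin (Or.inr ⟨q, h.1, h.2, rfl⟩)⟩ else 0
  let Tq : ℕ → Algebra.adjoin ℤ S := fun q =>
    if h : Nat.Coprime q N then tt q * dd (ZMod.unitOfCoprime q h) else 0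
  have hTq : ∀ (q : ℕ) (h : Nat.Coprime q N), Tq q = tt q * dd (ZMod.unitOfCoprime q h) :=
    fun q h => dif_pos h
  have htt : ∀ (q : ℕ) (hq : q.Prime) (hqB : q ∉ B), (tt q).1 =
      haveI : NeZero q := ⟨hq.ne_zero⟩; opE (heckeP q) := fun q hq hqB => by
    have h1 : tt q = _ := dif_pos ⟨hq, hqB⟩
    rw [h1]
  have hcomm' : ∀ t ∈ Algebra.adjoin ℤ S, ∀ σ : Γℚ, Commute t (rR H ℓ hm σ) := by
    intro t ht σ
    induction ht using Algebra.adjoin_induction with
    | mem x hx =>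
      rcases hx with ⟨g, rfl⟩ | ⟨q, hq, hqB, rfl⟩
      · exact opE_ext fun w => congrArg Additive.ofMul (rG_diaP hm σ g w).symm
      · haveI : Fact q.Prime := ⟨hq⟩
        refine opE_ext fun w => congrArg Additive.ofMul (rG_heckeP hm σ ?_ w).symm
        exact ((Nat.Prime.coprime_iff_not_dvd hq).2 fun h => hqB (hNB q hq h)).symm
    | algebraMap r => exact Algebra.commutes r _
    | add x y hx hy ihx ihy => exact ihx.add_left ihy
    | mul x y hx hy ihx ihy => exact ihx.mul_left ihy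
  have key := exists_rep_of_module (p := ℓ) (N := N) (T := Algebra.adjoin ℤ S)
    (W := Additive (ParM (GamH N H) ℓ)) act (rR H ℓ hm) hℓ Tq dd (fun w => ?_) (fun t σ w => ?_) ?_ B hℓB
    hNB (fun q hq hqB A hA τ hτ => ?_) (fun q hq hqB A hA σ hσ w => ?_) (F := k) χ (fun t ht => ?_)
  · obtain ⟨ρ, h1, h2, h3⟩ := key
    refine ⟨ρ, h1, fun q hq hqB A hA σ hσ => ?_, h3⟩
    have hcop : Nat.Coprime q N := (Nat.Prime.coprime_iff_not_dvd hq).2 fun h => hqB (hNB q hq h)
    have h4 := h2 q hq hqB A hA σ hσ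
    have e1 : χ (dd (ZMod.unitOfCoprime q hcop)) = e (ZMod.unitOfCoprime q hcop) := by
      refine hχ _ _ ?_
      have := RelE.dia (ℓ := ℓ) hφ (he (gU (ZMod.unitOfCoprime q hcop)))
      rwa [dChar_gU] at this
    have e2 : χ (tt q) = b q := by
      refine hχ _ _ ?_
      rw [htt q hq hqB]
      exact @RelE.hecke _ _ _ _ _ _ _ _ hφ q ⟨hq.ne_zero⟩ _ (hb q hq hqB)
    have e3 : χ (Tq q) = b q * e (ZMod.unitOfCoprime q hcop) := by
      rw [hTq q hcop]
      exact (map_mul χ _ _).trans (by rw [e1, e2])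
    exact h4.trans (congrArg₂ (fun u v : k => (X : k[X]) ^ 2 - C u * X + C ((q : k) * v)) e3 e1)
  · -- the exponent
    apply Additive.toMul.injective
    apply Subtype.ext
    ext γ
    rw [toMul_nsmul, toMul_zero, Subgroup.coe_pow, MonoidHom.pow_apply, w.toMul.2.2 γ]
    rfl
  · exact LinearMap.congr_fun (hcomm' t.1 t.2 σ) w
  · obtain ⟨L, hL, hL'⟩ := rG_finite (H := H) (m := ℓ) hm
    exact ⟨L, hL, fun σ hσ => opE_ext fun w => congrArg Additive.ofMul (hL' σ hσ w)⟩
  · obtain ⟨h1, h2⟩ := hK q hq hqB A hA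
    exact opE_ext fun w => congrArg Additive.ofMul (rG_inertia hm h1 h2 hτ w)
  · obtain ⟨h1, h2⟩ := hK q hq hqB A hA
    haveI : Fact q.Prime := ⟨hq⟩
    haveI : NeZero q := ⟨hq.ne_zero⟩
    haveI : CharP (IsLocalRing.ResidueField A) q := H05.charP_residueField hq hA
    have hcop : Nat.Coprime q N := (Nat.Prime.coprime_iff_not_dvd hq).2 fun h => hqB (hNB q hq h)
    have hinv : InvP q (gU (ZMod.unitOfCoprime q hcop))⁻¹ := by
      rw [InvP, map_inv, dChar_gU]
      have : ((ZMod.unitOfCoprime q hcop : (ZMod N)ˣ) : ZMod N) = q :=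
        ZMod.coe_unitOfCoprime q hcop
      rw [← this, Units.inv_mul]
    set g := gU (ZMod.unitOfCoprime q hcop) with hg
    have hES := rG_frob (p := q) hcop.symm hinv hm h1 h2 hσ (diaP g w.toMul)
    have hgg : diaP (H := H) (m := ℓ) g⁻¹ (diaP g w.toMul) = w.toMul := by
      have h3 := LinearMap.congr_fun ((diaP_mul (H := H) (m := ℓ) g⁻¹ g).symm.trans
        (diaP_of_one (by rw [inv_mul_cancel, map_one]))) w
      exact congrArg Additive.toMul h3
    rw [hgg, rG_diaP] at hES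
    have e1 : act (Tq q) (rR H ℓ hm σ w) =
        Additive.ofMul (heckeP q (diaP g (rG H hm σ w.toMul))) := by
      rw [hTq q hcop]
      change ((tt q).1 * (dd (ZMod.unitOfCoprime q hcop)).1) _ = _
      rw [htt q hq hqB]
      rfl
    have e2 : act ((q : Algebra.adjoin ℤ S) * dd (ZMod.unitOfCoprime q hcop)) w =
        Additive.ofMul ((diaP g w.toMul) ^ q) := by
      rw [ofMul_pow]
      have e3 : (q : Algebra.adjoin ℤ S) * dd (ZMod.unitOfCoprime q hcop) =
        q • dd (ZMod.unitOfCoprime q hcop) := (nsmul_eq_mul _ _).symm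
      rw [e3]
      have e4 : act (q • dd (ZMod.unitOfCoprime q hcop)) = q • act (dd (ZMod.unitOfCoprime q hcop)) :=
        map_nsmul act _ _
      rw [e4]
      rfl
    rw [e1, e2, hES, ofMul_mul]
    change Additive.ofMul (rG H hm σ (rG H hm σ w.toMul)) - _ + _ = 0
    abel
  · have h0 : t = 0 := Subtype.ext ht
    rw [h0]
    exact map_zero χ

end Main

end Fermat.Agent.H11J
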