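import Fermat.Agent.H11J.Chr2

/-!
# The Galois action on characters factors through a finite level
-/

set_option autoImplicit false
set_option linter.style.haveILetI false
set_option linter.unusedSectionVars false
set_option maxSynthPendingDepth 3

noncomputable section

namespace Fermat.Agent.H11J

open CongruenceSubgroup AlgebraicCurve ModularCurve
open scoped MatrixGroups

open Fermat.Agent.H22 (GamH)
open Fermat.Agent.H18J (FK dia FK_eq_adjoin gens coeffMap_gens)
open Fermat.Agent.H02G (HasRootChar IsPar)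

local notation "Qb" => AlgebraicClosure ℚ
local notation "Γℚ" => (AlgebraicClosure ℚ ≃ₐ[ℚ] AlgebraicClosure ℚ)

/-- Series with coefficients in a field. -/
def serL (L : IntermediateField ℚ Qb) : Subfield (LaurentSeries Qb) :=
  (coeffMap (L.val.toRingHom)).fieldRange

theorem coeff_mem_of_serL {L : IntermediateField ℚ Qb} {x : LaurentSeries Qb} (h : x ∈ serL L)
    (n : ℤ) : x.coeff n ∈ L := by
  obtain ⟨y, rfl⟩ := h
  rw [coeffMap_coeff]
  exact (y.coeff n).2

theorem serL_mono {L L' : IntermediateField ℚ Qb} (h : L ≤ L') : serL L ≤ serL L' := by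
  rintro _ ⟨y, rfl⟩
  refine ⟨coeffMap (IntermediateField.inclusion h).toRingHom y, ?_⟩
  ext n
  rw [coeffMap_coeff, coeffMap_coeff, coeffMap_coeff]
  rfl

/-- defined over a number field -/
def FinF (x : LaurentSeries Qb) : Prop :=
  ∃ L : IntermediateField ℚ Qb, FiniteDimensional ℚ L ∧ x ∈ serL L

theorem FinF.comb {x y z : LaurentSeries Qb} (hx : FinF x) (hy : FinF y)
    (h : ∀ L : IntermediateField ℚ Qb, x ∈ serL L → y ∈ serL L → z ∈ serL L) : FinF z := by
  obtain ⟨L, hL, h1⟩ := hx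
  obtain ⟨L', hL', h2⟩ := hy
  haveI := hL
  haveI := hL'
  exact ⟨L ⊔ L', IntermediateField.finiteDimensional_sup L L',
    h _ (serL_mono le_sup_left h1) (serL_mono le_sup_right h2)⟩

variable [Algebra (AlgebraicClosure ℚ) ℂ] {N : ℕ} [NeZero N] {H : Subgroup (ZMod N)ˣ}

theorem finF_of_mem {x : LaurentSeries Qb} (hx : x ∈ FK Qb (GamH N H)) : FinF x := by
  rw [FK_eq_adjoin] at hx
  induction hx using IntermediateField.adjoin_induction with
  | mem x hx =>
    rw [← coeffMap_gens (algebraMap ℚ Qb)] at hx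
    obtain ⟨y, -, rfl⟩ := hx
    refine ⟨⊥, inferInstance, coeffMap (algebraMap ℚ (⊥ : IntermediateField ℚ Qb)) y, ?_⟩
    ext n
    rw [coeffMap_coeff, coeffMap_coeff, coeffMap_coeff]
    rfl
  | algebraMap c =>
    refine ⟨IntermediateField.adjoin ℚ {c}, ?_, ?_⟩
    · exact IntermediateField.adjoin.finiteDimensional
        (Algebra.IsIntegral.isIntegral c)
    · let c' : IntermediateField.adjoin ℚ {c} := ⟨c, IntermediateField.mem_adjoin_simple_self ℚ c⟩
      exact ⟨algebraMap _ (LaurentSeries (IntermediateField.adjoin ℚ {c})) c',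
        H26.coeffMap_algebraMap' _ _⟩
  | add x y _ _ hx hy => exact hx.comb hy fun L h1 h2 => add_mem h1 h2
  | mul x y _ _ hx hy => exact hx.comb hy fun L h1 h2 => mul_mem h1 h2
  | inv x _ hx => exact hx.comb hx fun L h1 _ => inv_mem h1

instance finite_ParM {m : ℕ} [hm : NeZero m] : Finite (ParM (GamH N H) m) := by
  haveI := H01.finite_characters (GamH N H) hm.out
  refine Finite.of_injective (fun ψ : ParM (GamH N H) m =>
    (⟨ψ.1, ψ.2.2⟩ : {ψ : GamH N H →* ℂˣ // ∀ g, ψ g ^ m = 1})) ?_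
  intro ψ ψ' h
  have h1 := congrArg Subtype.val h
  exact Subtype.ext h1

/-- **Finite level.** -/
theorem rG_finite {m : ℕ} (hm : m ≠ 0) : ∃ L : IntermediateField ℚ Qb, FiniteDimensional ℚ L ∧
    ∀ σ : Γℚ, (∀ x ∈ L, σ x = x) → ∀ ψ : ParM (GamH N H) m, rG H hm σ ψ = ψ := by
  haveI : NeZero m := ⟨hm⟩
  have h1 : ∀ ψ : ParM (GamH N H) m, ∃ (L : IntermediateField ℚ Qb) (_ : FiniteDimensional ℚ L),
      ∀ σ : Γℚ, (∀ x ∈ L, σ x = x) → rG H hm σ ψ = ψ := by
    intro ψ
    obtain ⟨f, -, hf⟩ := exists_of_isPar hm ψ.2.1 ψ.2.2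
    obtain ⟨L, hL, hfL⟩ := finF_of_mem f.2
    refine ⟨L, hL, fun σ hσ => rG_eq hm hf ?_⟩
    have : galF H σ f = f := by
      apply Subtype.ext
      ext n
      rw [galF_coeff]
      exact hσ _ (coeff_mem_of_serL hfL n)
    rw [this]
    exact hf
  choose L hL hσ using h1
  haveI := hL
  haveI : FiniteDimensional ℚ (⨆ ψ, L ψ : IntermediateField ℚ Qb) :=
    IntermediateField.finiteDimensional_iSup_of_finite
  exact ⟨⨆ ψ, L ψ, inferInstance, fun σ h ψ => hσ ψ σ fun x hx => h x (le_iSup L ψ hx)⟩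

end Fermat.Agent.H11J
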