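import Fermat.Agent.H11J.RC

/-!
# Galois action and diamond operators on functions with divisor divisible by `m`
-/

set_option autoImplicit false
set_option linter.style.haveILetI false
set_option linter.unusedSectionVars false
set_option maxSynthPendingDepth 3

noncomputable section

namespace Fermat.Agent.H11J

open UpperHalfPlane hiding I
open ModularForm EisensteinSeries Filter Complex Topology Function CongruenceSubgroup
open AlgebraicCurve ModularCurve
open scoped MatrixGroups Manifold Real Nat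

open Fermat.Agent.H02 (modAlg tr tr_tr tr_one tr_apply tr_pow tr_mul mdiff_tr)
open Fermat.Agent.H22 (GamH dChar diamond conjG conj_mem_GamH)
open Fermat.Agent.H18J (FK jK cMap coe_cMap dia diaE exists_exp_C dia_C_eq cEmb_dia'
  tr_mem_modAlg_GamH cMap_dia dia_mul dia_of_mem)
open Fermat.Agent.H02G (HasRootChar IsPar)
open Fermat.Agent.Igusa (IsExp)

local notation "Qb" => AlgebraicClosure ℚ
local notation "Γℚ" => (AlgebraicClosure ℚ ≃ₐ[ℚ] AlgebraicClosure ℚ)

theorem tr_eq_zero_iff (g : SL(2, ℤ)) (a : ℍ → ℂ) : tr g a = 0 ↔ a = 0 := by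
  constructor
  · intro h
    have h1 := congrArg (tr g⁻¹) h
    rw [tr_tr, mul_inv_cancel, tr_one] at h1
    rw [h1]
    rfl
  · rintro rfl
    rfl

variable [Algebra (AlgebraicClosure ℚ) ℂ] {N : ℕ} [NeZero N] (H : Subgroup (ZMod N)ˣ)

/-- The Galois action on the function field. -/
def galF (σ : Γℚ) : FK Qb (GamH N H) ≃+* FK Qb (GamH N H) where
  toFun := cMap H (σ : Qb →+* Qb)
  invFun := cMap H (σ⁻¹ : Γℚ).toRingEquiv.toRingHom
  left_inv x := by
    apply Subtype.ext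
    rw [coe_cMap, coe_cMap]
    ext n
    rw [coeffMap_coeff, coeffMap_coeff]
    exact σ.symm_apply_apply _
  right_inv x := by
    apply Subtype.ext
    rw [coe_cMap, coe_cMap]
    ext n
    rw [coeffMap_coeff, coeffMap_coeff]
    exact σ.apply_symm_apply _
  map_mul' := map_mul _
  map_add' := map_add _

theorem galF_coeff (σ : Γℚ) (f : FK Qb (GamH N H)) (n : ℤ) :
    (galF H σ f : LaurentSeries Qb).coeff n = σ ((f : LaurentSeries Qb).coeff n) := by
  change (coeffMap (σ : Qb →+* Qb) (f : LaurentSeries Qb)).coeff n = _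
  rw [coeffMap_coeff]
  rfl

theorem galF_eq_cMap (σ : Γℚ) (f : FK Qb (GamH N H)) : galF H σ f = cMap H (σ : Qb →+* Qb) f := rfl

theorem galF_mul (σ τ : Γℚ) (f : FK Qb (GamH N H)) : galF H (σ * τ) f = galF H σ (galF H τ f) := by
  apply Subtype.ext
  ext n
  rw [galF_coeff, galF_coeff, galF_coeff]
  rfl

theorem galF_one (f : FK Qb (GamH N H)) : galF H 1 f = f := by
  apply Subtype.ext
  ext n
  rw [galF_coeff]
  rfl

theorem galF_algebraMap (σ : Γℚ) (c : Qb) :
    galF H σ (algebraMap Qb _ c) = algebraMap Qb _ (σ c) :=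
  Subtype.ext (H26.coeffMap_algebraMap' _ c)

/-- The semilinear automorphism. -/
def galS (σ : Γℚ) : SemilinearAut Qb (FK Qb (GamH N H)) :=
  ⟨(galF H σ, σ.toRingEquiv), fun c => galF_algebraMap H σ c⟩

theorem galS_smul (σ : Γℚ) (f : FK Qb (GamH N H)) : galS H σ • f = galF H σ f := rfl

variable {H} {m : ℕ} {f g : FK Qb (GamH N H)} {ψ ψ' : GamH N H →* ℂˣ}

theorem Dv.smul (hf : Dv m f) (s : SemilinearAut Qb (FK Qb (GamH N H))) : Dv m (s • f) := by
  refine ⟨fun h => hf.1 ?_, fun v => ?_⟩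
  · have h1 : s⁻¹ • s • f = s⁻¹ • 0 := congrArg (s⁻¹ • ·) h
    rwa [inv_smul_smul, smul_zero] at h1
  · have h1 := SemilinearAut.ord_smul s (s⁻¹ • v) f
    rw [smul_inv_smul] at h1
    rw [h1]
    exact hf.2 _

theorem Dv.gal (hf : Dv m f) (σ : Γℚ) : Dv m (galF H σ f) := hf.smul (galS H σ)

theorem Dv.dia (hf : Dv m f) (g : Gamma0 N) : Dv m (dia Qb H g f) :=
  hf.smul (SemilinearAut.ofAlgAut (diaE Qb H g))

theorem eC_dia (g : Gamma0 N) (f : FK Qb (GamH N H)) :
    eC H (dia Qb H g f) = dia ℂ H g (eC H f) :=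
  Subtype.ext (cEmb_dia' Qb g f)

theorem galF_dia (σ : Γℚ) (g : Gamma0 N) (f : FK Qb (GamH N H)) :
    galF H σ (dia Qb H g f) = dia Qb H g (galF H σ f) := cMap_dia _ g f

/-- Translates of weight zero root data. -/
theorem WRoot.translate {x : FK ℂ (GamH N H)} {a b h : ℍ → ℂ} {A B : LaurentSeries ℂ}
    (hr : WRoot (GamH N H) m (x : LaurentSeries ℂ) ψ a b h A B) (g : Gamma0 N) :
    ∃ A' B' : LaurentSeries ℂ, WRoot (GamH N H) m (dia ℂ H g x : LaurentSeries ℂ)
      (diamond N H g ψ) (tr g a) (tr g b) (tr g h) A' B' := by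
  have ha' := tr_mem_modAlg_GamH (H := H) g hr.ha
  have hb' := tr_mem_modAlg_GamH (H := H) g hr.hb
  obtain ⟨A', hA'⟩ := exists_exp_C ha'
  obtain ⟨B', hB'⟩ := exists_exp_C hb'
  rw [H18J.theta_C] at hA' hB'
  have hb0' : tr (g : SL(2, ℤ)) b ≠ 0 := fun h0 => hr.hb0 ((tr_eq_zero_iff _ _).1 h0)
  have hB0 : B ≠ 0 := fun h0 => hr.hb0 (by
    have h1 := hr.hB
    rw [h0] at h1
    exact H18.isExp_fun_unique h1 (Igusa.IsExp.zero))
  have hB0' : B' ≠ 0 := fun h0 => hb0' (by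
    have h1 := hB'
    rw [h0] at h1
    exact H18.isExp_fun_unique h1 (Igusa.IsExp.zero))
  refine ⟨A', B', ha', hb', fun h0 => hr.ha0 ((tr_eq_zero_iff _ _).1 h0), hb0', hA', hB', ?_,
    mdiff_tr hr.mdiff _, ?_, fun γ z => ?_⟩
  · rw [dia_C_eq g hr.ha hr.hb hr.hA hr.hB hA' hB' (eq_div_of_mul_eq hB0 hr.eq),
      div_mul_cancel₀ _ hB0']
  · rw [← tr_pow, hr.pow_eq, tr_mul, tr_pow]
  · rw [tr_apply, tr_apply]
    have h1 := hr.law (conjG N H g γ) ((g : SL(2, ℤ)) • z)
    rw [← mul_smul, H22.coe_conjG, inv_mul_cancel_right, mul_smul] at h1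
    exact h1

theorem KC.dia (hm : m ≠ 0) (h : KC m f ψ) (g : Gamma0 N) :
    KC m (dia Qb H g f) (diamond N H g ψ) := by
  obtain ⟨a, b, h, A, B, hr⟩ := exists_wroot hm h
  obtain ⟨A', B', hr'⟩ := hr.translate g
  have := hr'.hasRootChar hm
  rwa [KC, eC_dia]

end Fermat.Agent.H11J
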