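import Fermat.Agent.H11J.Gal
import Fermat.Agent.H22.TwistT

/-!
# The Hecke operator at `p` on functions of level `Γ_H(N)`: functions on the upper half plane
-/

set_option autoImplicit false
set_option linter.style.haveILetI false
set_option linter.unusedSectionVars false
set_option maxSynthPendingDepth 3

noncomputable section

namespace Fermat.Agent.H11J

open UpperHalfPlane hiding I
open ModularForm EisensteinSeries Filter Complex Topology Function CongruenceSubgroup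
open AlgebraicCurve ModularCurve
open scoped MatrixGroups Manifold Real Nat

open Fermat.Agent.H02 (modAlg tr tr_tr tr_one tr_apply tr_pow tr_mul mdiff_tr IsSlow)
open Fermat.Agent.H22 (GamH GamHl dChar diamond conjG conj_mem_GamH inclH inclH_injective conjH
  heckeH degSL exists_zreps zreps_isReps)
open Fermat.Agent.TC (IsReps)
open Fermat.Agent.H18J (FK jK cMap coe_cMap dia diaE exists_exp_C dia_C_eq cEmb_dia'
  tr_mem_modAlg_GamH cMap_dia dia_mul dia_of_mem scl_smul isSlow_comp_scl comp_scl_mem scaleLe_GamHl)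
open Fermat.Agent.Igusa (IsExp scl lin coe_scl coe_lin)

section Mat

variable {N p : ℕ} [NeZero N] [hp : Fact p.Prime] {H : Subgroup (ZMod N)ˣ}

/-- the matrix `diag(p, 1) z (1 i; 0 p)⁻¹` -/
def gOf (p : ℕ) [Fact p.Prime] (z : SL(2, ℤ)) (i : ℤ) (h : (p : ℤ) ∣ z 1 1 - z 1 0 * i) :
    SL(2, ℤ) :=
  ⟨!![p * z 0 0, z 0 1 - z 0 0 * i; z 1 0, (z 1 1 - z 1 0 * i) / p], by
    obtain ⟨c, hc⟩ := h
    have hp0 : (p : ℤ) ≠ 0 := by exact_mod_cast (Fact.out : p.Prime).ne_zero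
    rw [Matrix.det_fin_two_of, hc, Int.mul_ediv_cancel_left _ hp0]
    have h1 := H22.det_eq z
    linear_combination h1 - z 0 0 * hc⟩

variable {z : SL(2, ℤ)} {i : ℤ} (h : (p : ℤ) ∣ z 1 1 - z 1 0 * i)

theorem scl_smul_gOf (w : ℍ) : scl p (z • w) = gOf p z i h • lin p i w := by
  have hp0 : (p : ℂ) ≠ 0 := by exact_mod_cast hp.out.ne_zero
  obtain ⟨c, hc⟩ := id h
  have hq : (z 1 1 - z 1 0 * i) / (p : ℤ) = c := by
    rw [hc, Int.mul_ediv_cancel_left _ (by exact_mod_cast hp.out.ne_zero)]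
  have e : ((z 1 1 : ℤ) : ℂ) = p * c + z 1 0 * i := by
    have : (z 1 1 : ℤ) = p * c + z 1 0 * i := by linear_combination hc
    rw [this]; push_cast; ring
  have n1 : (z 1 0 : ℂ) * w + z 1 1 ≠ 0 := by
    have := denom_ne_zero z w
    rwa [ModularGroup.denom_apply] at this
  apply UpperHalfPlane.ext
  rw [coe_scl, coe_specialLinearGroup_apply, coe_specialLinearGroup_apply]
  have h00 : gOf p z i h 0 0 = p * z 0 0 := rfl
  have h01 : gOf p z i h 0 1 = z 0 1 - z 0 0 * i := rfl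
  have h10 : gOf p z i h 1 0 = z 1 0 := rfl
  have h11 : gOf p z i h 1 1 = (z 1 1 - z 1 0 * i) / p := rfl
  simp only [algebraMap_int_eq, eq_intCast, Complex.ofReal_intCast, h00, h01, h10, h11]
  rw [coe_lin, hq]
  rw [e] at n1 ⊢
  push_cast
  have n2 : (z 1 0 : ℂ) * ((w + i) / p) + c ≠ 0 := by
    intro h0
    apply n1
    have : (z 1 0 : ℂ) * w + (p * c + z 1 0 * i) = p * ((z 1 0 : ℂ) * ((w + i) / p) + c) := by
      field_simp
      ring
    rw [this, h0, mul_zero]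
  rw [mul_div_assoc', div_eq_div_iff n1 n2]
  field_simp
  ring

theorem gOf_mem (hz : z ∈ CongruenceSubgroup.Gamma N) : gOf p z i h ∈ Gamma0 N := by
  rw [Gamma0_mem]
  exact (Gamma_mem.mp hz).2.2.1

theorem dChar_gOf (hz : z ∈ CongruenceSubgroup.Gamma N) :
    ((dChar N ⟨gOf p z i h, gOf_mem h hz⟩ : (ZMod N)ˣ) : ZMod N) * p = 1 := by
  obtain ⟨c, hc⟩ := id h
  have hq : (z 1 1 - z 1 0 * i) / (p : ℤ) = c := by
    rw [hc, Int.mul_ediv_cancel_left _ (by exact_mod_cast hp.out.ne_zero)]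
  obtain ⟨h1, h2, h3, h4⟩ := Gamma_mem.mp hz
  rw [H22.dChar_val]
  have h11 : gOf p z i h 1 1 = (z 1 1 - z 1 0 * i) / p := rfl
  change ((gOf p z i h 1 1 : ℤ) : ZMod N) * _ = 1
  rw [h11, hq]
  have h5 := congrArg (fun n : ℤ => (n : ZMod N)) hc
  push_cast at h5
  rw [h4, h3] at h5
  rw [mul_comm, ← h5]
  ring

end Mat

section Reps

variable {N p : ℕ} [NeZero N] [hp : Fact p.Prime] {H : Subgroup (ZMod N)ˣ}

/-- representatives for the Hecke operator. -/
structure HkReps (N p : ℕ) [Fact p.Prime] (z : Option (ZMod p) → SL(2, ℤ)) : Prop where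
  mem : ∀ j, z j ∈ CongruenceSubgroup.Gamma N
  hnone : z none = 1
  entry : ∀ i : ZMod p, ((z (some i) 1 0 : ℤ) : ZMod p) = 1 ∧ ((z (some i) 1 1 : ℤ) : ZMod p) = i

theorem exists_hkReps (hcop : Nat.Coprime N p) : ∃ z, HkReps N p z := by
  obtain ⟨z, h1, h2, h3⟩ := exists_zreps (ℓ := p) N hcop
  exact ⟨z, h1, h2, h3⟩

variable {z : Option (ZMod p) → SL(2, ℤ)}

theorem HkReps.dvd (hz : HkReps N p z) (i : ZMod p) :
    (p : ℤ) ∣ z (some i) 1 1 - z (some i) 1 0 * (i.val : ℤ) := by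
  rw [← ZMod.intCast_zmod_eq_zero_iff_dvd]
  push_cast
  rw [(hz.entry i).1, (hz.entry i).2, ZMod.natCast_val, ZMod.cast_id', id]
  ring

theorem Gamma_le_GamH : CongruenceSubgroup.Gamma N ≤ GamH N H := by
  intro γ hγ
  obtain ⟨h1, h2, h3, h4⟩ := Gamma_mem.mp hγ
  refine H22.mem_GamH'.mpr ⟨(ZMod.intCast_zmod_eq_zero_iff_dvd _ _).mp h3, 1, one_mem _, ?_⟩
  rw [h4, Units.val_one]

theorem HkReps.isReps (hz : HkReps N p z) (hcop : Nat.Coprime N p) :
    IsReps (GamH N H) (N * p) z :=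
  zreps_isReps Gamma_le_GamH H22.GamH_le_Gamma0 hcop hz.mem hz.hnone hz.entry

theorem bijective_of_isReps (hz : IsReps (GamH N H) (N * p) z) :
    Bijective fun i => (((⟨z i, hz.mem i⟩ : GamH N H)⁻¹ : GamH N H) :
      GamH N H ⧸ (inclH N H p).range) := by
  constructor
  · intro i j hij
    obtain ⟨k, hk⟩ := QuotientGroup.eq.mp hij
    apply hz.eq_of
    have h1 := congrArg (Subtype.val : GamH N H → SL(2, ℤ)) hk
    rw [H22.coe_inclH] at h1
    have h2 : z i * (z j)⁻¹ = (k : SL(2, ℤ)) := by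
      rw [h1]
      simp
    rw [h2]
    exact k.2.2
  · intro q
    induction q using QuotientGroup.induction_on with
    | H g =>
      obtain ⟨j, hj, -⟩ := hz.uniq (g : SL(2, ℤ))⁻¹ (inv_mem g.2)
      refine ⟨j, ?_⟩
      simp only
      rw [QuotientGroup.eq, inv_inv]
      have h1 : z j * (g : SL(2, ℤ)) ∈ Gamma0 (N * p) := by
        have := inv_mem hj
        rwa [mul_inv_rev, inv_inv, inv_inv] at this
      exact ⟨⟨z j * g, mul_mem (hz.mem j) g.2, h1⟩, rfl⟩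

/-- The norm of `u` from `Γ ∩ Γ₀(Np)` to `Γ`. -/
def nrmFn (z : Option (ZMod p) → SL(2, ℤ)) (u : ℍ → ℂ) : ℍ → ℂ := fun w => ∏ j, u (z j • w)

theorem nrmFn_law {ψ : GamH N H →* ℂˣ} (hz : IsReps (GamH N H) (N * p) z) {u : ℍ → ℂ}
    (hu : ∀ (k : GamHl N H p) (w : ℍ), u ((k : SL(2, ℤ)) • w) = ψ (conjH N H p k) * u w)
    (γ : GamH N H) (w : ℍ) :
    nrmFn z u ((γ : SL(2, ℤ)) • w) = heckeH N H p ψ γ * nrmFn z u w := by
  have h1 := H22.tr_automorphy (inclH N H p) (inclH_injective N H p) (ψ.comp (conjH N H p))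
    (fun i => (⟨z i, hz.mem i⟩ : GamH N H)⁻¹) (bijective_of_isReps hz) (Units.coeHom ℂ) u
    (fun k x => hu k x) γ w
  simp only [inv_inv] at h1
  exact h1

theorem mdiff_comp_scl {f : ℍ → ℂ} (hf : MDiff f) : MDiff (fun w => f (scl p w)) := by
  have := Fermat.Agent.IntStr.mdiff_comp_aff hf (NeZero.pos p) one_pos 0
  simpa only [H18J.scl_eq_aff] using this

theorem mdiff_finprod {ι : Type*} (s : Finset ι) {f : ι → ℍ → ℂ} (hf : ∀ i ∈ s, MDiff (f i)) :
    MDiff (fun w => ∏ i ∈ s, f i w) := by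
  classical
  induction s using Finset.induction_on with
  | empty => simpa using mdifferentiable_const
  | insert a s ha ih =>
    simp only [Finset.prod_insert ha]
    exact (hf a (Finset.mem_insert_self _ _)).mul
      (ih fun i hi => hf i (Finset.mem_insert_of_mem hi))

theorem mdiff_nrmFn {u : ℍ → ℂ} (hu : MDiff u) : MDiff (nrmFn z u) :=
  mdiff_finprod _ fun j _ => mdiff_tr hu (z j)

theorem nrmFn_eq_prod (u : ℍ → ℂ) : nrmFn z u = ∏ j, tr (z j) u := by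
  ext w
  rw [Finset.prod_apply]
  rfl

theorem isSlow_nrmFn {u : ℍ → ℂ} (hu : IsSlow u) : IsSlow (nrmFn z u) := by
  rw [nrmFn_eq_prod]
  exact H18J.isSlow_prod _ fun j _ => hu.tr (z j)

theorem nrmFn_mul (u v : ℍ → ℂ) : nrmFn z (u * v) = nrmFn z u * nrmFn z v := by
  ext w
  exact Finset.prod_mul_distrib

theorem nrmFn_pow (u : ℍ → ℂ) (n : ℕ) : nrmFn z (u ^ n) = nrmFn z u ^ n := by
  ext w
  exact Finset.prod_pow _ _ _

/-- The Hecke operator on functions. -/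
def tpFn (z : Option (ZMod p) → SL(2, ℤ)) (a : ℍ → ℂ) : ℍ → ℂ := nrmFn z fun w => a (scl p w)

theorem scl_law {a : ℍ → ℂ} {ψ : GamH N H →* ℂˣ}
    (ha : ∀ (γ : GamH N H) (w : ℍ), a ((γ : SL(2, ℤ)) • w) = ψ γ * a w)
    (k : GamHl N H p) (w : ℍ) :
    a (scl p ((k : SL(2, ℤ)) • w)) = ψ (conjH N H p k) * a (scl p w) := by
  rw [scl_smul _ (H22.dvd_of_mem k.2.2)]
  exact ha (conjH N H p k) _

theorem tpFn_law {a : ℍ → ℂ} {ψ : GamH N H →* ℂˣ} (hz : IsReps (GamH N H) (N * p) z)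
    (ha : ∀ (γ : GamH N H) (w : ℍ), a ((γ : SL(2, ℤ)) • w) = ψ γ * a w) (γ : GamH N H) (w : ℍ) :
    tpFn z a ((γ : SL(2, ℤ)) • w) = heckeH N H p ψ γ * tpFn z a w :=
  nrmFn_law hz (scl_law ha) γ w

theorem heckeH_one : heckeH N H p (1 : GamH N H →* ℂˣ) = 1 := by
  have := H22.heckeH_mul N H p (1 : GamH N H →* ℂˣ) 1
  rw [one_mul] at this
  exact (mul_eq_left.mp this.symm)

theorem tpFn_mem (hz : IsReps (GamH N H) (N * p) z) {a : ℍ → ℂ} (ha : a ∈ modAlg (GamH N H)) :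
    tpFn z a ∈ modAlg (GamH N H) := by
  refine ⟨isSlow_nrmFn (isSlow_comp_scl ha.1), fun γ hγ => ?_⟩
  ext w
  have h1 := tpFn_law (ψ := 1) hz (a := a) (fun γ w => by
    rw [MonoidHom.one_apply, Units.val_one, one_mul]
    exact congrFun (ha.2 _ γ.2) w) ⟨γ, hγ⟩ w
  rw [heckeH_one, MonoidHom.one_apply, Units.val_one, one_mul] at h1
  exact h1

end Reps

end Fermat.Agent.H11J
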