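import Fermat.Agent.Igusa.LaurentExp
import Fermat.Agent.Q.Frobenius

/-!
# Products of twists by the `p`-th roots of unity
-/

set_option autoImplicit false
set_option linter.unusedSectionVars false

noncomputable section

namespace Fermat.Agent.H11J

open ModularCurve
open Fermat.Agent.Igusa (twist twist_coeff twist_coeffMap zr zr_isPrimitiveRoot)

/-- the roots of unity are finite -/
instance fintypeRoots (K : Type*) [Field K] (p : ℕ) [NeZero p] : Fintype (rootsOfUnity p K) :=
  Fintype.ofFinite _

section Tw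

variable (K : Type*) [Field K] (p : ℕ) [NeZero p]

/-- The product of the twists by the `p`-th roots of unity. -/
def twProd : LaurentSeries K →* LaurentSeries K where
  toFun y := ∏ u : rootsOfUnity p K, twist (u : Kˣ) y
  map_one' := Finset.prod_eq_one fun u _ => map_one _
  map_mul' x y := by
    rw [← Finset.prod_mul_distrib]
    exact Finset.prod_congr rfl fun u _ => map_mul _ _ _

variable {K p}

theorem twProd_apply (y : LaurentSeries K) :
    twProd K p y = ∏ u : rootsOfUnity p K, twist (u : Kˣ) y := rfl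

theorem twist_injective (u : Kˣ) : Function.Injective (twist u) := (twist u).injective

theorem twProd_ne_zero {y : LaurentSeries K} (hy : y ≠ 0) : twProd K p y ≠ 0 := by
  rw [twProd_apply, Finset.prod_ne_zero_iff]
  intro u _ h
  exact hy ((map_eq_zero _).1 h)

theorem twProd_div (x y : LaurentSeries K) : twProd K p (x / y) = twProd K p x / twProd K p y := by
  rw [twProd_apply, twProd_apply, twProd_apply, ← Finset.prod_div_distrib]
  exact Finset.prod_congr rfl fun u _ => map_div₀ _ _ _

theorem card_roots {ζ : K} (hζ : IsPrimitiveRoot ζ p) : Fintype.card (rootsOfUnity p K) = p := by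
  rw [Fintype.card_eq_nat_card]
  exact hζ.card_rootsOfUnity

/-- Compatibility with maps of the coefficients. -/
theorem coeffMap_twProd {L : Type*} [Field L] (f : K →+* L) {ζ : K} (hζ : IsPrimitiveRoot ζ p)
    (y : LaurentSeries K) : coeffMap f (twProd K p y) = twProd L p (coeffMap f y) := by
  have hζ' : IsPrimitiveRoot (f ζ) p := hζ.map_of_injective f.injective
  let e : rootsOfUnity p K → rootsOfUnity p L := fun u =>
    ⟨Units.map (f : K →* L) u, by
      rw [mem_rootsOfUnity, ← map_pow, (mem_rootsOfUnity _ _).1 u.2, map_one]⟩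
  have he : Function.Bijective e := by
    rw [Fintype.bijective_iff_injective_and_card, card_roots hζ, card_roots hζ']
    refine ⟨fun u v h => ?_, rfl⟩
    apply Subtype.ext
    apply Units.ext
    apply f.injective
    exact congrArg (fun w : rootsOfUnity p L => ((w : Lˣ) : L)) h
  rw [twProd_apply, twProd_apply, map_prod]
  refine Fintype.prod_bijective e he _ _ fun u => ?_
  exact (twist_coeffMap f (u : Kˣ) y).symm

end Tw

theorem prod_twist_zr (p : ℕ) [NeZero p] (y : LaurentSeries ℂ) :
    ∏ i : ZMod p, twist (zr p ^ (i.val : ℤ)) y = twProd ℂ p y := by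
  have hζ := zr_isPrimitiveRoot p
  let e : ZMod p → rootsOfUnity p ℂ := fun i => ⟨zr p ^ (i.val : ℤ), by
    rw [mem_rootsOfUnity, zpow_natCast, ← pow_mul, mul_comm, pow_mul, Igusa.zr_pow, one_pow]⟩
  have he : Function.Bijective e := by
    rw [Fintype.bijective_iff_injective_and_card, card_roots hζ, ZMod.card]
    refine ⟨fun i j h => ?_, rfl⟩
    have h1 := congrArg (fun w : rootsOfUnity p ℂ => ((w : ℂˣ) : ℂ)) h
    simp only [e, zpow_natCast, Units.val_pow_eq_pow_val] at h1
    exact ZMod.val_injective p (hζ.pow_inj (ZMod.val_lt i) (ZMod.val_lt j) h1)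
  rw [twProd_apply]
  exact Fintype.prod_bijective e he _ _ fun i => rfl

section Red

variable {K : Type*} [Field K] {A : ValuationSubring K} {p : ℕ} [hp : Fact p.Prime]
  [CharP (IsLocalRing.ResidueField A) p]

theorem root_mem {u : Kˣ} (hu : u ∈ rootsOfUnity p K) : (u : K) ∈ A := by
  have h1 : (u : K) ^ p = 1 := by
    have := (mem_rootsOfUnity _ _).1 hu
    rw [← Units.val_pow_eq_pow_val, this, Units.val_one]
  rcases A.mem_or_inv_mem (u : K) with h | h
  · exact h
  · have h2 : (u : K) = ((u : K)⁻¹) ^ (p - 1) := by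
      rw [inv_pow]
      refine eq_inv_of_mul_eq_one_left ?_
      rw [← pow_succ', Nat.sub_add_cancel hp.out.pos, h1]
    rw [h2]
    exact pow_mem h _

theorem residue_root {u : Kˣ} (hu : u ∈ rootsOfUnity p K) :
    IsLocalRing.residue A ⟨(u : K), root_mem hu⟩ = 1 := by
  have h1 : (u : K) ^ p = 1 := by
    have := (mem_rootsOfUnity _ _).1 hu
    rw [← Units.val_pow_eq_pow_val, this, Units.val_one]
  have h2 : (⟨(u : K), root_mem hu⟩ : A) ^ p = 1 := Subtype.ext h1
  have h3 := congrArg (IsLocalRing.residue A) h2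
  rw [map_pow, map_one] at h3
  have h4 : (IsLocalRing.residue A ⟨(u : K), root_mem hu⟩ - 1) ^ p = 0 := by
    rw [sub_pow_char, h3, one_pow, sub_self]
  exact sub_eq_zero.1 (pow_eq_zero_iff hp.out.ne_zero |>.1 h4)

theorem zpow_root_mem {u : Kˣ} (hu : u ∈ rootsOfUnity p K) (n : ℤ) : ((u ^ n : Kˣ) : K) ∈ A :=
  root_mem (p := p) (zpow_mem hu n)

theorem twist_mem_intL {u : Kˣ} (hu : u ∈ rootsOfUnity p K) {y : LaurentSeries K}
    (hy : y ∈ Q.intL A) : twist u y ∈ Q.intL A := by
  rw [Q.mem_intL] at hy ⊢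
  intro n
  rw [twist_coeff]
  exact mul_mem (hy n) (zpow_root_mem hu n)

theorem redL_twist {u : Kˣ} (hu : u ∈ rootsOfUnity p K) {y : LaurentSeries K}
    (hy : y ∈ Q.intL A) : Q.redL A ⟨twist u y, twist_mem_intL hu hy⟩ = Q.redL A ⟨y, hy⟩ := by
  ext n
  rw [Q.redL_coeff, Q.redL_coeff]
  have h1 : (⟨(twist u y).coeff n, Q.mem_intL.mp (twist_mem_intL hu hy) n⟩ : A) =
      ⟨y.coeff n, Q.mem_intL.mp hy n⟩ * ⟨((u ^ n : Kˣ) : K), zpow_root_mem hu n⟩ :=
    Subtype.ext (twist_coeff u y n)
  rw [h1, map_mul, residue_root (zpow_mem hu n), mul_one]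

variable (p) in
theorem twProd_mem_intL {y : LaurentSeries K} (hy : y ∈ Q.intL A) :
    twProd K p y ∈ Q.intL A := by
  rw [twProd_apply]
  exact prod_mem fun u _ => twist_mem_intL u.2 hy

/-- The reduction of the product of the twists is the `p`-th power. -/
theorem redL_twProd {ζ : K} (hζ : IsPrimitiveRoot ζ p) {y : LaurentSeries K}
    (hy : y ∈ Q.intL A) : Q.redL A ⟨twProd K p y, twProd_mem_intL p hy⟩ = Q.redL A ⟨y, hy⟩ ^ p := by
  have h1 : (⟨twProd K p y, twProd_mem_intL p hy⟩ : Q.intL A) =
      ∏ u : rootsOfUnity p K, ⟨twist (u : Kˣ) y, twist_mem_intL u.2 hy⟩ := by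
    apply Subtype.ext
    rw [SubmonoidClass.coe_finsetProd]
    rfl
  rw [h1, map_prod, Finset.prod_congr rfl fun u _ => redL_twist u.2 hy, Finset.prod_const,
    Finset.card_univ, card_roots hζ]

end Red

end Fermat.Agent.H11J
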