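import Fermat.Agent.H11J.Hk1
import Fermat.Agent.H11J.TwProd

/-!
# The Hecke operator at `p` on functions of level `Γ_H(N)`: expansions
-/

set_option autoImplicit false
set_option linter.style.haveILetI false
set_option linter.unusedSectionVars false
set_option maxSynthPendingDepth 3

noncomputable section

namespace Fermat.Agent.H11J

open UpperHalfPlane hiding I
open ModularForm EisensteinSeries Filter Complex Topology Function CongruenceSubgroup
open AlgebraicCurve ModularCurve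
open scoped MatrixGroups Manifold Real Nat

open Fermat.Agent.H02 (modAlg tr tr_tr tr_one tr_apply tr_pow tr_mul mdiff_tr IsSlow qLauFun)
open Fermat.Agent.H22 (GamH GamHl dChar diamond conjG conj_mem_GamH inclH inclH_injective conjH
  heckeH degSL exists_zreps zreps_isReps)
open Fermat.Agent.TC (IsReps)
open Fermat.Agent.H18J (FK jK cMap coe_cMap dia diaE exists_exp_C dia_C_eq cEmb_dia'
  tr_mem_modAlg_GamH cMap_dia dia_mul dia_of_mem scl_smul isSlow_comp_scl comp_scl_mem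
  scaleLe_GamHl isExp_qLauFun exists_rep_dia_C)
open Fermat.Agent.Igusa (IsExp scl lin coe_scl coe_lin twist zr)
open Fermat.Agent.H26 (cEmb mem_of_cEmb_mem_extend)

local notation "Qb" => AlgebraicClosure ℚ
local notation "Γℚ" => (AlgebraicClosure ℚ ≃ₐ[ℚ] AlgebraicClosure ℚ)

variable {N p : ℕ} [NeZero N] [hp : Fact p.Prime] {H : Subgroup (ZMod N)ˣ}
  {z : Option (ZMod p) → SL(2, ℤ)}

/-- `g` has lower right entry `p⁻¹` modulo `N`. -/
def InvP (p : ℕ) (g : Gamma0 N) : Prop := ((dChar N g : (ZMod N)ˣ) : ZMod N) * p = 1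

theorem InvP.dChar_eq {g g' : Gamma0 N} (hg : InvP p g) (hg' : InvP p g') :
    dChar N g = dChar N g' := by
  apply Units.ext
  calc ((dChar N g : (ZMod N)ˣ) : ZMod N) = (dChar N g : ZMod N) * ((dChar N g' : ZMod N) * p) := by
        rw [hg', mul_one]
    _ = (dChar N g' : ZMod N) * ((dChar N g : ZMod N) * p) := by ring
    _ = _ := by rw [hg, mul_one]

theorem tr_eq_of_dChar {g g' : Gamma0 N} (h : dChar N g = dChar N g') {a : ℍ → ℂ}
    (ha : a ∈ modAlg (GamH N H)) : tr (g : SL(2, ℤ)) a = tr (g' : SL(2, ℤ)) a := by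
  have h1 : (g' : SL(2, ℤ)) * (g : SL(2, ℤ))⁻¹ ∈ GamH N H := by
    refine H22.mem_GamH.mpr ⟨mul_mem g'.2 (inv_mem g.2), ?_⟩
    have h2 : (⟨(g' : SL(2, ℤ)) * (g : SL(2, ℤ))⁻¹, mul_mem g'.2 (inv_mem g.2)⟩ : Gamma0 N) =
        g' * g⁻¹ := rfl
    rw [h2, map_mul, map_inv, h, mul_inv_cancel]
    exact one_mem _
  have h3 := ha.2 _ h1
  conv_lhs => rw [← h3]
  rw [tr_tr, inv_mul_cancel_right]

theorem isExp_tpFn (hz : HkReps N p z) {g : Gamma0 N} (hg : InvP p g) {a : ℍ → ℂ}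
    (ha : a ∈ modAlg (GamH N H)) {A A' : LaurentSeries ℂ} (hA : IsExp 1 a A)
    (hA' : IsExp 1 (tr (g : SL(2, ℤ)) a) A') :
    IsExp p (tpFn z a) (qExpand ℂ p (qExpand ℂ p A) * twProd ℂ p A') := by
  have h1 : IsExp p (fun w => a (scl p w)) (qExpand ℂ p (qExpand ℂ p A)) :=
    (Igusa.isExp_qExpand_iff p).2 (hA.comp_scl p)
  have h2 : IsExp p (∏ i : ZMod p, fun w => tr (g : SL(2, ℤ)) a (lin p (i.val : ℤ) w))
      (∏ i : ZMod p, twist (zr p ^ (i.val : ℤ)) A') :=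
    H18J.isExp_prod _ fun i _ => hA'.comp_lin p _
  rw [prod_twist_zr] at h2
  refine (h1.mul h2).congr fun w => ?_
  rw [tpFn, nrmFn, Fintype.prod_option, hz.hnone, one_smul]
  congr 1
  rw [Finset.prod_apply]
  refine Finset.prod_congr rfl fun i _ => ?_
  rw [scl_smul_gOf (hz.dvd i)]
  have h3 : InvP p (⟨gOf p (z (some i)) i.val (hz.dvd i), gOf_mem _ (hz.mem _)⟩ : Gamma0 N) :=
    dChar_gOf _ (hz.mem _)
  rw [tr_eq_of_dChar (hg.dChar_eq h3) ha]
  rfl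

/-- The defining relation of the Hecke operator on Laurent series. -/
def TpRel (K : Type*) [Field K] (p : ℕ) [NeZero p] (x x' y : LaurentSeries K) : Prop :=
  qExpand K p y = qExpand K p (qExpand K p x) * twProd K p x'

theorem TpRel.unique {K : Type*} [Field K] {x x' y y₁ : LaurentSeries K}
    (h : TpRel K p x x' y) (h₁ : TpRel K p x x' y₁) : y = y₁ :=
  qExpand_injective p (h.trans h₁.symm)

theorem TpRel.mul {K : Type*} [Field K] {x x' y x₁ x₁' y₁ : LaurentSeries K}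
    (h : TpRel K p x x' y) (h₁ : TpRel K p x₁ x₁' y₁) : TpRel K p (x * x₁) (x' * x₁') (y * y₁) := by
  unfold TpRel at *
  rw [map_mul, h, h₁, map_mul, map_mul, map_mul]
  ring

theorem TpRel.div {K : Type*} [Field K] {x x' y x₁ x₁' y₁ : LaurentSeries K}
    (h : TpRel K p x x' y) (h₁ : TpRel K p x₁ x₁' y₁) : TpRel K p (x / x₁) (x' / x₁') (y / y₁) := by
  unfold TpRel at *
  rw [map_div₀, h, h₁, map_div₀, map_div₀, twProd_div, div_mul_div_comm]

theorem TpRel.ne_zero {K : Type*} [Field K] {x x' y : LaurentSeries K}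
    (h : TpRel K p x x' y) (hx : x ≠ 0) (hx' : x' ≠ 0) : y ≠ 0 := by
  rintro rfl
  unfold TpRel at h
  rw [map_zero] at h
  have h1 : qExpand K p (qExpand K p x) ≠ 0 :=
    (map_ne_zero_iff _ (qExpand_injective p)).2 ((map_ne_zero_iff _ (qExpand_injective p)).2 hx)
  exact mul_ne_zero h1 (twProd_ne_zero hx') h.symm

theorem TpRel.map {K L : Type*} [Field K] [Field L] (f : K →+* L) {ζ : K}
    (hζ : IsPrimitiveRoot ζ p) {x x' y : LaurentSeries K} (h : TpRel K p x x' y) :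
    TpRel L p (coeffMap f x) (coeffMap f x') (coeffMap f y) := by
  unfold TpRel at *
  rw [← coeffMap_qExpand, h, map_mul, coeffMap_qExpand, coeffMap_qExpand, coeffMap_twProd f hζ]

theorem tpRel_fn (hcop : Nat.Coprime N p) (hz : HkReps N p z) {g : Gamma0 N} (hg : InvP p g)
    {a : ℍ → ℂ} (ha : a ∈ modAlg (GamH N H)) {A A' : LaurentSeries ℂ} (hA : IsExp 1 a A)
    (hA' : IsExp 1 (tr (g : SL(2, ℤ)) a) A') : TpRel ℂ p A A' (qLauFun (tpFn z a)) := by
  have h1 : IsExp 1 (tpFn z a) (qLauFun (tpFn z a)) :=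
    isExp_qLauFun (tpFn_mem (hz.isReps hcop) ha)
  exact ((Igusa.isExp_qExpand_iff p).2 h1).unique hp.out.pos (isExp_tpFn hz hg ha hA hA')

theorem exp_ne_zero {a : ℍ → ℂ} (ha : a ≠ 0) {n : ℕ} {A : LaurentSeries ℂ} (hA : IsExp n a A) :
    A ≠ 0 := by
  rintro rfl
  exact ha (H18.isExp_fun_unique hA Igusa.IsExp.zero)

theorem fn_ne_zero {a : ℍ → ℂ} {n : ℕ} (hn : 0 < n) {A : LaurentSeries ℂ} (hA : IsExp n a A)
    (h0 : A ≠ 0) : a ≠ 0 := by
  rintro rfl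
  exact h0 (hA.eq_zero hn)

theorem tpFn_ne_zero (hcop : Nat.Coprime N p) (hz : HkReps N p z) {g : Gamma0 N} (hg : InvP p g)
    {a : ℍ → ℂ} (ha : a ∈ modAlg (GamH N H)) (ha0 : a ≠ 0) : tpFn z a ≠ 0 := by
  have hA := isExp_qLauFun ha
  have hA' := isExp_qLauFun (tr_mem_modAlg_GamH g ha)
  have h1 := tpRel_fn hcop hz hg ha hA hA'
  have h2 := h1.ne_zero (exp_ne_zero ha0 hA)
    (exp_ne_zero (fun h => ha0 ((tr_eq_zero_iff _ _).1 h)) hA')
  exact fn_ne_zero one_pos (isExp_qLauFun (tpFn_mem (hz.isReps hcop) ha)) h2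

/-- Existence over `ℂ`. -/
theorem exists_tp_C (hcop : Nat.Coprime N p) {g : Gamma0 N} (hg : InvP p g)
    (x : FK ℂ (GamH N H)) : ∃ y : FK ℂ (GamH N H),
      TpRel ℂ p (x : LaurentSeries ℂ) (dia ℂ H g x : LaurentSeries ℂ) y := by
  obtain ⟨z, hz⟩ := exists_hkReps (p := p) hcop
  obtain ⟨a, b, ha, hb, A, B, A', B', hA, hB, hA', hB', h1, h2⟩ := exists_rep_dia_C g x
  have e1 := tpRel_fn hcop hz hg ha hA hA'
  have e2 := tpRel_fn hcop hz hg hb hB hB'
  have m1 := tpFn_mem (hz.isReps hcop) ha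
  have m2 := tpFn_mem (hz.isReps hcop) hb
  have f1 : qLauFun (tpFn z a) ∈ FK ℂ (GamH N H) :=
    H18J.mem_FK_of_mem ⟨_, m1, by rw [H18J.theta_C]; exact isExp_qLauFun m1⟩
  have f2 : qLauFun (tpFn z b) ∈ FK ℂ (GamH N H) :=
    H18J.mem_FK_of_mem ⟨_, m2, by rw [H18J.theta_C]; exact isExp_qLauFun m2⟩
  refine ⟨⟨_, div_mem f1 f2⟩, ?_⟩
  rw [h1, h2]
  exact e1.div e2

/-- Root data for `T_p`. -/
theorem WRoot.tp {m : ℕ} {ψ : GamH N H →* ℂˣ} (hcop : Nat.Coprime N p) (hz : HkReps N p z)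
    {g : Gamma0 N} (hg : InvP p g) {x y : FK ℂ (GamH N H)} {a b h : ℍ → ℂ}
    {A B : LaurentSeries ℂ} (hr : WRoot (GamH N H) m (x : LaurentSeries ℂ) ψ a b h A B)
    (hy : TpRel ℂ p (x : LaurentSeries ℂ) (dia ℂ H g x : LaurentSeries ℂ) y) :
    WRoot (GamH N H) m (y : LaurentSeries ℂ) (heckeH N H p ψ) (tpFn z a) (tpFn z b) (tpFn z h)
      (qLauFun (tpFn z a)) (qLauFun (tpFn z b)) := by
  have ha' := tr_mem_modAlg_GamH (H := H) g hr.ha
  have hb' := tr_mem_modAlg_GamH (H := H) g hr.hb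
  have hA' := isExp_qLauFun ha'
  have hB' := isExp_qLauFun hb'
  have e1 := tpRel_fn hcop hz hg hr.ha hr.hA hA'
  have e2 := tpRel_fn hcop hz hg hr.hb hr.hB hB'
  have m1 := tpFn_mem (hz.isReps hcop) hr.ha
  have m2 := tpFn_mem (hz.isReps hcop) hr.hb
  have hB0 : B ≠ 0 := exp_ne_zero hr.hb0 hr.hB
  have hB0' : qLauFun (tr (g : SL(2, ℤ)) b) ≠ 0 :=
    exp_ne_zero (fun h => hr.hb0 ((tr_eq_zero_iff _ _).1 h)) hB'
  have hdia := dia_C_eq g hr.ha hr.hb hr.hA hr.hB hA' hB' (eq_div_of_mul_eq hB0 hr.eq)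
  refine ⟨m1, m2, tpFn_ne_zero hcop hz hg hr.ha hr.ha0, tpFn_ne_zero hcop hz hg hr.hb hr.hb0,
    isExp_qLauFun m1, isExp_qLauFun m2, ?_, mdiff_nrmFn (mdiff_comp_scl hr.mdiff), ?_, ?_⟩
  · have e3 := hy.mul e2
    rw [hr.eq, hdia, div_mul_cancel₀ _ hB0'] at e3
    exact e3.unique e1
  · have h1 : tpFn z h ^ m = tpFn z (h ^ m) := (nrmFn_pow _ _).symm
    have h2 : tpFn z (a * b ^ (m - 1)) = tpFn z a * tpFn z (b ^ (m - 1)) := nrmFn_mul _ _
    have h3 : tpFn z (b ^ (m - 1)) = tpFn z b ^ (m - 1) := nrmFn_pow _ _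
    rw [h1, hr.pow_eq, h2, h3]
  · exact fun γ w => tpFn_law (hz.isReps hcop) hr.law γ w

end Fermat.Agent.H11J
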