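import Fermat.Agent.H11J.Hk2

/-!
# The Hecke operator at `p` on functions over `ℚ̄`
-/

set_option autoImplicit false
set_option linter.style.haveILetI false
set_option linter.unusedSectionVars false
set_option maxSynthPendingDepth 3

noncomputable section

namespace Fermat.Agent.H11J

open UpperHalfPlane hiding I
open ModularForm EisensteinSeries Filter Complex Topology Function CongruenceSubgroup
open AlgebraicCurve ModularCurve
open scoped MatrixGroups Manifold Real Nat

open Fermat.Agent.H22 (GamH GamHl dChar diamond conjG conj_mem_GamH inclH inclH_injective conjH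
  heckeH degSL exists_zreps zreps_isReps)
open Fermat.Agent.H18J (FK jK cMap coe_cMap dia diaE exists_exp_C dia_C_eq cEmb_dia'
  tr_mem_modAlg_GamH cMap_dia dia_mul dia_of_mem)
open Fermat.Agent.Igusa (IsExp scl lin coe_scl coe_lin twist zr)
open Fermat.Agent.H26 (cEmb mem_of_cEmb_mem_extend)
open Fermat.Agent.H02G (HasRootChar IsPar)

local notation "Qb" => AlgebraicClosure ℚ
local notation "Γℚ" => (AlgebraicClosure ℚ ≃ₐ[ℚ] AlgebraicClosure ℚ)

theorem exists_zeta (p : ℕ) [NeZero p] : ∃ ζ : Qb, IsPrimitiveRoot ζ p := by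
  haveI : NeZero (p : Qb) := ⟨by exact_mod_cast NeZero.ne p⟩
  exact HasEnoughRootsOfUnity.exists_primitiveRoot Qb p

variable [Algebra (AlgebraicClosure ℚ) ℂ] {N p : ℕ} [NeZero N] [hp : Fact p.Prime]
  {H : Subgroup (ZMod N)ˣ}

/-- Existence of the Hecke operator over `ℚ̄`. -/
theorem exists_tp (hcop : Nat.Coprime N p) {g : Gamma0 N} (hg : InvP p g)
    (f : FK Qb (GamH N H)) : ∃ y : FK Qb (GamH N H),
      TpRel Qb p (f : LaurentSeries Qb) (dia Qb H g f : LaurentSeries Qb) y := by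
  obtain ⟨ζ, hζ⟩ := exists_zeta p
  obtain ⟨Y, hY⟩ := exists_tp_C hcop hg (eC H f)
  set R := qExpand Qb p (qExpand Qb p (f : LaurentSeries Qb)) *
    twProd Qb p (dia Qb H g f : LaurentSeries Qb) with hR
  have h1 : cEmb Qb ℂ R = qExpand ℂ p (Y : LaurentSeries ℂ) := by
    have h2 : qExpand ℂ p (Y : LaurentSeries ℂ) = _ := hY
    rw [h2, hR, map_mul]
    have h3 : cEmb Qb ℂ (qExpand Qb p (qExpand Qb p (f : LaurentSeries Qb))) =
        qExpand ℂ p (qExpand ℂ p (eC H f : LaurentSeries ℂ)) := by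
      rw [coe_eC]
      change coeffMap _ _ = qExpand ℂ p (qExpand ℂ p (coeffMap _ _))
      rw [coeffMap_qExpand, coeffMap_qExpand]
    have h4 : cEmb Qb ℂ (twProd Qb p (dia Qb H g f : LaurentSeries Qb)) =
        twProd ℂ p (dia ℂ H g (eC H f) : LaurentSeries ℂ) := by
      rw [← eC_dia, coe_eC]
      exact coeffMap_twProd _ hζ _
    rw [h3, h4]
  obtain ⟨y, hy⟩ := H18J.exists_theta_eq (K := Qb) (z := (Y : LaurentSeries ℂ)) (fun n => by
    rw [← qExpand_coeff_mul (N := p) (Y : LaurentSeries ℂ) n, ← h1]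
    exact ⟨_, (coeffMap_coeff _ _ _).symm⟩)
  have hy' : cEmb Qb ℂ y = (Y : LaurentSeries ℂ) := hy
  have hmem : y ∈ FK Qb (GamH N H) := by
    apply mem_of_cEmb_mem_extend (L := ℂ)
    rw [H18J.extend_FK, hy']
    exact Y.2
  refine ⟨⟨y, hmem⟩, ?_⟩
  apply H18J.cEmb_injective Qb (L := ℂ)
  change cEmb Qb ℂ (qExpand Qb p y) = cEmb Qb ℂ R
  rw [h1, ← hy']
  exact coeffMap_qExpand _ _ _

variable (H) in
/-- The Hecke operator on functions over `ℚ̄`. -/
def tpF (hcop : Nat.Coprime N p) {g : Gamma0 N} (hg : InvP p g) (f : FK Qb (GamH N H)) :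
    FK Qb (GamH N H) := (exists_tp hcop hg f).choose

variable (hcop : Nat.Coprime N p) {g : Gamma0 N} (hg : InvP p g)

theorem tpF_rel (f : FK Qb (GamH N H)) :
    TpRel Qb p (f : LaurentSeries Qb) (dia Qb H g f : LaurentSeries Qb) (tpF H hcop hg f) :=
  (exists_tp hcop hg f).choose_spec

/-- Hecke operators commute with the Galois action. -/
theorem galF_tpF (σ : Γℚ) (f : FK Qb (GamH N H)) :
    galF H σ (tpF H hcop hg f) = tpF H hcop hg (galF H σ f) := by
  obtain ⟨ζ, hζ⟩ := exists_zeta p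
  have h1 := (tpF_rel hcop hg f).map (σ : Qb →+* Qb) hζ
  have h2 := tpF_rel hcop hg (galF H σ f)
  rw [← galF_dia] at h2
  exact Subtype.ext (h1.unique h2)

/-- Hecke operators and root characters. -/
theorem KC.tp {m : ℕ} (hm : m ≠ 0) {f : FK Qb (GamH N H)} {ψ : GamH N H →* ℂˣ} (h : KC m f ψ) :
    KC m (tpF H hcop hg f) (heckeH N H p ψ) := by
  obtain ⟨z, hz⟩ := exists_hkReps (p := p) hcop
  obtain ⟨ζ, hζ⟩ := exists_zeta p
  obtain ⟨a, b, h, A, B, hr⟩ := exists_wroot hm h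
  have h1 := (tpF_rel hcop hg f).map (algebraMap Qb ℂ) hζ
  have h2 : TpRel ℂ p (eC H f : LaurentSeries ℂ) (H18J.dia ℂ H g (eC H f) : LaurentSeries ℂ)
      (eC H (tpF H hcop hg f) : LaurentSeries ℂ) := by
    rw [← eC_dia]
    exact h1
  exact (hr.tp hcop hz hg h2).hasRootChar hm

end Fermat.Agent.H11J
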