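import Fermat.Agent.H18J.Diam3
import Fermat.Agent.H02G.Pm
import Fermat.Agent.H02G.Finite
import Fermat.Agent.Descent.Main
import Fermat.Agent.FF.T4

/-!
# Root characters of the functions of level `Γ_H(N)` over `ℚ̄`
-/

set_option autoImplicit false
set_option linter.style.haveILetI false
set_option linter.unusedSectionVars false
set_option maxSynthPendingDepth 3

noncomputable section

namespace Fermat.Agent.H11J

open AlgebraicCurve ModularCurve CongruenceSubgroup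
open Fermat.Agent.H26 (cEmb embBC coe_embBC descent_surj descent_inj)
open Fermat.Agent.H22 (GamH)
open Fermat.Agent.H18J (FK jK mem_FK_of_mem cEmb_mem_FK FK_C_eq_mfq laurentBaseChange_F0 F0)
open Fermat.Agent.H02G (HasRootChar IsPar mfq EmbMF StrongDvd pm mfq_pm embE embEpm)
open scoped IntermediateField

local notation "Qb" => AlgebraicClosure ℚ

/-! ### Generalities on the function fields -/

section Gen

variable (K : Type*) [Field K] [Algebra K ℂ] {N : ℕ} [NeZero N] (H : Subgroup (ZMod N)ˣ)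

instance funField [IsAlgClosed K] : FF.FunField K (FK K (GamH N H)) :=
  ⟨jK K (GamH N H), H18J.transcendental_jK K _, H18J.finite_adjoin_jK K N _⟩

theorem exists_inf [IsAlgClosed K] : ∃ v : Place K (FK K (GamH N H)),
    ∀ z : FK K (GamH N H), v.ord z = (z : LaurentSeries K).order := by
  apply H26.exists_place_order
  refine ⟨(jK K (GamH N H))⁻¹, ?_⟩
  have h1 : (((jK K (GamH N H))⁻¹ : FK K (GamH N H)) : LaurentSeries K) = (jqModC K)⁻¹ := rfl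
  have h2 : jqModC K * (jqModC K)⁻¹ = 1 := mul_inv_cancel₀ H18.jqModC_ne_zero
  have h3 : ((jqModC K)⁻¹ : LaurentSeries K) ≠ 0 := inv_ne_zero H18.jqModC_ne_zero
  have h4 := HahnSeries.order_mul (x := jqModC K) (y := (jqModC K)⁻¹) H18.jqModC_ne_zero h3
  rw [h2, HahnSeries.order_one, H18.order_jqModC] at h4
  rw [h1]
  linarith

end Gen

/-! ### Root characters -/

section KC

variable [Algebra (AlgebraicClosure ℚ) ℂ] {N : ℕ} [NeZero N] (H : Subgroup (ZMod N)ˣ)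

/-- the coefficient embedding. -/
def eC : FK Qb (GamH N H) →+* FK ℂ (GamH N H) :=
  ((cEmb Qb ℂ).comp (FK Qb (GamH N H)).val.toRingHom).codRestrict (FK ℂ (GamH N H)).toSubring
    fun x => cEmb_mem_FK Qb x.2

@[simp] theorem coe_eC (x : FK Qb (GamH N H)) :
    (eC H x : LaurentSeries ℂ) = cEmb Qb ℂ (x : LaurentSeries Qb) := rfl

/-- the embedding data, for `±Γ`. -/
def embQb : EmbMF (pm (GamH N H)) Qb (FK Qb (GamH N H)) where
  σ := (FK ℂ (GamH N H)).val.toRingHom.comp (eC H)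
  mem x := by
    rw [mfq_pm, ← FK_C_eq_mfq]
    exact (eC H x).2
  const c := by
    refine ⟨algebraMap Qb ℂ c, ?_⟩
    change cEmb Qb ℂ (algebraMap Qb (LaurentSeries Qb) c) = _
    rw [show cEmb Qb ℂ (algebraMap Qb (LaurentSeries Qb) c) =
      algebraMap ℂ (LaurentSeries ℂ) (algebraMap Qb ℂ c) from H26.coeffMap_algebraMap' _ _]
    exact LaurentSeries.algebraMap_apply ℂ _

variable {H}

/-- functions with divisor divisible by `m` -/
def Dv (m : ℕ) (f : FK Qb (GamH N H)) : Prop :=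
  f ≠ 0 ∧ ∀ v : Place Qb (FK Qb (GamH N H)), (m : ℤ) ∣ v.ord f

/-- `ψ` is the root character of `f`. -/
def KC (m : ℕ) (f : FK Qb (GamH N H)) (ψ : GamH N H →* ℂˣ) : Prop :=
  HasRootChar (GamH N H) m (eC H f : LaurentSeries ℂ) ψ

variable {m : ℕ} {f g : FK Qb (GamH N H)} {ψ ψ' : GamH N H →* ℂˣ}

theorem eC_ne_zero (hf : f ≠ 0) : (eC H f : LaurentSeries ℂ) ≠ 0 := fun h =>
  hf ((map_eq_zero (eC H)).1 (Subtype.ext h))

theorem eC_mem (f : FK Qb (GamH N H)) : (eC H f : LaurentSeries ℂ) ∈ mfq (GamH N H) := by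
  rw [← FK_C_eq_mfq]
  exact (eC H f).2

theorem Dv.exists_KC (hm : m ≠ 0) (h : Dv m f) : ∃ ψ, IsPar ψ ∧ KC m f ψ := by
  have hx' : (eC H f : LaurentSeries ℂ) ≠ 0 := eC_ne_zero h.1
  have hs : StrongDvd (pm (GamH N H)) m (eC H f : LaurentSeries ℂ) :=
    (embQb H).strongDvd h.1 h.2
  obtain ⟨ψ, hψ⟩ := H02G.exists_hasRootChar (Γ := pm (GamH N H)) hm
    (x := (eC H f : LaurentSeries ℂ)) (by rw [mfq_pm]; exact eC_mem f) hx' (fun τ => hs.dvd _)
  refine ⟨_, ⟨fun γ τ h => ?_, fun γ h => ?_⟩, hψ.of_pm⟩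
  · exact hψ.eq_one_of_fix hm hs ⟨γ, H02G.le_pm γ.2⟩ h
  · exact hψ.eq_one_of_trace_sq hm hs ⟨γ, H02G.le_pm γ.2⟩ h

theorem KC.unique (hm : m ≠ 0) (h : KC m f ψ) (h' : KC m f ψ') : ψ = ψ' :=
  HasRootChar.unique hm h h'

theorem KC.mul (h : KC m f ψ) (h' : KC m g ψ') : KC m (f * g) (ψ * ψ') := by
  have := HasRootChar.mul h h'
  rwa [KC, map_mul]

theorem KC.one (hm : m ≠ 0) : KC m (1 : FK Qb (GamH N H)) 1 := by
  rw [KC, map_one]
  exact H02G.hasRootChar_one hm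

theorem KC.pow_one (hm : m ≠ 0) (hg : g ≠ 0) : KC m (g ^ m) 1 := by
  have := H02G.hasRootChar_pow (m := m) hm (eC_mem g) (eC_ne_zero hg)
  rwa [KC, map_pow]

theorem KC.ne_zero (h : KC m f ψ) : f ≠ 0 := by
  rintro rfl
  exact HasRootChar.ne_zero h (by rw [map_zero]; rfl)

theorem KC.pow (h : KC m f ψ) (hm : m ≠ 0) (n : ℕ) : KC m (f ^ n) (ψ ^ n) := by
  induction n with
  | zero => rw [pow_zero, pow_zero]; exact KC.one hm
  | succ n ih => rw [pow_succ, pow_succ]; exact ih.mul h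

theorem KC.inv (hm : m ≠ 0) (h : KC m f ψ) : KC m f⁻¹ ψ⁻¹ := by
  have hf := h.ne_zero
  -- `f⁻¹ = f ^ (m - 1) / f ^ m`
  obtain ⟨k, rfl⟩ := Nat.exists_eq_succ_of_ne_zero hm
  have h1 := (h.pow hm k).mul (KC.pow_one (m := k + 1) hm (inv_ne_zero hf))
  have h2 : f ^ k * f⁻¹ ^ (k + 1) = f⁻¹ := by
    rw [pow_succ, ← mul_assoc, ← mul_pow, mul_inv_cancel₀ hf, one_pow, one_mul]
  rw [h2, mul_one] at h1
  have h3 : ψ ^ k = ψ⁻¹ := by
    ext γ
    have h4 := HasRootChar.pow_eq_one hm h γ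
    rw [MonoidHom.pow_apply, MonoidHom.inv_apply]
    congr 1
    rw [eq_inv_iff_mul_eq_one, ← pow_succ]
    exact h4
  rwa [h3] at h1

theorem KC.div (hm : m ≠ 0) (h : KC m f ψ) (h' : KC m g ψ') : KC m (f / g) (ψ * ψ'⁻¹) := by
  rw [div_eq_mul_inv]
  exact h.mul (h'.inv hm)

theorem Dv.mul (h : Dv m f) (h' : Dv m g) : Dv m (f * g) :=
  ⟨mul_ne_zero h.1 h'.1, fun v => by rw [v.ord_mul h.1 h'.1]; exact dvd_add (h.2 v) (h'.2 v)⟩

theorem Dv.pow_self (hg : g ≠ 0) : Dv m (g ^ m) :=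
  ⟨pow_ne_zero _ hg, fun v => by rw [← zpow_natCast, v.ord_zpow]; exact dvd_mul_right _ _⟩

theorem Dv.one : Dv m (1 : FK Qb (GamH N H)) := ⟨one_ne_zero, fun v => by rw [v.ord_one]; exact dvd_zero _⟩

theorem Dv.inv (h : Dv m f) : Dv m f⁻¹ :=
  ⟨inv_ne_zero h.1, fun v => by rw [v.ord_inv]; exact (dvd_neg).2 (h.2 v)⟩

theorem Dv.pow (h : Dv m f) (n : ℕ) : Dv m (f ^ n) :=
  ⟨pow_ne_zero _ h.1, fun v => by rw [← zpow_natCast, v.ord_zpow]; exact (h.2 v).mul_left _⟩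

/-! ### Descent -/

theorem descent_inj' {F₀ : IntermediateField ℚ (LaurentSeries ℚ)}
    {EK : IntermediateField Qb (LaurentSeries Qb)} {EL : IntermediateField ℂ (LaurentSeries ℂ)}
    (hK : EK = laurentBaseChange Qb F₀) (hL : EL = laurentBaseChange ℂ F₀) {m : ℕ} (hm : 0 < m)
    {f₀ : LaurentSeries Qb} (hf₀ : f₀ ∈ EK) {g : LaurentSeries ℂ} (hg : g ∈ EL)
    (h : cEmb Qb ℂ f₀ = g ^ m) : ∃ g₀ ∈ EK, f₀ = g₀ ^ m := by
  subst hK hL
  obtain ⟨g₀, -, h1⟩ := descent_inj ℂ (F₀ := F₀) (f₀ := ⟨f₀, hf₀⟩) (g := ⟨g, hg⟩) hm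
    (Subtype.ext h)
  exact ⟨g₀, g₀.2, congrArg Subtype.val h1⟩

/-- A function with trivial root character is an `m`-th power. -/
theorem KC.exists_pow (hm : m ≠ 0) (h : KC m f 1) : ∃ w : FK Qb (GamH N H), w ^ m = f := by
  obtain ⟨y, hy⟩ := H02G.exists_pow_eq_of_trivial (E := FK ℂ (GamH N H)) FK_C_eq_mfq hm
    (x := eC H f) h
  obtain ⟨g₀, hg₀, h1⟩ := descent_inj' (F₀ := F0 H) (laurentBaseChange_F0 (H := H) Qb).symm
    (laurentBaseChange_F0 (H := H) ℂ).symm (Nat.pos_of_ne_zero hm) f.2 y.2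
    (congrArg Subtype.val hy.symm)
  exact ⟨⟨g₀, hg₀⟩, Subtype.ext h1.symm⟩

theorem KC.exists_eq_mul_pow (hm : m ≠ 0) (h : KC m f ψ) (h' : KC m g ψ) :
    ∃ w : FK Qb (GamH N H), w ≠ 0 ∧ f = g * w ^ m := by
  have h1 := h.div hm h'
  rw [mul_inv_cancel] at h1
  obtain ⟨w, hw⟩ := h1.exists_pow hm
  refine ⟨w, ?_, ?_⟩
  · rintro rfl
    rw [zero_pow hm] at hw
    exact h1.ne_zero hw.symm
  · rw [hw, mul_div_cancel₀ _ h'.ne_zero]

theorem descent_surj' {F₀ : IntermediateField ℚ (LaurentSeries ℚ)}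
    {EK : IntermediateField Qb (LaurentSeries Qb)} {EL : IntermediateField ℂ (LaurentSeries ℂ)}
    (hK : EK = laurentBaseChange Qb F₀) (hL : EL = laurentBaseChange ℂ F₀) {m : ℕ} (hm : 0 < m)
    [HasPrincipalDivisors ℂ EL]
    (hdegL : ∀ v : Place ℂ EL, v.deg = 1) (hdegK : ∀ v : Place Qb EK, v.deg = 1)
    (x₀ : EK) (hx₀ : (x₀ : LaurentSeries Qb).order < 0)
    (t : EL) (ht : (t : LaurentSeries ℂ).order = 1)
    (hfin : ∀ s : ℕ → EL, (∀ n, s n ≠ 0 ∧ ∀ v : Place ℂ EL, (m : ℤ) ∣ v.ord (s n)) →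
      ∃ i j : ℕ, i ≠ j ∧ ∃ v : EL, s i = s j * v ^ m)
    (f : EL) (hf : f ≠ 0) (hfm : ∀ v : Place ℂ EL, (m : ℤ) ∣ v.ord f) :
    ∃ (f₀ : EK) (u : EL), f₀ ≠ 0 ∧ u ≠ 0 ∧ cEmb Qb ℂ (f₀ : LaurentSeries Qb) =
      (f * u ^ m : EL) ∧ ∀ v : Place Qb EK, (m : ℤ) ∣ v.ord f₀ := by
  subst hK hL
  obtain ⟨f₀, u, h1, h2, h3, h4, -⟩ := descent_surj (K := Qb) ℂ hdegL hdegK x₀ hx₀ t ht hm hfin f
    hf hfm
  exact ⟨f₀, u, h1, h2, congrArg Subtype.val h3, h4⟩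

/-- **Every parabolic character of exponent `m` is the root character of a function over `ℚ̄`.** -/
theorem exists_of_isPar (hm : m ≠ 0) (hψ : IsPar ψ) (hψm : ∀ γ, ψ γ ^ m = 1) :
    ∃ f : FK Qb (GamH N H), Dv m f ∧ KC m f ψ := by
  obtain ⟨x, hx, hr, hd⟩ := H02G.exists_of_isPar (E := FK ℂ (GamH N H)) FK_C_eq_mfq hm hψ hψm
  obtain ⟨f₀, u, h1, h2, h3, h4⟩ := descent_surj' (F₀ := F0 H)
    (laurentBaseChange_F0 (H := H) Qb).symm
    (laurentBaseChange_F0 (H := H) ℂ).symm (Nat.pos_of_ne_zero hm)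
    (fun v => FF.deg_eq_one v) (fun v => FF.deg_eq_one v) (jK Qb (GamH N H)) (by
      change (jqModC Qb).order < 0
      rw [H18.order_jqModC]
      norm_num) (jK ℂ (GamH N H))⁻¹ (by
      obtain ⟨v, hv⟩ := exists_inf ℂ H
      rw [← hv, v.ord_inv, hv]
      change -(jqModC ℂ).order = 1
      rw [H18.order_jqModC]
      norm_num) (by
      intro s hs
      have hE : FK ℂ (GamH N H) = mfq (GamH N H) := FK_C_eq_mfq
      obtain ⟨i, j, hij, z, hz, -, hzz⟩ := H02G.exists_eq_mul_pow_of_strongDvd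
        (Γ := pm (GamH N H)) hm (fun i => (s i : LaurentSeries ℂ))
        (fun i => by rw [mfq_pm, ← hE]; exact (s i).2)
        (fun i h => (hs i).1 (Subtype.ext h))
        (fun i => (embEpm hE).strongDvd (hs i).1 (hs i).2)
      rw [mfq_pm, ← hE] at hz
      exact ⟨i, j, hij, ⟨z, hz⟩, Subtype.ext hzz⟩) x hx hd
  refine ⟨f₀, ⟨h1, h4⟩, ?_⟩
  have hu0 : (u : LaurentSeries ℂ) ≠ 0 := fun h => h2 (Subtype.ext h)
  have hu : (u : LaurentSeries ℂ) ∈ mfq (GamH N H) := by rw [← FK_C_eq_mfq]; exact u.2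
  have h5 := hr.mul (H02G.hasRootChar_pow hm hu hu0)
  rw [mul_one] at h5
  have h6 : (eC H f₀ : LaurentSeries ℂ) = (x : LaurentSeries ℂ) * (u : LaurentSeries ℂ) ^ m := h3
  rw [KC, h6]
  exact h5

theorem KC.pow_eq_one (hm : m ≠ 0) (h : KC m f ψ) (γ : GamH N H) : ψ γ ^ m = 1 :=
  HasRootChar.pow_eq_one hm h γ

/-- A function with parabolic root character has divisor divisible by `m`. -/
theorem KC.dv (hm : m ≠ 0) (h : KC m f ψ) (hψ : IsPar ψ) : Dv m f := by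
  obtain ⟨g, hg, hgψ⟩ := exists_of_isPar hm hψ (fun γ => h.pow_eq_one hm γ)
  obtain ⟨w, hw, rfl⟩ := h.exists_eq_mul_pow hm hgψ
  exact hg.mul (Dv.pow_self hw)

theorem Dv.isPar (hm : m ≠ 0) (h : Dv m f) (hψ : KC m f ψ) : IsPar ψ := by
  obtain ⟨ψ', h1, h2⟩ := h.exists_KC hm
  rwa [hψ.unique hm h2]

end KC

end Fermat.Agent.H11J
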