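import Fermat.Agent.H11J.KC

/-!
# Root characters in weight zero
-/

set_option autoImplicit false
set_option linter.style.haveILetI false
set_option linter.unusedSectionVars false

noncomputable section

namespace Fermat.Agent.H11J

open UpperHalfPlane hiding I
open ModularForm EisensteinSeries Filter Complex Topology Function CongruenceSubgroup
open ModularCurve
open scoped MatrixGroups Manifold Real Nat

local notation "Δ" => ModularForm.discriminant

open Fermat.Agent.H01 (qLf)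
open Fermat.Agent.H02 (modAlg tr tr_div_discriminant good_discriminant IsLau qLauFun
  qS bdd_mono IsSlow tr_tr tr_one tr_apply)
open Fermat.Agent.H02G (IsLevel mfq IsMF MFRep RootData HasRootChar hasRootChar_iff)
open Fermat.Agent.Igusa (IsExp)
open Fermat.Agent.H18J (isExp_qLauFun FK FK_C_eq_mfq)

variable {Γ : Subgroup SL(2, ℤ)} [H02G.IsLevel Γ]

/-- Weight zero root data. -/
structure WRoot (Γ : Subgroup SL(2, ℤ)) (m : ℕ) (x : LaurentSeries ℂ) (ψ : Γ →* ℂˣ)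
    (a b h : ℍ → ℂ) (A B : LaurentSeries ℂ) : Prop where
  ha : a ∈ modAlg Γ
  hb : b ∈ modAlg Γ
  ha0 : a ≠ 0
  hb0 : b ≠ 0
  hA : IsExp 1 a A
  hB : IsExp 1 b B
  eq : x * B = A
  mdiff : MDiff h
  pow_eq : h ^ m = a * b ^ (m - 1)
  law : ∀ (γ : Γ) (z : ℍ), h ((γ : SL(2, ℤ)) • z) = ψ γ * h z

variable {m : ℕ} {x : LaurentSeries ℂ} {ψ : Γ →* ℂˣ}

theorem mdiff_div_disc {f : ℍ → ℂ} (hf : MDiff f) (n : ℕ) : MDiff (f / Δ ^ n) := by
  have h1 : f / Δ ^ n = fun z => f z * (Δ z ^ n)⁻¹ := by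
    ext z; rw [Pi.div_apply, Pi.pow_apply, div_eq_mul_inv]
  rw [h1]
  refine hf.mul ?_
  have h2 : DifferentiableOn ℂ (fun w : ℂ => ((Δ ^ n) (ofComplex w))⁻¹) {z : ℂ | 0 < z.im} := by
    refine DifferentiableOn.inv ?_ ?_
    · exact UpperHalfPlane.mdifferentiable_iff.mp (good_discriminant.pow n).holo
    · intro w _
      exact pow_ne_zero n (discriminant_ne_zero _)
  rw [UpperHalfPlane.mdifferentiable_iff]
  exact h2

theorem exists_wroot (hm : m ≠ 0) (hx : HasRootChar Γ m x ψ) :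
    ∃ a b h A B, WRoot Γ m x ψ a b h A B := by
  obtain ⟨k, f, g, H, hr⟩ := hasRootChar_iff.1 hx
  have hf := hr.rep.hf
  have hg := hr.rep.hg
  have hg1 := hr.rep.hg0
  rcases lt_or_ge k 0 with hk | hk
  · exfalso
    obtain ⟨A, rfl⟩ := hg
    apply hg1
    rw [ModularForm.isZero_of_neg_weight hk A]
    rfl
  obtain ⟨n, rfl⟩ := Int.eq_ofNat_of_zero_le hk
  have ha : IsMF Γ ((12 : ℤ) * n) (f * g ^ 11) :=
    (hf.mul (hg.pow 11)).cast (by push_cast; ring)
  have hb : IsMF Γ ((12 : ℤ) * n) (g ^ 12) := (hg.pow 12).cast (by push_cast; ring)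
  have hqb : qLf (g ^ 12) = qLf g ^ 12 := H02G.qLf_pow hg 12
  have hqa : qLf (f * g ^ 11) = qLf f * qLf g ^ 11 := by
    rw [hf.qLf_mul (hg.pow 11), H02G.qLf_pow hg 11]
  have e1 := H02G.qLauFun_div_discriminant ha
  have e2 := H02G.qLauFun_div_discriminant hb
  have hD := pow_ne_zero n Fermat.Agent.H02.qS_discriminant_ne_zero
  have e3 : x * qLauFun (g ^ 12 / Δ ^ n) = qLauFun (f * g ^ 11 / Δ ^ n) := by
    refine mul_right_cancel₀ hD ?_
    rw [mul_assoc, e2, e1, hqb, hqa, ← hr.rep.eq]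
    ring
  have hne : ∀ F : ℍ → ℂ, F ≠ 0 → F / Δ ^ n ≠ 0 := fun F hF h0 => hF (by
    rw [← H02G.div_mul_discriminant n F, h0, zero_mul])
  have ha0 : f * g ^ 11 ≠ 0 := H02G.mf_mul_ne_zero hf (hg.pow 11) hr.rep.hf0
    (Fermat.Agent.H01.pow_ne_zero_of_mdiff hg1 11)
  have hb0 : g ^ 12 ≠ 0 := Fermat.Agent.H01.pow_ne_zero_of_mdiff hg1 12
  obtain ⟨l, rfl⟩ := Nat.exists_eq_succ_of_ne_zero hm
  refine ⟨_, _, (H * g ^ 11) / Δ ^ n, _, _, H02G.div_discriminant_mem ha,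
    H02G.div_discriminant_mem hb, hne _ ha0, hne _ hb0,
    isExp_qLauFun (H02G.div_discriminant_mem ha), isExp_qLauFun (H02G.div_discriminant_mem hb), e3,
    mdiff_div_disc (hr.mdiff.mul (hg.pow 11).mdiff) n, ?_, fun γ z => ?_⟩
  · have h1 := hr.pow_eq
    rw [Nat.succ_sub_one] at h1 ⊢
    ext z
    have h2 := congrFun h1 z
    have hDz := discriminant_ne_zero z
    simp only [Pi.mul_apply, Pi.div_apply, Pi.pow_apply] at h2 ⊢
    have h3 : (H z * g z ^ 11 / Δ z ^ n) ^ l.succ =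
        (f z * g z ^ l) * (g z ^ 11) ^ (l + 1) / (Δ z ^ n) ^ (l + 1) := by
      rw [div_pow, mul_pow, h2]
    rw [h3, div_pow, div_mul_div_comm]
    congr 1 <;> ring
  · have h1 := tr_div_discriminant n (H * g ^ 11) (γ : SL(2, ℤ))
    have h2 : (H * g ^ 11) ∣[(12 : ℤ) * n] (γ : SL(2, ℤ)) = (ψ γ : ℂ) • (H * g ^ 11) := by
      have h3 : (12 : ℤ) * n = (n : ℤ) + ((11 : ℕ) : ℤ) * n := by push_cast; ring
      rw [h3, ModularForm.mul_slash_SL2, hr.slash γ, (hg.pow 11).slash_eq γ, smul_mul_assoc]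
    rw [h2] at h1
    have h4 := congrFun h1 z
    rw [tr_apply] at h4
    rw [h4]
    simp only [Pi.div_apply, Pi.smul_apply, smul_eq_mul, mul_div_assoc]

theorem WRoot.hasRootChar (hm : m ≠ 0) {a b h : ℍ → ℂ} {A B : LaurentSeries ℂ}
    (hr : WRoot Γ m x ψ a b h A B) : HasRootChar Γ m x ψ := by
  obtain ⟨n₁, h₁⟩ := H02G.exists_isMF_mul hr.ha
  obtain ⟨n₂, h₂⟩ := H02G.exists_isMF_mul hr.hb
  set n := n₁ + n₂ with hn
  have hd := fun k : ℕ => ((IsMF.discriminant Γ).pow k).cast (mul_comm (k : ℤ) 12)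
  have hf : IsMF Γ ((12 : ℤ) * n) (a * Δ ^ n) := by
    have := (h₁.mul (hd n₂)).cast (l := (12 : ℤ) * n) (by rw [hn]; push_cast; ring)
    rwa [mul_assoc, ← pow_add, ← hn] at this
  have hg : IsMF Γ ((12 : ℤ) * n) (b * Δ ^ n) := by
    have := (h₂.mul (hd n₁)).cast (l := (12 : ℤ) * n) (by rw [hn]; push_cast; ring)
    rwa [mul_assoc, ← pow_add, add_comm, ← hn] at this
  have hdiv : ∀ F : ℍ → ℂ, F * Δ ^ n / Δ ^ n = F := fun F => by
    ext z
    have hDz := discriminant_ne_zero z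
    simp only [Pi.mul_apply, Pi.div_apply, Pi.pow_apply]
    field_simp
  have hne : ∀ F : ℍ → ℂ, F ≠ 0 → F * Δ ^ n ≠ 0 := fun F hF h0 => hF (by
    rw [← hdiv F, h0]
    ext z
    simp)
  have e1 := H02G.qLauFun_div_discriminant hf
  have e2 := H02G.qLauFun_div_discriminant hg
  rw [hdiv] at e1 e2
  have eA : qLauFun a = A := (isExp_qLauFun hr.ha).unique one_pos hr.hA
  have eB : qLauFun b = B := (isExp_qLauFun hr.hb).unique one_pos hr.hB
  rw [eA] at e1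
  rw [eB] at e2
  refine hasRootChar_iff.2 ⟨(12 : ℤ) * n, a * Δ ^ n, b * Δ ^ n, h * Δ ^ n,
    ⟨hf, hg, hne _ hr.ha0, hne _ hr.hb0, ?_⟩, hr.mdiff.mul (good_discriminant.pow n).holo, ?_,
    fun γ => ?_⟩
  · rw [← e1, ← e2, ← hr.eq]
    ring
  · obtain ⟨l, rfl⟩ := Nat.exists_eq_succ_of_ne_zero hm
    have h1 := hr.pow_eq
    rw [Nat.succ_sub_one] at h1 ⊢
    rw [mul_pow, h1, mul_pow, pow_succ]
    ring
  · rw [H02G.slash_mul_discriminant]
    have : tr (γ : SL(2, ℤ)) h = (ψ γ : ℂ) • h := by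
      ext z
      rw [tr_apply, hr.law]
      rfl
    rw [this, smul_mul_assoc]

/-- Weight zero criterion for root characters. -/
theorem hasRootChar_iff_wroot (hm : m ≠ 0) :
    HasRootChar Γ m x ψ ↔ ∃ a b h A B, WRoot Γ m x ψ a b h A B :=
  ⟨exists_wroot hm, fun ⟨_, _, _, _, _, h⟩ => h.hasRootChar hm⟩

end Fermat.Agent.H11J
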