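import Fermat.Agent.H11J.EigRep
import Fermat.Agent.DefRing.Burnside
import Fermat.Agent.DS.Iface

/-!
# Semisimplification in dimension two
-/

set_option autoImplicit false
set_option linter.style.haveILetI false

noncomputable section

namespace Fermat.Agent.H11J

open Matrix

section SS

variable {G k : Type*} [Group G] [Field k]

/-- Diagonal part of an upper triangular representation. -/
theorem exists_diag (M : G →* Matrix (Fin 2) (Fin 2) k) (h : ∀ g, M g 1 0 = 0) :
    ∃ ρ : G →* GL (Fin 2) k, DS.SS ρ ∧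
      (∀ g, (ρ g : Matrix (Fin 2) (Fin 2) k).trace = (M g).trace ∧
        (ρ g : Matrix (Fin 2) (Fin 2) k).det = (M g).det) ∧ ∀ g, M g = 1 → ρ g = 1 := by
  let D : G →* Matrix (Fin 2) (Fin 2) k :=
    { toFun := fun g => !![M g 0 0, 0; 0, M g 1 1]
      map_one' := by
        rw [map_one]
        ext i j
        fin_cases i <;> fin_cases j <;> simp
      map_mul' := fun g g' => by
        rw [map_mul]
        ext i j
        fin_cases i <;> fin_cases j <;> simp [Matrix.mul_apply, h] }
  have hD : ∀ g, D g = !![M g 0 0, 0; 0, M g 1 1] := fun g => rfl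
  refine ⟨D.toHomUnits, Or.inr ⟨1, fun g => ?_⟩, fun g => ?_, fun g hg => ?_⟩
  · rw [one_mul, inv_one, mul_one]
    have : ((D.toHomUnits g : GL (Fin 2) k) : Matrix (Fin 2) (Fin 2) k) = D g := rfl
    rw [this, hD]
    simp
  · have : ((D.toHomUnits g : GL (Fin 2) k) : Matrix (Fin 2) (Fin 2) k) = D g := rfl
    rw [this, hD, Matrix.trace_fin_two, Matrix.trace_fin_two, Matrix.det_fin_two,
      Matrix.det_fin_two, h]
    simp
  · apply Units.ext
    have : ((D.toHomUnits g : GL (Fin 2) k) : Matrix (Fin 2) (Fin 2) k) = D g := rfl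
    rw [this, hD, hg]
    ext i j
    fin_cases i <;> fin_cases j <;> simp

/-- an invertible matrix with given first column -/
theorem exists_GL_col {v : Fin 2 → k} (hv : v ≠ 0) :
    ∃ P : GL (Fin 2) k, (P : Matrix (Fin 2) (Fin 2) k) *ᵥ ![1, 0] = v := by
  by_cases h0 : v 0 = 0
  · have h1 : v 1 ≠ 0 := fun h1 => hv (by
      ext i
      fin_cases i
      · exact h0
      · exact h1)
    refine ⟨Matrix.GeneralLinearGroup.mkOfDetNeZero !![v 0, 1; v 1, 0] (by
      rw [Matrix.det_fin_two_of]
      simpa using h1), ?_⟩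
    change !![v 0, 1; v 1, 0] *ᵥ ![1, 0] = v
    ext i
    fin_cases i <;> simp
  · refine ⟨Matrix.GeneralLinearGroup.mkOfDetNeZero !![v 0, 0; v 1, 1] (by
      rw [Matrix.det_fin_two_of]
      simpa using h0), ?_⟩
    change !![v 0, 0; v 1, 1] *ᵥ ![1, 0] = v
    ext i
    fin_cases i <;> simp

/-- **Semisimplification in dimension two.** -/
theorem exists_ss [IsAlgClosed k] (ρ : G →* Matrix (Fin 2) (Fin 2) k) :
    ∃ ρ' : G →* GL (Fin 2) k, DS.SS ρ' ∧
      (∀ g, (ρ' g : Matrix (Fin 2) (Fin 2) k).trace = (ρ g).trace ∧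
        (ρ' g : Matrix (Fin 2) (Fin 2) k).det = (ρ g).det) ∧ ∀ g, ρ g = 1 → ρ' g = 1 := by
  by_cases hspan : Submodule.span k (Set.range ρ) = ⊤
  · refine ⟨ρ.toHomUnits, Or.inl hspan, fun g => ⟨rfl, rfl⟩, fun g hg => Units.ext hg⟩
  · -- there is an invariant line
    let τ : G →* Module.End k (Fin 2 → k) :=
      (Matrix.toLinAlgEquiv' (R := k) (n := Fin 2)).toRingEquiv.toRingHom.toMonoidHom.comp ρ
    have hτ : ∀ g x, τ g x = ρ g *ᵥ x := fun g x => rfl
    obtain ⟨W, hW, hW0, hW1⟩ : ∃ W : Submodule k (Fin 2 → k), (∀ g, ∀ x ∈ W, τ g x ∈ W) ∧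
        W ≠ ⊥ ∧ W ≠ ⊤ := by
      by_contra hcon
      push Not at hcon
      have h1 := H04.span_range_eq_top_of_irreducible τ fun W hW => by
        by_cases h0 : W = ⊥
        · exact Or.inl h0
        · exact Or.inr (hcon W hW h0)
      apply hspan
      have h2 : Submodule.map ((Matrix.toLinAlgEquiv' (R := k) (n := Fin 2)).toLinearMap)
          (Submodule.span k (Set.range ρ)) = ⊤ := by
        rw [Submodule.map_span, ← h1]
        congr 1
        rw [← Set.range_comp]
        rfl
      rw [eq_top_iff]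
      intro x _
      have h3 : (Matrix.toLinAlgEquiv' (R := k) (n := Fin 2)).toLinearMap x ∈
          Submodule.map ((Matrix.toLinAlgEquiv' (R := k) (n := Fin 2)).toLinearMap)
          (Submodule.span k (Set.range ρ)) := by rw [h2]; trivial
      obtain ⟨y, hy, hyx⟩ := Submodule.mem_map.mp h3
      rwa [← (Matrix.toLinAlgEquiv' (R := k) (n := Fin 2)).injective hyx]
    obtain ⟨v, hv, hv0⟩ := Submodule.exists_mem_ne_zero_of_ne_bot hW0
    have hdim : Module.finrank k W = 1 := by
      have h1 : Module.finrank k W < 2 := by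
        have := Submodule.finrank_lt hW1
        rwa [Module.finrank_fin_fun] at this
      have h2 : 0 < Module.finrank k W := by
        rw [Module.finrank_pos_iff_exists_ne_zero]
        exact ⟨⟨v, hv⟩, fun h => hv0 (congrArg Subtype.val h)⟩
      omega
    have hc : ∀ g, ∃ c : k, ρ g *ᵥ v = c • v := by
      intro g
      have h1 := (finrank_eq_one_iff_of_nonzero' (⟨v, hv⟩ : W)
        (fun h => hv0 (congrArg Subtype.val h))).1 hdim ⟨τ g v, hW g v hv⟩
      obtain ⟨c, hc⟩ := h1
      exact ⟨c, (congrArg Subtype.val hc).symm⟩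
    obtain ⟨P, hP⟩ := exists_GL_col hv0
    let M : G →* Matrix (Fin 2) (Fin 2) k :=
      { toFun := fun g => (P⁻¹ : GL (Fin 2) k).1 * ρ g * P.1
        map_one' := by rw [map_one, mul_one, ← Units.val_mul, inv_mul_cancel, Units.val_one]
        map_mul' := fun g g' => by
          have h1 : P.1 * (P⁻¹ : GL (Fin 2) k).1 = 1 := by
            rw [← Units.val_mul, mul_inv_cancel, Units.val_one]
          rw [map_mul]
          calc (P⁻¹ : GL (Fin 2) k).1 * (ρ g * ρ g') * P.1
              = (P⁻¹ : GL (Fin 2) k).1 * ρ g * 1 * ρ g' * P.1 := by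
                rw [mul_one]; simp only [mul_assoc]
            _ = _ := by rw [← h1]; simp only [mul_assoc] }
    have hM : ∀ g, M g = (P⁻¹ : GL (Fin 2) k).1 * ρ g * P.1 := fun g => rfl
    have h10 : ∀ g, M g 1 0 = 0 := by
      intro g
      obtain ⟨c, hc⟩ := hc g
      have h1 : M g *ᵥ ![1, 0] = c • ![1, 0] := by
        rw [hM, ← Matrix.mulVec_mulVec, ← Matrix.mulVec_mulVec, hP, hc, Matrix.mulVec_smul, ← hP,
          Matrix.mulVec_mulVec, ← Units.val_mul, inv_mul_cancel, Units.val_one, Matrix.one_mulVec]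
      have h2 := congrFun h1 1
      simpa [Matrix.mulVec, dotProduct, Fin.sum_univ_two] using h2
    obtain ⟨ρ', h1, h2, h3⟩ := exists_diag M h10
    refine ⟨ρ', h1, fun g => ?_, fun g hg => h3 g ?_⟩
    · rw [(h2 g).1, (h2 g).2, hM]
      constructor
      · rw [Matrix.trace_mul_comm, ← mul_assoc, ← Units.val_mul, mul_inv_cancel, Units.val_one,
          one_mul]
      · rw [Matrix.det_mul, Matrix.det_mul, mul_right_comm, ← Matrix.det_mul, ← Units.val_mul,
          inv_mul_cancel, Units.val_one, Matrix.det_one, one_mul]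
    · rw [hM, hg, mul_one, ← Units.val_mul, inv_mul_cancel, Units.val_one]

end SS

end Fermat.Agent.H11J
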